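/-
Program B' (S34), audit item (A4) — helper42.

Degree bounds for a modular polynomial `Φ ∈ ℤ[Y][X]` of level `p` (in the sense of
`S28.IsModPoly`) in the inner variable `Y`, obtained from the factorisation over `ℂ((q))` by pole
orders:

* `coeff_zero_natDegree`        : `(Φ.coeff 0).natDegree = p + 1`;
* `isUnit_coeff_zero_leadingCoeff` : the leading coefficient of `Φ.coeff 0` is a unit of `ℤ`;
* `coeff_natDegree_le`          : `(Φ.coeff i).natDegree ≤ p` for `1 ≤ i`.

Consequence ("integrality along the cusps", both directions): if `Φ(j', j) = 0` in a field, then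
`1/j'` is integral over every ring `B` containing `1/j` in its Jacobson radical, and `1/j` is
integral over every ring containing `1/j'` in its Jacobson radical.
-/
import Mathlib
import Fermat.Agent.S28.Defs
import Fermat.Agent.S28.Formal
import Fermat.Agent.S28.H40.MonicOrder

set_option autoImplicit false

noncomputable section

namespace Fermat.Agent.S34.H42

open Polynomial Fermat.Agent.S28

/-! ### Lower bounds for the order of a Laurent series -/

section Laurent

variable {K : Type*} [Field K]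

/-- All coefficients of `f` below `m` vanish ("the order of `f` is at least `m`"). -/
def VB (f : LaurentSeries K) (m : ℤ) : Prop := ∀ n : ℤ, n < m → f.coeff n = 0

theorem VB.mono {f : LaurentSeries K} {m m' : ℤ} (h : VB f m) (hm : m' ≤ m) : VB f m' :=
  fun n hn => h n (lt_of_lt_of_le hn hm)

theorem VB.zero (m : ℤ) : VB (0 : LaurentSeries K) m := fun _ _ => rfl

theorem VB.one : VB (1 : LaurentSeries K) 0 := by
  intro n hn
  rw [HahnSeries.coeff_one]
  exact if_neg (ne_of_lt hn)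

theorem VB.neg {f : LaurentSeries K} {m : ℤ} (h : VB f m) : VB (-f) m := by
  intro n hn
  rw [HahnSeries.coeff_neg, h n hn, neg_zero]

theorem VB.add {f g : LaurentSeries K} {m : ℤ} (hf : VB f m) (hg : VB g m) : VB (f + g) m := by
  intro n hn
  rw [HahnSeries.coeff_add, hf n hn, hg n hn, add_zero]

theorem VB.sub {f g : LaurentSeries K} {m : ℤ} (hf : VB f m) (hg : VB g m) : VB (f - g) m := by
  intro n hn
  rw [HahnSeries.coeff_sub, hf n hn, hg n hn, sub_zero]

theorem VB.mul {f g : LaurentSeries K} {m m' : ℤ} (hf : VB f m) (hg : VB g m') :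
    VB (f * g) (m + m') := by
  intro n hn
  rw [HahnSeries.coeff_mul]
  refine Finset.sum_eq_zero fun ij hij => ?_
  have h := (Finset.mem_antidiagonal.mp hij).2.2
  by_cases h1 : ij.1 < m
  · rw [hf _ h1, zero_mul]
  · have h2 : ij.2 < m' := by omega
    rw [hg _ h2, mul_zero]

/-- `f = a q^m + (higher order terms)`, `a ≠ 0` in the applications. -/
def IsLd (f : LaurentSeries K) (m : ℤ) (a : K) : Prop := f.order = m ∧ f.leadingCoeff = a

theorem IsLd.of_coeff {f : LaurentSeries K} {m : ℤ} {a : K} (ha : a ≠ 0) (h1 : f.coeff m = a)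
    (h0 : VB f m) : IsLd f m a := by
  have hne0 : f.coeff m ≠ 0 := by rw [h1]; exact ha
  have hne : f ≠ 0 := HahnSeries.ne_zero_of_coeff_ne_zero hne0
  have horder : f.order = m := by
    refine le_antisymm (HahnSeries.order_le_of_coeff_ne_zero hne0) ?_
    by_contra hlt
    rw [not_le] at hlt
    exact hne (HahnSeries.coeff_order_eq_zero.mp (h0 _ hlt))
  exact ⟨horder, by rw [HahnSeries.leadingCoeff_eq, horder, h1]⟩

theorem IsLd.coeff {f : LaurentSeries K} {m : ℤ} {a : K} (h : IsLd f m a) : f.coeff m = a := by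
  have h2 := h.2
  rwa [HahnSeries.leadingCoeff_eq, h.1] at h2

theorem IsLd.vb {f : LaurentSeries K} {m : ℤ} {a : K} (h : IsLd f m a) : VB f m :=
  fun _ hn => HahnSeries.coeff_eq_zero_of_lt_order (h.1 ▸ hn)

theorem IsLd.mul {f g : LaurentSeries K} {m n : ℤ} {a b : K} (hf : IsLd f m a) (hg : IsLd g n b)
    (hab : a * b ≠ 0) : IsLd (f * g) (m + n) (a * b) := by
  have h1 : f.leadingCoeff * g.leadingCoeff ≠ 0 := by rw [hf.2, hg.2]; exact hab
  refine ⟨?_, ?_⟩
  · rw [HahnSeries.order_mul_of_ne_zero h1, hf.1, hg.1]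
  · rw [HahnSeries.leadingCoeff_mul_of_ne_zero h1, hf.2, hg.2]

theorem IsLd.neg {f : LaurentSeries K} {m : ℤ} {a : K} (hf : IsLd f m a) (ha : a ≠ 0) :
    IsLd (-f) m (-a) :=
  IsLd.of_coeff (neg_ne_zero.mpr ha) (by rw [HahnSeries.coeff_neg, hf.coeff]) hf.vb.neg

theorem IsLd.one : IsLd (1 : LaurentSeries K) 0 1 :=
  IsLd.of_coeff one_ne_zero (by rw [HahnSeries.coeff_one]; exact if_pos rfl) VB.one

theorem IsLd.prod_range (f : ℕ → LaurentSeries K) (a : ℕ → K) (m : ℤ)
    (h : ∀ b, IsLd (f b) m (a b)) (ha : ∀ b, a b ≠ 0) (n : ℕ) :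
    IsLd (∏ b ∈ Finset.range n, f b) ((n : ℤ) * m) (∏ b ∈ Finset.range n, a b) := by
  induction n with
  | zero =>
    rw [Finset.prod_range_zero, Finset.prod_range_zero, Nat.cast_zero, zero_mul]
    exact IsLd.one
  | succ n ih =>
    rw [Finset.prod_range_succ, Finset.prod_range_succ]
    have hne : (∏ b ∈ Finset.range n, a b) * a n ≠ 0 :=
      mul_ne_zero (Finset.prod_ne_zero_iff.mpr fun b _ => ha b) (ha n)
    have h1 := ih.mul (h n) hne
    have e : ((n + 1 : ℕ) : ℤ) * m = (n : ℤ) * m + m := by push_cast; ring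
    rw [e]
    exact h1

/-- Coefficients of `P(f)` below `deg P · m` vanish, for `f` monic of order `m < 0`. -/
theorem vb_aeval {f : LaurentSeries K} {m : ℤ} (h : H40.IsMO f m) (hm : m < 0)
    (P : Polynomial K) : VB (Polynomial.aeval f P) ((P.natDegree : ℤ) * m) := by
  intro k hk
  rw [Polynomial.aeval_eq_sum_range, HahnSeries.coeff_sum]
  refine Finset.sum_eq_zero fun i hi => ?_
  rw [H40.coeff_algebra_smul, (h.pow i).coeff_of_lt, mul_zero]
  have hi' : (i : ℤ) ≤ (P.natDegree : ℤ) := by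
    exact_mod_cast Nat.lt_succ_iff.mp (Finset.mem_range.mp hi)
  have : (P.natDegree : ℤ) * m ≤ (i : ℤ) * m := mul_le_mul_of_nonpos_right hi' hm.le
  omega

/-- Lower bounds for the coefficients of `(X - J₂) ∏_{b < n} (X - r b)`. -/
theorem vb_coeff_prod (J₂ : LaurentSeries K) (r : ℕ → LaurentSeries K) (M : ℤ) (hM : 1 ≤ M)
    (hJ : VB J₂ (-M)) (hr : ∀ b, VB (r b) (-1)) (n : ℕ) :
    ∀ i : ℕ, VB (((X - C J₂) * ∏ b ∈ Finset.range n, (X - C (r b))).coeff i) (-M - n + i) := by
  induction n with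
  | zero =>
    intro i
    rw [Finset.prod_range_zero, mul_one, coeff_sub]
    rcases i with _ | _ | i
    · rw [coeff_X_zero, coeff_C_zero, zero_sub]
      exact hJ.neg.mono (by push_cast; omega)
    · rw [coeff_X_one, coeff_C_of_ne_zero (by norm_num), sub_zero]
      exact VB.one.mono (by push_cast; omega)
    · rw [coeff_X_of_ne_one (by omega), coeff_C_of_ne_zero (by omega), sub_zero]
      exact VB.zero _
  | succ n ih =>
    intro i
    rw [Finset.prod_range_succ, ← mul_assoc]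
    cases i with
    | zero =>
      rw [Polynomial.mul_coeff_zero, coeff_sub, coeff_X_zero, coeff_C_zero, zero_sub]
      exact ((ih 0).mul (hr n).neg).mono (by push_cast; omega)
    | succ i =>
      rw [coeff_mul_X_sub_C]
      exact ((ih i).mono (by push_cast; omega)).sub
        (((ih (i + 1)).mul (hr n)).mono (by push_cast; omega))

end Laurent

/-! ### The complex data of a modular polynomial -/

section Data

variable {p : ℕ} {Φ : Polynomial (Polynomial ℤ)}

theorem vb_jS (c : ℂˣ) (k : ℕ) (hk : k ≠ 0) : VB (jS ℂ c k) (-(k : ℤ)) :=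
  fun n hn => jS_coeff_of_lt c k hk n hn

theorem isLd_jS (c : ℂˣ) (k : ℕ) (hk : k ≠ 0) :
    IsLd (jS ℂ c k) (-(k : ℤ)) ((c⁻¹ : ℂˣ) : ℂ) :=
  IsLd.of_coeff (Units.ne_zero _) (jS_coeff_neg c k hk) (vb_jS c k hk)

theorem isMO_jS (k : ℕ) (hk : k ≠ 0) : H40.IsMO (jS ℂ 1 k) (-(k : ℤ)) := by
  refine H40.IsMO.of_coeff ?_ fun n hn => jS_coeff_of_lt 1 k hk n hn
  rw [jS_coeff_neg 1 k hk, inv_one, Units.val_one]

/-- `evalY y Φ` coefficientwise, as `aeval` of the complexified coefficient. -/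
theorem coeff_evalY (y : LaurentSeries ℂ) (i : ℕ) :
    (evalY y Φ).coeff i = Polynomial.aeval y ((Φ.coeff i).map (Int.castRingHom ℂ)) := by
  rw [evalY, Polynomial.coe_mapRingHom, Polynomial.coeff_map, Polynomial.coe_eval₂RingHom,
    Polynomial.aeval_def, Polynomial.eval₂_map]
  congr 1
  exact RingHom.ext_int _ _

theorem natDegree_map_cast (P : Polynomial ℤ) :
    (P.map (Int.castRingHom ℂ)).natDegree = P.natDegree :=
  Polynomial.natDegree_map_eq_of_injective (RingHom.injective_int (Int.castRingHom ℂ)) P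

theorem leadingCoeff_map_cast (P : Polynomial ℤ) :
    (P.map (Int.castRingHom ℂ)).leadingCoeff = (P.leadingCoeff : ℂ) := by
  rw [Polynomial.leadingCoeff_map_of_injective (RingHom.injective_int (Int.castRingHom ℂ))]
  rfl

/-- The factorisation of a modular polynomial over `ℂ((q))` with the orders and leading
coefficients of all series involved. -/
theorem exists_data (hΦ : IsModPoly p Φ) (hp : p ≠ 0) :
    ∃ (y J₂ : LaurentSeries ℂ) (r : ℕ → LaurentSeries ℂ) (a : ℕ → ℂ),
      H40.IsMO y (-(p : ℤ)) ∧ IsLd J₂ (-((p : ℤ) * p)) 1 ∧ (∀ b, IsLd (r b) (-1) (a b)) ∧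
      (∀ b, a b ≠ 0) ∧ (∀ b, a b ^ p = 1) ∧
      evalY y Φ = (X - C J₂) * ∏ b ∈ Finset.range p, (X - C (r b)) := by
  have hζ₀ : IsPrimitiveRoot (Complex.exp (2 * Real.pi * Complex.I / p)) p :=
    Complex.isPrimitiveRoot_exp p hp
  obtain ⟨ζ, hζ⟩ := hζ₀.isUnit hp
  have hζ' : IsPrimitiveRoot ζ p := by
    rw [← IsPrimitiveRoot.coe_units_iff, hζ]
    exact hζ₀
  refine ⟨jS ℂ 1 p, jS ℂ 1 (p * p), fun b => jS ℂ (ζ ^ b) 1,
    fun b => (((ζ ^ b)⁻¹ : ℂˣ) : ℂ), isMO_jS p hp, ?_, fun b => ?_, fun b => Units.ne_zero _,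
    fun b => ?_, hΦ.fact ℂ ζ hζ'⟩
  · have h := isLd_jS 1 (p * p) (mul_ne_zero hp hp)
    rw [inv_one, Units.val_one] at h
    have e : (-((p * p : ℕ) : ℤ)) = -((p : ℤ) * p) := by push_cast; ring
    rw [e] at h
    exact h
  · have h := isLd_jS (ζ ^ b) 1 one_ne_zero
    rw [Nat.cast_one] at h
    exact h
  · rw [← Units.val_pow_eq_pow_val, inv_pow, ← pow_mul, mul_comm, pow_mul, hζ'.pow_eq_one, one_pow,
      inv_one, Units.val_one]

end Data

/-! ### The degree bounds -/

section Degree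

variable {p : ℕ} {Φ : Polynomial (Polynomial ℤ)}

/-- **(M3)** For `i ≥ 1` the coefficient of `X^i` in `Φ` has degree at most `p` in `Y`. -/
theorem coeff_natDegree_le (hΦ : IsModPoly p Φ) (hp : p ≠ 0) {i : ℕ} (hi : 1 ≤ i) :
    (Φ.coeff i).natDegree ≤ p := by
  obtain ⟨y, J₂, r, a, hy, hJ, hr, -, -, hfact⟩ := exists_data hΦ hp
  by_contra hcon
  rw [not_le] at hcon
  have hp' : (0 : ℤ) < p := by exact_mod_cast Nat.pos_of_ne_zero hp
  have hpneg : (-(p : ℤ)) < 0 := by omega
  have hne : Φ.coeff i ≠ 0 := by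
    intro h
    rw [h, natDegree_zero] at hcon
    omega
  have h1 := hy.coeff_aeval hpneg ((Φ.coeff i).map (Int.castRingHom ℂ))
  have h2 : VB ((evalY y Φ).coeff i) (-((p : ℤ) * p) - p + i) := by
    rw [hfact]
    exact vb_coeff_prod J₂ r ((p : ℤ) * p) (by nlinarith) hJ.vb (fun b => (hr b).vb) p i
  rw [coeff_evalY] at h2
  have hd : (p : ℤ) + 1 ≤ ((Φ.coeff i).natDegree : ℤ) := by exact_mod_cast hcon
  have hi' : (1 : ℤ) ≤ i := by exact_mod_cast hi
  have h3 := h2 ((((Φ.coeff i).map (Int.castRingHom ℂ)).natDegree : ℤ) * (-(p : ℤ))) (by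
    rw [natDegree_map_cast]
    nlinarith [mul_le_mul_of_nonneg_right hd hp'.le])
  rw [h1, leadingCoeff_map_cast] at h3
  exact hne (Polynomial.leadingCoeff_eq_zero.mp (by exact_mod_cast h3))

theorem coeff_zero_aux (hΦ : IsModPoly p Φ) (hp : p ≠ 0) :
    (Φ.coeff 0).natDegree = p + 1 ∧ ((Φ.coeff 0).leadingCoeff : ℂ) ^ (2 * p) = 1 := by
  obtain ⟨y, J₂, r, a, hy, hJ, hr, ha, hap, hfact⟩ := exists_data hΦ hp
  have hp' : (0 : ℤ) < p := by exact_mod_cast Nat.pos_of_ne_zero hp
  have hpneg : (-(p : ℤ)) < 0 := by omega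
  have hW : (evalY y Φ).coeff 0 = (-J₂) * ∏ b ∈ Finset.range p, (-(r b)) := by
    rw [hfact, Polynomial.mul_coeff_zero, coeff_sub, coeff_X_zero, coeff_C_zero, zero_sub]
    congr 1
    rw [Polynomial.coeff_zero_eq_eval_zero, Polynomial.eval_prod]
    refine Finset.prod_congr rfl fun b _ => ?_
    rw [eval_sub, eval_X, eval_C, zero_sub]
  have hprod : IsLd (∏ b ∈ Finset.range p, (-(r b))) ((p : ℤ) * (-1))
      (∏ b ∈ Finset.range p, (-(a b))) :=
    IsLd.prod_range (fun b => -(r b)) (fun b => -(a b)) (-1) (fun b => (hr b).neg (ha b))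
      (fun b => neg_ne_zero.mpr (ha b)) p
  have hu : (-1 : ℂ) * ∏ b ∈ Finset.range p, (-(a b)) ≠ 0 :=
    mul_ne_zero (by norm_num) (Finset.prod_ne_zero_iff.mpr fun b _ => neg_ne_zero.mpr (ha b))
  have hWld : IsLd ((evalY y Φ).coeff 0) (-((p : ℤ) * p) + (p : ℤ) * (-1))
      (-1 * ∏ b ∈ Finset.range p, (-(a b))) := by
    rw [hW]
    exact (hJ.neg one_ne_zero).mul hprod hu
  rw [coeff_evalY] at hWld
  have hPne : (Φ.coeff 0).map (Int.castRingHom ℂ) ≠ 0 := by
    intro h0
    have := hWld.coeff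
    rw [h0, map_zero, HahnSeries.coeff_zero] at this
    exact hu this.symm
  have h1 := hy.coeff_aeval hpneg ((Φ.coeff 0).map (Int.castRingHom ℂ))
  have h2 := vb_aeval hy hpneg ((Φ.coeff 0).map (Int.castRingHom ℂ))
  have hlc : ((Φ.coeff 0).map (Int.castRingHom ℂ)).leadingCoeff ≠ 0 :=
    Polynomial.leadingCoeff_ne_zero.mpr hPne
  have hord : (((Φ.coeff 0).map (Int.castRingHom ℂ)).natDegree : ℤ) * (-(p : ℤ)) =
      -((p : ℤ) * p) + (p : ℤ) * (-1) := by
    rcases lt_trichotomy ((((Φ.coeff 0).map (Int.castRingHom ℂ)).natDegree : ℤ) * (-(p : ℤ)))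
      (-((p : ℤ) * p) + (p : ℤ) * (-1)) with h | h | h
    · exfalso
      have := hWld.vb _ h
      rw [h1] at this
      exact hlc this
    · exact h
    · exfalso
      have := h2 _ h
      rw [hWld.coeff] at this
      exact hu this
  have hdeg : ((Φ.coeff 0).map (Int.castRingHom ℂ)).natDegree = p + 1 := by
    have h0 : (p : ℤ) * ((((Φ.coeff 0).map (Int.castRingHom ℂ)).natDegree : ℤ) - (p + 1)) = 0 := by
      linear_combination (-1 : ℤ) * hord
    rcases mul_eq_zero.mp h0 with h | h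
    · omega
    · have : (((Φ.coeff 0).map (Int.castRingHom ℂ)).natDegree : ℤ) = p + 1 := by omega
      exact_mod_cast this
  refine ⟨by rw [← natDegree_map_cast]; exact hdeg, ?_⟩
  have hlc2 : ((Φ.coeff 0).map (Int.castRingHom ℂ)).leadingCoeff =
      -1 * ∏ b ∈ Finset.range p, (-(a b)) := by
    rw [← h1, hord]
    exact hWld.coeff
  rw [← leadingCoeff_map_cast, hlc2, mul_pow, ← Finset.prod_pow]
  have e1 : ((-1 : ℂ)) ^ (2 * p) = 1 := by
    rw [pow_mul]
    norm_num
  have e2 : ∀ b, (-(a b)) ^ (2 * p) = 1 := fun b => by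
    rw [neg_pow, e1, one_mul, mul_comm, pow_mul, hap b, one_pow]
  rw [e1, one_mul]
  exact Finset.prod_eq_one fun b _ => e2 b

/-- **(M1)** The constant term (in `X`) of `Φ` has degree exactly `p + 1` in `Y`. -/
theorem coeff_zero_natDegree (hΦ : IsModPoly p Φ) (hp : p ≠ 0) :
    (Φ.coeff 0).natDegree = p + 1 :=
  (coeff_zero_aux hΦ hp).1

/-- **(M2)** The leading coefficient of the constant term of `Φ` is `±1`. -/
theorem isUnit_coeff_zero_leadingCoeff (hΦ : IsModPoly p Φ) (hp : p ≠ 0) :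
    IsUnit (Φ.coeff 0).leadingCoeff := by
  have h := (coeff_zero_aux hΦ hp).2
  have h' : (Φ.coeff 0).leadingCoeff ^ (2 * p) = 1 := by exact_mod_cast h
  exact IsUnit.of_pow_eq_one h' (by omega)

theorem coeff_natDegree_le_succ (hΦ : IsModPoly p Φ) (hp : p ≠ 0) (i : ℕ) :
    (Φ.coeff i).natDegree ≤ p + 1 := by
  rcases Nat.eq_zero_or_pos i with rfl | hi
  · exact (coeff_zero_natDegree hΦ hp).le
  · exact (coeff_natDegree_le hΦ hp hi).trans (Nat.le_succ p)

end Degree

/-! ### Integrality along the cusps -/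

section Integral

/-- If `∑_{i,k ≤ n} a i k · s^(n-k) · x^(n-i) = 0` with `a 0 n = ±1` and `s` in the Jacobson
radical of `B`, then `x` is integral over `B`. -/
theorem isIntegral_of_reversed {B F : Type*} [CommRing B] [CommRing F] [Algebra B F] (n : ℕ)
    (a : ℕ → ℕ → ℤ) (s : B) (x : F)
    (hE : ∑ i ∈ Finset.range (n + 1), ∑ k ∈ Finset.range (n + 1),
      (a i k : F) * algebraMap B F s ^ (n - k) * x ^ (n - i) = 0)
    (hU : IsUnit (a 0 n)) (hJ : s ∈ (⊥ : Ideal B).jacobson) : IsIntegral B x := by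
  classical
  -- the coefficients in `B`
  set q : ℕ → B := fun i => ∑ k ∈ Finset.range (n + 1), (a i k : B) * s ^ (n - k) with hq
  have hE' : ∑ i ∈ Finset.range (n + 1), algebraMap B F (q i) * x ^ (n - i) = 0 := by
    rw [← hE]
    refine Finset.sum_congr rfl fun i _ => ?_
    rw [hq, map_sum, Finset.sum_mul]
    refine Finset.sum_congr rfl fun k _ => ?_
    rw [map_mul, map_pow, map_intCast]
  -- the leading coefficient is a unit
  have hq0 : IsUnit (q 0) := by
    have hsplit : q 0 = (a 0 n : B) + s * ∑ k ∈ Finset.range n, (a 0 k : B) * s ^ (n - 1 - k) := by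
      rw [hq]
      simp only
      rw [Finset.sum_range_succ, Nat.sub_self, pow_zero, mul_one, add_comm, Finset.mul_sum]
      congr 1
      refine Finset.sum_congr rfl fun k hk => ?_
      have hk' : k < n := Finset.mem_range.mp hk
      have e : n - k = (n - 1 - k) + 1 := by omega
      rw [e, pow_succ]
      ring
    have hmem := Ideal.mem_jacobson_bot.mp hJ
    rcases Int.isUnit_iff.mp hU with h1 | h1
    · have h2 := hmem (∑ k ∈ Finset.range n, (a 0 k : B) * s ^ (n - 1 - k))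
      rw [hsplit, h1, Int.cast_one, add_comm]
      exact h2
    · have h2 := hmem (-∑ k ∈ Finset.range n, (a 0 k : B) * s ^ (n - 1 - k))
      rw [hsplit, h1, Int.cast_neg, Int.cast_one]
      have e : (-1 : B) + s * ∑ k ∈ Finset.range n, (a 0 k : B) * s ^ (n - 1 - k) =
          -(s * -∑ k ∈ Finset.range n, (a 0 k : B) * s ^ (n - 1 - k) + 1) := by ring
      rw [e]
      exact h2.neg
  obtain ⟨u, hu⟩ := hq0
  -- the monic polynomial
  have hdeg : (∑ i ∈ Finset.range n,
      C ((↑u⁻¹ : B) * q (i + 1)) * (X : Polynomial B) ^ (n - 1 - i)).degree < (n : WithBot ℕ) := by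
    rw [Polynomial.degree_lt_iff_coeff_zero]
    intro m hm
    rw [Polynomial.finsetSum_coeff]
    refine Finset.sum_eq_zero fun i hi => ?_
    have hi' : i < n := Finset.mem_range.mp hi
    rw [Polynomial.coeff_C_mul_X_pow, if_neg (by omega)]
  refine ⟨X ^ n + ∑ i ∈ Finset.range n, C ((↑u⁻¹ : B) * q (i + 1)) * X ^ (n - 1 - i),
    Polynomial.monic_X_pow_add hdeg, ?_⟩
  rw [Polynomial.eval₂_add, Polynomial.eval₂_pow, Polynomial.eval₂_X, Polynomial.eval₂_finsetSum]
  have hterm : ∀ i ∈ Finset.range n,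
      Polynomial.eval₂ (algebraMap B F) x (C ((↑u⁻¹ : B) * q (i + 1)) * X ^ (n - 1 - i)) =
        algebraMap B F (↑u⁻¹ : B) * (algebraMap B F (q (i + 1)) * x ^ (n - (i + 1))) := by
    intro i _
    rw [Polynomial.eval₂_mul, Polynomial.eval₂_C, Polynomial.eval₂_pow, Polynomial.eval₂_X,
      map_mul, Nat.sub_sub, add_comm 1 i, mul_assoc]
  rw [Finset.sum_congr rfl hterm, ← Finset.mul_sum]
  rw [Finset.sum_range_succ', Nat.sub_zero] at hE'
  have h1 : algebraMap B F (↑u⁻¹ : B) * algebraMap B F (q 0) = 1 := by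
    rw [← map_mul, ← hu, Units.inv_mul, map_one]
  have h2 : ∑ i ∈ Finset.range n, algebraMap B F (q (i + 1)) * x ^ (n - (i + 1)) =
      -(algebraMap B F (q 0) * x ^ n) := eq_neg_of_add_eq_zero_left hE'
  rw [h2, mul_neg, ← mul_assoc, h1, one_mul, add_neg_cancel]

variable {p : ℕ} {Φ : Polynomial (Polynomial ℤ)}

/-- `Φ(j', j)` as a double sum. -/
theorem eval_evalY_eq_sum (hΦ : IsModPoly p Φ) (hp : p ≠ 0) {F : Type*} [CommRing F] (j j' : F) :
    (evalY j Φ).eval j' = ∑ i ∈ Finset.range (p + 2), ∑ k ∈ Finset.range (p + 2),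
      (((Φ.coeff i).coeff k : ℤ) : F) * j ^ k * j' ^ i := by
  have hdeg : (evalY j Φ).natDegree < p + 2 := by
    have h := Polynomial.natDegree_map_le (f := Polynomial.eval₂RingHom (Int.castRingHom F) j)
      (p := Φ)
    rw [hΦ.natDegree_eq] at h
    exact Nat.lt_succ_of_le h
  rw [Polynomial.eval_eq_sum_range' hdeg]
  refine Finset.sum_congr rfl fun i _ => ?_
  have hc : (evalY j Φ).coeff i = Polynomial.eval₂ (Int.castRingHom F) j (Φ.coeff i) := by
    rw [evalY, Polynomial.coe_mapRingHom, Polynomial.coeff_map, Polynomial.coe_eval₂RingHom]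
  rw [hc, Polynomial.eval₂_eq_sum_range' (Int.castRingHom F)
    (Nat.lt_succ_of_le (coeff_natDegree_le_succ hΦ hp i)), Finset.sum_mul]
  rfl

/-- The reversed equation satisfied by `t = 1/j`, `t' = 1/j'`. -/
theorem reversed_sum (hΦ : IsModPoly p Φ) (hp : p ≠ 0) {F : Type*} [CommRing F] {j j' t t' : F}
    (hjt : j * t = 1) (hjt' : j' * t' = 1) (h0 : (evalY j Φ).eval j' = 0) :
    ∑ i ∈ Finset.range (p + 2), ∑ k ∈ Finset.range (p + 2),
      (((Φ.coeff i).coeff k : ℤ) : F) * t ^ (p + 1 - k) * t' ^ (p + 1 - i) = 0 := by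
  have key : ∑ i ∈ Finset.range (p + 2), ∑ k ∈ Finset.range (p + 2),
      (((Φ.coeff i).coeff k : ℤ) : F) * t ^ (p + 1 - k) * t' ^ (p + 1 - i) =
      (evalY j Φ).eval j' * (t ^ (p + 1) * t' ^ (p + 1)) := by
    rw [eval_evalY_eq_sum hΦ hp, Finset.sum_mul]
    refine Finset.sum_congr rfl fun i hi => ?_
    rw [Finset.sum_mul]
    refine Finset.sum_congr rfl fun k hk => ?_
    have hi' : i ≤ p + 1 := Nat.lt_succ_iff.mp (Finset.mem_range.mp hi)
    have hk' : k ≤ p + 1 := Nat.lt_succ_iff.mp (Finset.mem_range.mp hk)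
    have e1 : t ^ (p + 1) = t ^ (p + 1 - k) * t ^ k := by rw [← pow_add, Nat.sub_add_cancel hk']
    have e2 : t' ^ (p + 1) = t' ^ (p + 1 - i) * t' ^ i := by
      rw [← pow_add, Nat.sub_add_cancel hi']
    have e3 : j ^ k * t ^ k = 1 := by rw [← mul_pow, hjt, one_pow]
    have e4 : j' ^ i * t' ^ i = 1 := by rw [← mul_pow, hjt', one_pow]
    rw [e1, e2]
    have e5 : (((Φ.coeff i).coeff k : ℤ) : F) * j ^ k * j' ^ i *
        (t ^ (p + 1 - k) * t ^ k * (t' ^ (p + 1 - i) * t' ^ i)) =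
        (((Φ.coeff i).coeff k : ℤ) : F) * t ^ (p + 1 - k) * t' ^ (p + 1 - i) *
          ((j ^ k * t ^ k) * (j' ^ i * t' ^ i)) := by ring
    rw [e5, e3, e4, mul_one, mul_one]
  rw [key, h0, zero_mul]

/-- **(M4), first direction.** If `Φ(j', j) = 0` then `t' = 1/j'` is integral over every ring `B`
containing `1/j` in its Jacobson radical (e.g. a local ring with `1/j` in its maximal ideal). -/
theorem isIntegral_inv_right (hΦ : IsModPoly p Φ) (hp : p ≠ 0) {B F : Type*} [CommRing B]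
    [CommRing F] [Algebra B F] {j j' t' : F} (s : B) (hjs : j * algebraMap B F s = 1)
    (hjt' : j' * t' = 1) (h0 : (evalY j Φ).eval j' = 0) (hJ : s ∈ (⊥ : Ideal B).jacobson) :
    IsIntegral B t' := by
  refine isIntegral_of_reversed (p + 1) (fun i k => (Φ.coeff i).coeff k) s t'
    (reversed_sum hΦ hp hjs hjt' h0) ?_ hJ
  have h := isUnit_coeff_zero_leadingCoeff hΦ hp
  rw [Polynomial.leadingCoeff, coeff_zero_natDegree hΦ hp] at h
  exact h

/-- **(M4), second direction.** If `Φ(j', j) = 0` then `t = 1/j` is integral over every ring `B`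
containing `1/j'` in its Jacobson radical. -/
theorem isIntegral_inv_left (hΦ : IsModPoly p Φ) (hp : p ≠ 0) {B F : Type*} [CommRing B]
    [CommRing F] [Algebra B F] {j j' t : F} (s' : B) (hjt : j * t = 1)
    (hjs' : j' * algebraMap B F s' = 1) (h0 : (evalY j Φ).eval j' = 0)
    (hJ : s' ∈ (⊥ : Ideal B).jacobson) : IsIntegral B t := by
  refine isIntegral_of_reversed (p + 1) (fun k i => (Φ.coeff i).coeff k) s' t ?_ ?_ hJ
  · rw [Finset.sum_comm, ← reversed_sum hΦ hp hjt hjs' h0]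
    refine Finset.sum_congr rfl fun i _ => Finset.sum_congr rfl fun k _ => ?_
    ring
  · have h1 : Φ.coeff (p + 1) = 1 := by
      have h := hΦ.monic
      rw [Polynomial.Monic, Polynomial.leadingCoeff, hΦ.natDegree_eq] at h
      exact h
    show IsUnit ((Φ.coeff (p + 1)).coeff 0)
    rw [h1, Polynomial.coeff_one_zero]
    exact isUnit_one

end Integral

end Fermat.Agent.S34.H42

end
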