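/-
Program B' (S34), audit item (A4) — helper42: integrality along the cusps in the modular function
fields `F_{N'} = FN N'` over `ℚ̄`.

For `d` and `d * p` dividing `N'` (`p` prime): `1 / j(q^(d p))` is integral over every subring
(algebra) `B` of `F_{N'}` containing `1 / j(q^d)` in its Jacobson radical, and `1 / j(q^d)` is
integral over every `B` containing `1 / j(q^(d p))` in its Jacobson radical.
-/
import Fermat.Agent.S34.H42.ModPolyDeg
import Fermat.Agent.S37.H46.RegionModular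

set_option autoImplicit false

open AlgebraicCurve ModularCurve

noncomputable section

namespace Fermat.Agent.S34.H42

open Fermat.Agent.S28 Fermat.Agent.S18 Fermat.Agent.S18.H74

/-- The modular equations between `j(q^d)` and `j(q^(d p))` in `F_{N'}`. -/
theorem evalY_jFN (N' : ℕ) [NeZero N'] {p : ℕ} (hp : p.Prime) (d : ℕ) [NeZero d] [NeZero (d * p)]
    (hd : d ∣ N') (hdp : d * p ∣ N') {Φ : Polynomial (Polynomial ℤ)} (hΦ : IsModPoly p Φ) :
    (evalY (H28.jFN N' d hd) Φ).eval (H28.jFN N' (d * p) hdp) = 0 ∧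
      (evalY (H28.jFN N' (d * p) hdp) Φ).eval (H28.jFN N' d hd) = 0 := by
  have : NeZero p := ⟨hp.ne_zero⟩
  obtain ⟨ζ, hζ⟩ := S37.H46.exists_zeta p hp
  obtain ⟨h1, h2⟩ := S37.H46.evalY_eval_jq_level Kb hΦ ζ hζ d
  exact ⟨S37.H46.rel_of_coe Φ (S37.H46.coe_jFN_eq N' (d * p) hdp) (S37.H46.coe_jFN_eq N' d hd) h2,
    S37.H46.rel_of_coe Φ (S37.H46.coe_jFN_eq N' d hd) (S37.H46.coe_jFN_eq N' (d * p) hdp) h1⟩

theorem jFN_ne_zero (N' : ℕ) (d : ℕ) [NeZero d] (hd : d ∣ N') : H28.jFN N' d hd ≠ 0 := by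
  intro h
  have h1 := S37.H46.coe_jFN_eq N' d hd
  rw [h] at h1
  have h2 : (qExpand Kb d (jqModC Kb)).coeff (-(d : ℤ)) = 1 := by
    have h3 := jS_coeff_neg (R := Kb) 1 d (NeZero.ne d)
    rw [inv_one, Units.val_one, jS, qSub_apply, qScale_one, vq_eq_qExpand d] at h3
    exact h3
  rw [← h1] at h2
  exact zero_ne_one h2

/-- `1 / j(q^(d p))` is integral over every `B` containing `1 / j(q^d)` in its Jacobson radical. -/
theorem isIntegral_inv_jFN_mul (N' : ℕ) [NeZero N'] {p : ℕ} (hp : p.Prime) (d : ℕ) [NeZero d]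
    [NeZero (d * p)] (hd : d ∣ N') (hdp : d * p ∣ N') {B : Type*} [CommRing B]
    [Algebra B (FN N')] (s : B) (hs : algebraMap B (FN N') s = (H28.jFN N' d hd)⁻¹)
    (hJ : s ∈ (⊥ : Ideal B).jacobson) : IsIntegral B (H28.jFN N' (d * p) hdp)⁻¹ := by
  obtain ⟨Φ, hΦ⟩ := Fermat.Agent.S28.hasModPolys p hp
  refine isIntegral_inv_right hΦ hp.ne_zero (j := H28.jFN N' d hd) (j' := H28.jFN N' (d * p) hdp)
    s ?_ (mul_inv_cancel₀ (jFN_ne_zero N' (d * p) hdp)) (evalY_jFN N' hp d hd hdp hΦ).1 hJ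
  rw [hs]
  exact mul_inv_cancel₀ (jFN_ne_zero N' d hd)

/-- `1 / j(q^d)` is integral over every `B` containing `1 / j(q^(d p))` in its Jacobson
radical. -/
theorem isIntegral_inv_jFN (N' : ℕ) [NeZero N'] {p : ℕ} (hp : p.Prime) (d : ℕ) [NeZero d]
    [NeZero (d * p)] (hd : d ∣ N') (hdp : d * p ∣ N') {B : Type*} [CommRing B]
    [Algebra B (FN N')] (s' : B) (hs' : algebraMap B (FN N') s' = (H28.jFN N' (d * p) hdp)⁻¹)
    (hJ : s' ∈ (⊥ : Ideal B).jacobson) : IsIntegral B (H28.jFN N' d hd)⁻¹ := by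
  obtain ⟨Φ, hΦ⟩ := Fermat.Agent.S28.hasModPolys p hp
  refine isIntegral_inv_left hΦ hp.ne_zero (j := H28.jFN N' d hd) (j' := H28.jFN N' (d * p) hdp)
    s' (mul_inv_cancel₀ (jFN_ne_zero N' d hd)) ?_ (evalY_jFN N' hp d hd hdp hΦ).1 hJ
  rw [hs']
  exact mul_inv_cancel₀ (jFN_ne_zero N' (d * p) hdp)

end Fermat.Agent.S34.H42

end
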