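/-
Program B' (S34), leaf (M6c) — helper42: a cuspidal closed point of the chart at infinity lies on
exactly one component of the special fibre.

Setting: `C` the chart at infinity (integrally closed, with fraction field `F₀`), `j₁ = j`,
`j₂ = j(q^q)` with `1 / j₁ ∈ C`, related by the modular equation; `V₁`, `V₂` the two Gauss rings
with `j₂ ≡ j₁^q` modulo `m_{V₁}` and `j₁ ≡ j₂^q` modulo `m_{V₂}` (Kronecker), and `1 / j₂ ∈ V₂`;
`x` a prime of `C` containing `s = 1 / j₁` (a cuspidal point).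

`t = 1 / j₂` and `ρ₂ = t^q / s` are NOT in `C` (poles where `j₂ = 0`), but they are in the local
ring `C_x` (integral over it because `s` lies in its Jacobson radical), `ρ₁ = s^q / t ∈ C`, and
`ρ₁ ρ₂ = (s t)^(q-1) ∈ x C_x`.  As `ρ₁ - 1 ∈ m_{V₁}` and `ρ₂ - 1 ∈ m_{V₂}`, the point `x` cannot
contain both `P₁ = C ∩ m_{V₁}` and `P₂ = C ∩ m_{V₂}`.

* `cusp_not_both`          : the abstract statement (any field `F₀`);
* `one_of_inf_le`          : a prime containing `P₁ ∩ P₂` contains `P₁` or `P₂`;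
* `cusp_not_both_twoGauss` : the statement for the two Gauss rings of `F_{Mq}` of
                             `H64.TwoGauss`, through any embedding `ι : F₀ → F_{Mq}`.
-/
import Fermat.Agent.S34.H59.CuspRho
import Fermat.Agent.S34.H64.TwoGaussCor

set_option autoImplicit false
set_option linter.style.haveILetI false
set_option linter.unusedSectionVars false

open AlgebraicCurve ModularCurve

noncomputable section

namespace Fermat.Agent.S34.H42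

open Fermat.Agent.S28

section Abstract

variable {A₀ F₀ : Type*} [CommRing A₀] [Field F₀] [Algebra A₀ F₀]

/-- In a valuation subring, the maximal ideal absorbs multiplication by elements of the ring. -/
theorem cusp_mul_mem_nonunits (V : ValuationSubring F₀) {a b : F₀} (ha : a ∈ V.nonunits)
    (hb : b ∈ V) : a * b ∈ V.nonunits := by
  rw [ValuationSubring.mem_nonunits_iff] at ha ⊢
  rw [map_mul]
  exact mul_lt_one_of_lt_of_le ha ((ValuationSubring.valuation_le_one_iff _ _).2 hb)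

/-- A prime of `C` containing `P₁ ∩ P₂` contains `P₁` or `P₂`
(`P_k = C ∩ m_{V_k}`). -/
theorem one_of_inf_le (C : Subalgebra A₀ F₀) (V₁ V₂ : ValuationSubring F₀)
    (hCV₁ : ∀ c ∈ C, c ∈ V₁) (hCV₂ : ∀ c ∈ C, c ∈ V₂) (x : Ideal ↥C) [x.IsPrime]
    (hinf : ∀ c : ↥C, (c : F₀) ∈ V₁.nonunits → (c : F₀) ∈ V₂.nonunits → c ∈ x) :
    (∀ c : ↥C, (c : F₀) ∈ V₁.nonunits → c ∈ x) ∨ (∀ c : ↥C, (c : F₀) ∈ V₂.nonunits → c ∈ x) := by
  by_contra hcon
  rw [not_or] at hcon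
  obtain ⟨h1, h2⟩ := hcon
  push Not at h1 h2
  obtain ⟨a, ha, hax⟩ := h1
  obtain ⟨b, hb, hbx⟩ := h2
  have hab : a * b ∈ x := by
    refine hinf (a * b) ?_ ?_
    · rw [Subalgebra.coe_mul]
      exact cusp_mul_mem_nonunits V₁ ha (hCV₁ _ b.2)
    · rw [Subalgebra.coe_mul, mul_comm]
      exact cusp_mul_mem_nonunits V₂ hb (hCV₂ _ a.2)
  rcases Ideal.IsPrime.mem_or_mem inferInstance hab with h | h
  · exact hax h
  · exact hbx h

/-- **(M6c), abstract form.**  A prime `x` of the chart at infinity containing `1 / j₁` does not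
contain both `C ∩ m_{V₁}` and `C ∩ m_{V₂}`. -/
theorem cusp_not_both (C : Subalgebra A₀ F₀) [IsIntegrallyClosed ↥C]
    (hfrac : ∀ y : F₀, ∃ a ∈ C, ∃ b ∈ C, b ≠ 0 ∧ y = a / b)
    {q : ℕ} (hq : q.Prime) {Φ : Polynomial (Polynomial ℤ)} (hΦ : IsModPoly q Φ)
    (j₁ j₂ : F₀) (hj₁ : j₁ ≠ 0) (hj₂ : j₂ ≠ 0)
    (h12 : (evalY j₁ Φ).eval j₂ = 0) (h21 : (evalY j₂ Φ).eval j₁ = 0)
    (hs : j₁⁻¹ ∈ C)
    (V₁ V₂ : ValuationSubring F₀) (hCV₁ : ∀ c ∈ C, c ∈ V₁) (hCV₂ : ∀ c ∈ C, c ∈ V₂)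
    (hk₁ : j₂ - j₁ ^ q ∈ V₁.nonunits) (hk₂ : j₁ - j₂ ^ q ∈ V₂.nonunits) (hu₂ : j₂⁻¹ ∈ V₂)
    (x : Ideal ↥C) [x.IsPrime] (hsx : (⟨j₁⁻¹, hs⟩ : ↥C) ∈ x) :
    ¬ ((∀ c : ↥C, (c : F₀) ∈ V₁.nonunits → c ∈ x) ∧
      (∀ c : ↥C, (c : F₀) ∈ V₂.nonunits → c ∈ x)) := by
  rintro ⟨hP₁, hP₂⟩
  haveI hF : IsFractionRing ↥C F₀ := by
    refine IsFractionRing.of_field ↥C F₀ fun z => ?_
    obtain ⟨a, ha, b, hb, -, rfl⟩ := hfrac z
    exact ⟨⟨a, ha⟩, ⟨b, hb⟩, rfl⟩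
  -- `ρ₁ = j₂ / j₁^q ∈ C`
  have hρ₁ : IsIntegral ↥C (j₂ * algebraMap ↥C F₀ ⟨j₁⁻¹, hs⟩ ^ q) :=
    Fermat.Agent.S34.H59.isIntegral_mul_pow hq hΦ (x := j₂) (y := j₁) (⟨j₁⁻¹, hs⟩ : ↥C)
      (mul_inv_cancel₀ hj₁) h12
  obtain ⟨c₁, hc₁⟩ := IsIntegrallyClosed.isIntegral_iff.mp hρ₁
  have hc₁' : (c₁ : F₀) = j₂ * j₁⁻¹ ^ q := hc₁
  -- the local ring at `x`, inside `F₀`
  have hS : x.primeCompl ≤ nonZeroDivisors ↥C := Ideal.primeCompl_le_nonZeroDivisors x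
  let R : Subalgebra ↥C F₀ := Localization.subalgebra.ofField F₀ x.primeCompl hS
  haveI hloc : IsLocalization.AtPrime ↥R x :=
    Localization.subalgebra.isLocalization_ofField F₀ x.primeCompl hS
  haveI hlr : IsLocalRing ↥R := IsLocalization.AtPrime.isLocalRing ↥R x
  haveI hic : IsIntegrallyClosed ↥R := isIntegrallyClosed_of_isLocalization ↥R x.primeCompl hS
  have hmem : ∀ c : ↥C, algebraMap ↥C ↥R c ∈ IsLocalRing.maximalIdeal ↥R ↔ c ∈ x :=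
    fun c => IsLocalization.AtPrime.to_map_mem_maximal_iff ↥R x c
  have hcoe : ∀ c : ↥C, ((algebraMap ↥C ↥R c : ↥R) : F₀) = (c : F₀) := fun c => rfl
  -- `s = 1 / j₁` lies in the Jacobson radical of `R`
  set sR : ↥R := algebraMap ↥C ↥R ⟨j₁⁻¹, hs⟩ with hsR
  have hsRm : sR ∈ IsLocalRing.maximalIdeal ↥R := (hmem _).2 hsx
  have hJ : sR ∈ (⊥ : Ideal ↥R).jacobson := by
    rw [IsLocalRing.jacobson_eq_maximalIdeal ⊥ bot_ne_top]
    exact hsRm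
  -- `t = 1 / j₂ ∈ R`
  have ht : IsIntegral ↥R j₂⁻¹ :=
    isIntegral_inv_right hΦ hq.ne_zero (j := j₁) (j' := j₂) sR (mul_inv_cancel₀ hj₁)
      (mul_inv_cancel₀ hj₂) h12 hJ
  obtain ⟨tR, htR⟩ := IsIntegrallyClosed.isIntegral_iff.mp ht
  have htR' : (tR : F₀) = j₂⁻¹ := htR
  -- `ρ₂ = j₁ / j₂^q ∈ R`
  have hρ₂ : IsIntegral ↥R (j₁ * algebraMap ↥R F₀ tR ^ q) :=
    Fermat.Agent.S34.H59.isIntegral_mul_pow hq hΦ (x := j₁) (y := j₂) tR
      (by rw [htR]; exact mul_inv_cancel₀ hj₂) h21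
  obtain ⟨r₂, hr₂⟩ := IsIntegrallyClosed.isIntegral_iff.mp hρ₂
  have hr₂' : (r₂ : F₀) = j₁ * j₂⁻¹ ^ q := by
    have : (r₂ : F₀) = j₁ * algebraMap ↥R F₀ tR ^ q := hr₂
    rw [this, htR]
  set r₁ : ↥R := algebraMap ↥C ↥R c₁ with hr₁
  have hr₁' : (r₁ : F₀) = j₂ * j₁⁻¹ ^ q := by rw [hr₁, hcoe, hc₁']
  -- `ρ₁ ρ₂ = (s t)^(q-1)` lies in the maximal ideal
  have hprod : r₁ * r₂ = (sR * tR) ^ (q - 1) := by
    apply Subtype.ext
    rw [Subalgebra.coe_mul, Subalgebra.coe_pow, Subalgebra.coe_mul, hr₁', hr₂', htR', hsR, hcoe]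
    exact Fermat.Agent.S34.H59.rho_mul_rho q hq.ne_zero j₂ j₁ j₁⁻¹ j₂⁻¹ (mul_inv_cancel₀ hj₂)
      (mul_inv_cancel₀ hj₁)
  have hprodm : r₁ * r₂ ∈ IsLocalRing.maximalIdeal ↥R := by
    rw [hprod]
    have hq1 : q - 1 ≠ 0 := by have := hq.two_le; omega
    exact Ideal.pow_mem_of_mem _ (Ideal.mul_mem_right _ _ hsRm) _ (Nat.pos_of_ne_zero hq1)
  -- `ρ₁ - 1 ∈ x`
  have h1 : r₁ - 1 ∈ IsLocalRing.maximalIdeal ↥R := by
    have e : r₁ - 1 = algebraMap ↥C ↥R (c₁ - 1) := by rw [map_sub, map_one]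
    rw [e, hmem]
    refine hP₁ _ ?_
    have e2 : ((c₁ - 1 : ↥C) : F₀) = (j₂ - j₁ ^ q) * j₁⁻¹ ^ q := by
      rw [Subalgebra.coe_sub, Subalgebra.coe_one, hc₁', sub_mul, ← mul_pow, mul_inv_cancel₀ hj₁,
        one_pow]
    rw [e2]
    exact cusp_mul_mem_nonunits V₁ hk₁ (V₁.pow_mem (hCV₁ _ hs) q)
  -- `ρ₂ - 1 ∈ x C_x`
  have h2 : r₂ - 1 ∈ IsLocalRing.maximalIdeal ↥R := by
    obtain ⟨⟨a, b⟩, hab⟩ := IsLocalization.surj x.primeCompl (r₂ - 1)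
    have hab' : (r₂ - 1) * algebraMap ↥C ↥R (b : ↥C) = algebraMap ↥C ↥R a := hab
    have hbu : IsUnit (algebraMap ↥C ↥R (b : ↥C)) :=
      (IsLocalization.AtPrime.isUnit_to_map_iff ↥R x (b : ↥C)).2 b.2
    have ha : algebraMap ↥C ↥R a ∈ IsLocalRing.maximalIdeal ↥R := by
      rw [hmem]
      refine hP₂ _ ?_
      have e3 : (a : F₀) = (j₁ - j₂ ^ q) * j₂⁻¹ ^ q * ((b : ↥C) : F₀) := by
        have e4 := congrArg (fun z : ↥R => (z : F₀)) hab'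
        simp only [Subalgebra.coe_mul, Subalgebra.coe_sub, Subalgebra.coe_one, hcoe, hr₂'] at e4
        have e5 : j₂ ^ q * j₂⁻¹ ^ q = 1 := by rw [← mul_pow, mul_inv_cancel₀ hj₂, one_pow]
        rw [← e4]
        linear_combination (((b : ↥C) : F₀)) * e5
      rw [e3]
      exact cusp_mul_mem_nonunits V₂
        (cusp_mul_mem_nonunits V₂ hk₂ (V₂.pow_mem hu₂ q)) (hCV₂ _ (b : ↥C).2)
    rw [← hab'] at ha
    exact (Ideal.mul_unit_mem_iff_mem _ hbu).1 ha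
  -- contradiction: `1` lies in the maximal ideal
  have hone : (1 : ↥R) ∈ IsLocalRing.maximalIdeal ↥R := by
    have e : (1 : ↥R) = r₁ * r₂ - (r₁ - 1) * r₂ - (r₂ - 1) := by ring
    rw [e]
    exact Ideal.sub_mem _ (Ideal.sub_mem _ hprodm (Ideal.mul_mem_right _ _ h1)) h2
  exact (Ideal.ne_top_iff_one _).1 (IsLocalRing.maximalIdeal.isMaximal ↥R).ne_top hone

end Abstract

section Concrete

open Fermat.Agent.S18.H66 Fermat.Agent.S37.H65 Fermat.Agent.S34.H64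

variable {M q : ℕ} [NeZero M] [Fact q.Prime] {hqM : ¬ q ∣ M} {A : ValuationSubring Kb}
  {hA : A.LiesOverPrime q} {O₁ : ValuationSubring ↥(modularFunctionFieldBar (M * q))}
  {w : ↥(modularFunctionFieldBar (M * q)) ≃+* ↥(modularFunctionFieldBar (M * q))}

/-- `α j` is a unit of the first Gauss ring. -/
theorem alphaj_inv_mem (h : TwoGauss M q hqM A hA O₁ w) :
    (heckeAlphaBar Kb M q (Fermat.Agent.S24.jgen M))⁻¹ ∈ O₁ := by
  have h1 : heckeAlphaBar Kb M q (Fermat.Agent.S24.jgen M) ∉ O₁.nonunits := by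
    have h2 := h.j_sub_beta_not_mem 0 (gaussO A M hA hqM).zero_mem
    rwa [map_zero, sub_zero] at h2
  by_contra h3
  apply h1
  rw [ValuationSubring.mem_nonunits_iff_or]
  exact Or.inr h3

/-- `j⁻¹` lies in the Gauss ring of level `M`. -/
theorem jgen_inv_mem (h : TwoGauss M q hqM A hA O₁ w) :
    (Fermat.Agent.S24.jgen M)⁻¹ ∈ gaussO A M hA hqM := by
  rw [← h.alpha_mem_iff, map_inv₀]
  exact alphaj_inv_mem h

/-- `β j` is a unit of the second Gauss ring. -/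
theorem betaj_inv_mem₂ (h : TwoGauss M q hqM A hA O₁ w) :
    (heckeBetaBar Kb M q (Fermat.Agent.S24.jgen M))⁻¹ ∈ secondGauss O₁ w := by
  rw [← map_inv₀, h.beta_mem_iff₂]
  exact jgen_inv_mem h

/-- The modular equations between `α j` and `β j` in `F_{Mq}`. -/
theorem evalY_alphaj_betaj {Φ : Polynomial (Polynomial ℤ)} (hΦ : IsModPoly q Φ) :
    (evalY (heckeAlphaBar Kb M q (Fermat.Agent.S24.jgen M)) Φ).eval
        (heckeBetaBar Kb M q (Fermat.Agent.S24.jgen M)) = 0 ∧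
      (evalY (heckeBetaBar Kb M q (Fermat.Agent.S24.jgen M)) Φ).eval
        (heckeAlphaBar Kb M q (Fermat.Agent.S24.jgen M)) = 0 := by
  have hq : q.Prime := Fact.out
  haveI : NeZero q := ⟨hq.ne_zero⟩
  haveI : NeZero (1 * q) := ⟨by rw [one_mul]; exact hq.ne_zero⟩
  have hd : 1 ∣ M * q := one_dvd _
  have hdp : 1 * q ∣ M * q := by rw [one_mul]; exact dvd_mul_left q M
  have e1 : heckeAlphaBar Kb M q (Fermat.Agent.S24.jgen M) =
      Fermat.Agent.S18.H28.jFN (M * q) 1 hd := Subtype.ext rfl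
  have e2 : heckeBetaBar Kb M q (Fermat.Agent.S24.jgen M) =
      Fermat.Agent.S18.H28.jFN (M * q) (1 * q) hdp := by
    have h1 := Fermat.Agent.S29.H64.heckeBetaBar_jF M q (Fermat.Agent.S24.oneDiv M)
    have h2 : Fermat.Agent.S24.jgen M = Fermat.Agent.S24.jF M (Fermat.Agent.S24.oneDiv M) := rfl
    rw [h2, h1]
    exact Subtype.ext rfl
  rw [e1, e2]
  exact evalY_jFN (M * q) hq 1 hd hdp hΦ

/-- **(M6c) for the two Gauss rings of `F_{Mq}`.**  Let `ι : F₀ → F_{Mq}` be an embedding of a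
field containing `j₁ ↦ α j = j` and `j₂ ↦ β j = j(q^q)`, and `C` an integrally closed subalgebra
with fraction field `F₀`, contained in (the preimages of) both Gauss rings, with `1 / j₁ ∈ C` (the
chart at infinity).  A prime `x` of `C` containing `1 / j₁` does not contain both
`C ∩ m_{O₁}` and `C ∩ m_{O₂}`. -/
theorem cusp_not_both_twoGauss (h : TwoGauss M q hqM A hA O₁ w)
    {A₀ F₀ : Type*} [CommRing A₀] [Field F₀] [Algebra A₀ F₀]
    (ι : F₀ →+* ↥(modularFunctionFieldBar (M * q)))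
    (C : Subalgebra A₀ F₀) [IsIntegrallyClosed ↥C]
    (hfrac : ∀ y : F₀, ∃ a ∈ C, ∃ b ∈ C, b ≠ 0 ∧ y = a / b)
    (j₁ j₂ : F₀) (hι₁ : ι j₁ = heckeAlphaBar Kb M q (Fermat.Agent.S24.jgen M))
    (hι₂ : ι j₂ = heckeBetaBar Kb M q (Fermat.Agent.S24.jgen M))
    (hs : j₁⁻¹ ∈ C)
    (hC₁ : ∀ c ∈ C, ι c ∈ O₁) (hC₂ : ∀ c ∈ C, ι c ∈ secondGauss O₁ w)
    (x : Ideal ↥C) [x.IsPrime] (hsx : (⟨j₁⁻¹, hs⟩ : ↥C) ∈ x) :
    ¬ ((∀ c : ↥C, ι (c : F₀) ∈ O₁.nonunits → c ∈ x) ∧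
      (∀ c : ↥C, ι (c : F₀) ∈ (secondGauss O₁ w).nonunits → c ∈ x)) := by
  have hq : q.Prime := Fact.out
  obtain ⟨Φ, hΦ⟩ := Fermat.Agent.S28.hasModPolys q hq
  obtain ⟨hm12, hm21⟩ := evalY_alphaj_betaj (M := M) (q := q) hΦ
  have hαu := alphaj_inv_mem h
  have hα0 : heckeAlphaBar Kb M q (Fermat.Agent.S24.jgen M) ≠ 0 := by
    intro h0
    have h1 := h.j_sub_beta_not_mem 0 (gaussO A M hA hqM).zero_mem
    rw [map_zero, sub_zero, h0] at h1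
    exact h1 (by rw [ValuationSubring.mem_nonunits_iff, map_zero]; exact zero_lt_one)
  have hβ0 : heckeBetaBar Kb M q (Fermat.Agent.S24.jgen M) ≠ 0 := by
    intro h0
    have h1 : Fermat.Agent.S24.jgen M = 0 :=
      (map_eq_zero (heckeBetaBar Kb M q)).1 h0
    rw [h1, map_zero] at hα0
    exact hα0 rfl
  have hj₁ : j₁ ≠ 0 := by
    rintro rfl
    rw [map_zero] at hι₁
    exact hα0 hι₁.symm
  have hj₂ : j₂ ≠ 0 := by
    rintro rfl
    rw [map_zero] at hι₂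
    exact hβ0 hι₂.symm
  have h12 : (evalY j₁ Φ).eval j₂ = 0 := by
    apply ι.injective
    rw [map_evalY_eval, hι₁, hι₂, hm12, map_zero]
  have h21 : (evalY j₂ Φ).eval j₁ = 0 := by
    apply ι.injective
    rw [map_evalY_eval, hι₁, hι₂, hm21, map_zero]
  have hn₁ : ∀ f : F₀, f ∈ (O₁.comap ι).nonunits ↔ ι f ∈ O₁.nonunits := fun f =>
    (mem_nonunits_iff_of_mem_iff ι (O₁.comap ι) O₁ (fun _ => Iff.rfl) f).symm
  have hn₂ : ∀ f : F₀, f ∈ ((secondGauss O₁ w).comap ι).nonunits ↔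
      ι f ∈ (secondGauss O₁ w).nonunits := fun f =>
    (mem_nonunits_iff_of_mem_iff ι ((secondGauss O₁ w).comap ι) (secondGauss O₁ w)
      (fun _ => Iff.rfl) f).symm
  have hk₁ : j₂ - j₁ ^ q ∈ (O₁.comap ι).nonunits := by
    rw [hn₁, map_sub, map_pow, hι₁, hι₂]
    exact h.sep_mem_nonunits
  have hk₂ : j₁ - j₂ ^ q ∈ ((secondGauss O₁ w).comap ι).nonunits := by
    rw [hn₂, map_sub, map_pow, hι₁, hι₂]
    have h1 := h.betaj_pow_sub_mem_nonunits₂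
    rw [ValuationSubring.mem_nonunits_iff] at h1 ⊢
    rwa [← neg_sub, Valuation.map_neg]
  have hu₂ : j₂⁻¹ ∈ (secondGauss O₁ w).comap ι := by
    show ι j₂⁻¹ ∈ secondGauss O₁ w
    rw [map_inv₀, hι₂]
    exact betaj_inv_mem₂ h
  intro hcon
  exact cusp_not_both C hfrac hq hΦ j₁ j₂ hj₁ hj₂ h12 h21 hs (O₁.comap ι)
    ((secondGauss O₁ w).comap ι) hC₁ hC₂ hk₁ hk₂ hu₂ x hsx
    ⟨fun c hc => hcon.1 c ((hn₁ _).1 hc), fun c hc => hcon.2 c ((hn₂ _).1 hc)⟩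

end Concrete

end Fermat.Agent.S34.H42

end
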