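/-
Program B' (S34), leaf (M6a), LOCAL form — helper42: the inclusions `β(S) ⊆ C_x`.

`C` an integrally closed chart with fraction field `F₀`, `x` a prime of `C`;
`InLoc C x y` : `y` lies in the local ring `C_x ⊆ F₀` (`y * b = a` with `a, b ∈ C`, `b ∉ x`; this
is the body of the hypothesis `hloc` of `pointUFD_of_oneComp_local`).

* `chart_le_inLoc`            : `t ∈ C_x` implies `H19.chart A₀ t ⊆ C_x` (the integral closure of
                                `A₀[t]` in `F₀`);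
* `inLoc_inv_of_cusp`         : at a cusp (`1 / j₁ ∈ x`): `1 / j₂ ∈ C_x` (A4), hence
  `chart_inv_le_inLoc_of_cusp`: the chart at infinity of `j₂` lies in `C_x`;
* `inLoc_of_noncusp`          : at a point with `1 / j₁ ∉ x`: `j₂ ∈ C_x`, hence
  `chart_le_inLoc_of_noncusp` : the finite chart of `j₂` lies in `C_x`.

Here `j₁ = j`, `j₂ = j(q^q)` are related by the modular equation `Φ_q(j₁, j₂) = 0`.
-/
import Fermat.Agent.S34.H42.CuspComp
import Fermat.Agent.S34.H42.OneCompLocal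
import Fermat.Agent.S18.H19.Core2Defs

set_option autoImplicit false
set_option linter.style.haveILetI false
set_option linter.unusedSectionVars false

noncomputable section

namespace Fermat.Agent.S34.H42

open Fermat.Agent.S28 Fermat.Agent.S18

section Loc

variable {A₀ F₀ : Type*} [CommRing A₀] [Field F₀] [Algebra A₀ F₀]

/-- `y` lies in the local ring of `C` at `x`. -/
def InLoc (C : Subalgebra A₀ F₀) (x : Ideal ↥C) (y : F₀) : Prop :=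
  ∃ a b : ↥C, b ∉ x ∧ y * (b : F₀) = (a : F₀)

theorem inLoc_iff (C : Subalgebra A₀ F₀) (x : Ideal ↥C) (y : F₀) :
    InLoc C x y ↔ ∃ a b : ↥C, b ∉ x ∧ y * (b : F₀) = (a : F₀) := Iff.rfl

theorem inLoc_of_mem (C : Subalgebra A₀ F₀) (x : Ideal ↥C) [x.IsPrime] {c : F₀} (hc : c ∈ C) :
    InLoc C x c :=
  ⟨⟨c, hc⟩, 1, (Ideal.ne_top_iff_one x).mp (Ideal.IsPrime.ne_top inferInstance), by
    rw [Subalgebra.coe_one, mul_one]⟩

/-- The local ring of `C` at `x` as a subalgebra of `F₀`, and `InLoc`. -/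
theorem mem_ofField_iff_inLoc (C : Subalgebra A₀ F₀) [IsFractionRing ↥C F₀] (x : Ideal ↥C)
    [x.IsPrime] (hS : x.primeCompl ≤ nonZeroDivisors ↥C) (y : F₀) :
    y ∈ Localization.subalgebra.ofField F₀ x.primeCompl hS ↔ InLoc C x y := by
  have hmem : y ∈ Localization.subalgebra.ofField F₀ x.primeCompl hS ↔
      ∃ (a s : ↥C) (_ : s ∈ x.primeCompl), y = algebraMap ↥C F₀ a * (algebraMap ↥C F₀ s)⁻¹ :=
    Iff.rfl
  rw [hmem]
  constructor
  · rintro ⟨a, s, hs, rfl⟩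
    have hs0 : (s : F₀) ≠ 0 := by
      intro h0
      apply hs
      have : s = 0 := Subtype.ext h0
      rw [this]
      exact x.zero_mem
    refine ⟨a, s, hs, ?_⟩
    show (a : F₀) * (s : F₀)⁻¹ * (s : F₀) = (a : F₀)
    rw [mul_assoc, inv_mul_cancel₀ hs0, mul_one]
  · rintro ⟨a, b, hb, hab⟩
    have hb0 : (b : F₀) ≠ 0 := by
      intro h0
      apply hb
      have : b = 0 := Subtype.ext h0
      rw [this]
      exact x.zero_mem
    refine ⟨a, b, hb, ?_⟩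
    show y = (a : F₀) * (b : F₀)⁻¹
    rw [← hab, mul_assoc, mul_inv_cancel₀ hb0, mul_one]

/-- **The local ring contains the integral closure of `A₀[t]` as soon as it contains `t`.** -/
theorem chart_le_inLoc (C : Subalgebra A₀ F₀) [IsIntegrallyClosed ↥C]
    (hfrac : ∀ y : F₀, ∃ a ∈ C, ∃ b ∈ C, b ≠ 0 ∧ y = a / b)
    (x : Ideal ↥C) [x.IsPrime] (t : F₀) (ht : InLoc C x t) (y : F₀) (hy : y ∈ H19.chart A₀ t) :
    InLoc C x y := by
  haveI hF : IsFractionRing ↥C F₀ := by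
    refine IsFractionRing.of_field ↥C F₀ fun z => ?_
    obtain ⟨a, ha, b, hb, -, rfl⟩ := hfrac z
    exact ⟨⟨a, ha⟩, ⟨b, hb⟩, rfl⟩
  have hS : x.primeCompl ≤ nonZeroDivisors ↥C := Ideal.primeCompl_le_nonZeroDivisors x
  let R : Subalgebra ↥C F₀ := Localization.subalgebra.ofField F₀ x.primeCompl hS
  haveI hlocR : IsLocalization.AtPrime ↥R x :=
    Localization.subalgebra.isLocalization_ofField F₀ x.primeCompl hS
  haveI hic : IsIntegrallyClosed ↥R := isIntegrallyClosed_of_isLocalization ↥R x.primeCompl hS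
  have htR : t ∈ R := (mem_ofField_iff_inLoc C x hS t).2 ht
  -- `A₀[t] ⊆ R`
  have hadj : ∀ b ∈ Algebra.adjoin A₀ ({t} : Set F₀), b ∈ R := by
    intro b hb
    induction hb using Algebra.adjoin_induction with
    | mem z hz =>
        rw [Set.mem_singleton_iff] at hz
        rw [hz]
        exact htR
    | algebraMap r =>
        exact R.algebraMap_mem (algebraMap A₀ ↥C r)
    | add z w _ _ hz hw => exact R.add_mem hz hw
    | mul z w _ _ hz hw => exact R.mul_mem hz hw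
  -- `y` is integral over `R`
  rw [H19.mem_chart_iff] at hy
  obtain ⟨p, hp, hpy⟩ := hy
  let φ : ↥(Algebra.adjoin A₀ ({t} : Set F₀)) →+* ↥R :=
    ((Algebra.adjoin A₀ ({t} : Set F₀)).val : ↥(Algebra.adjoin A₀ ({t} : Set F₀)) →+* F₀).codRestrict
      R (fun b => hadj b b.2)
  have hyR : IsIntegral ↥R y := by
    refine ⟨p.map φ, hp.map φ, ?_⟩
    rw [Polynomial.eval₂_map]
    exact hpy
  obtain ⟨r, hr⟩ := IsIntegrallyClosed.isIntegral_iff.mp hyR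
  have hr' : (r : F₀) = y := hr
  rw [← hr']
  exact (mem_ofField_iff_inLoc C x hS _).1 r.2

/-- The modular equation makes `j₂` integral over `A₀[j₁]`. -/
theorem mem_chart_of_evalY {q : ℕ} {Φ : Polynomial (Polynomial ℤ)} (hΦ : IsModPoly q Φ)
    (j₁ j₂ : F₀) (h12 : (evalY j₁ Φ).eval j₂ = 0) : j₂ ∈ H19.chart A₀ j₁ := by
  rw [H19.mem_chart_iff]
  refine ⟨evalY (⟨j₁, Algebra.subset_adjoin rfl⟩ : Algebra.adjoin A₀ ({j₁} : Set F₀)) Φ, ?_, ?_⟩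
  · rw [evalY, Polynomial.coe_mapRingHom]
    exact hΦ.monic.map _
  · rw [Polynomial.eval₂_eq_eval_map, map_evalY]
    exact h12

/-- **At a cusp, `1 / j₂` lies in the local ring.** -/
theorem inLoc_inv_of_cusp (C : Subalgebra A₀ F₀) [IsIntegrallyClosed ↥C]
    (hfrac : ∀ y : F₀, ∃ a ∈ C, ∃ b ∈ C, b ≠ 0 ∧ y = a / b)
    {q : ℕ} (hq : q ≠ 0) {Φ : Polynomial (Polynomial ℤ)} (hΦ : IsModPoly q Φ)
    (j₁ j₂ : F₀) (hj₁ : j₁ ≠ 0) (hj₂ : j₂ ≠ 0) (h12 : (evalY j₁ Φ).eval j₂ = 0)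
    (hs : j₁⁻¹ ∈ C) (x : Ideal ↥C) [x.IsPrime] (hsx : (⟨j₁⁻¹, hs⟩ : ↥C) ∈ x) :
    InLoc C x j₂⁻¹ := by
  haveI hF : IsFractionRing ↥C F₀ := by
    refine IsFractionRing.of_field ↥C F₀ fun z => ?_
    obtain ⟨a, ha, b, hb, -, rfl⟩ := hfrac z
    exact ⟨⟨a, ha⟩, ⟨b, hb⟩, rfl⟩
  have hS : x.primeCompl ≤ nonZeroDivisors ↥C := Ideal.primeCompl_le_nonZeroDivisors x
  let R : Subalgebra ↥C F₀ := Localization.subalgebra.ofField F₀ x.primeCompl hS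
  haveI hlocR : IsLocalization.AtPrime ↥R x :=
    Localization.subalgebra.isLocalization_ofField F₀ x.primeCompl hS
  haveI hlr : IsLocalRing ↥R := IsLocalization.AtPrime.isLocalRing ↥R x
  haveI hic : IsIntegrallyClosed ↥R := isIntegrallyClosed_of_isLocalization ↥R x.primeCompl hS
  set sR : ↥R := algebraMap ↥C ↥R ⟨j₁⁻¹, hs⟩ with hsR
  have hsRm : sR ∈ IsLocalRing.maximalIdeal ↥R :=
    (IsLocalization.AtPrime.to_map_mem_maximal_iff ↥R x _).2 hsx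
  have hJ : sR ∈ (⊥ : Ideal ↥R).jacobson := by
    rw [IsLocalRing.jacobson_eq_maximalIdeal ⊥ bot_ne_top]
    exact hsRm
  have ht : IsIntegral ↥R j₂⁻¹ :=
    isIntegral_inv_right hΦ hq (j := j₁) (j' := j₂) sR (mul_inv_cancel₀ hj₁)
      (mul_inv_cancel₀ hj₂) h12 hJ
  obtain ⟨tR, htR⟩ := IsIntegrallyClosed.isIntegral_iff.mp ht
  have htR' : (tR : F₀) = j₂⁻¹ := htR
  rw [← htR']
  exact (mem_ofField_iff_inLoc C x hS _).1 tR.2

/-- At a cusp, the chart at infinity of `j₂` lies in the local ring. -/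
theorem chart_inv_le_inLoc_of_cusp (C : Subalgebra A₀ F₀) [IsIntegrallyClosed ↥C]
    (hfrac : ∀ y : F₀, ∃ a ∈ C, ∃ b ∈ C, b ≠ 0 ∧ y = a / b)
    {q : ℕ} (hq : q ≠ 0) {Φ : Polynomial (Polynomial ℤ)} (hΦ : IsModPoly q Φ)
    (j₁ j₂ : F₀) (hj₁ : j₁ ≠ 0) (hj₂ : j₂ ≠ 0) (h12 : (evalY j₁ Φ).eval j₂ = 0)
    (hs : j₁⁻¹ ∈ C) (x : Ideal ↥C) [x.IsPrime] (hsx : (⟨j₁⁻¹, hs⟩ : ↥C) ∈ x)
    (y : F₀) (hy : y ∈ H19.chart A₀ j₂⁻¹) : InLoc C x y :=
  chart_le_inLoc C hfrac x j₂⁻¹ (inLoc_inv_of_cusp C hfrac hq hΦ j₁ j₂ hj₁ hj₂ h12 hs x hsx) y hy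

/-- **Away from the cusps, `j₂` lies in the local ring.** -/
theorem inLoc_of_noncusp (C : Subalgebra A₀ F₀) [IsIntegrallyClosed ↥C]
    (hfrac : ∀ y : F₀, ∃ a ∈ C, ∃ b ∈ C, b ≠ 0 ∧ y = a / b)
    {q : ℕ} {Φ : Polynomial (Polynomial ℤ)} (hΦ : IsModPoly q Φ)
    (j₁ j₂ : F₀) (hj₁ : j₁ ≠ 0) (h12 : (evalY j₁ Φ).eval j₂ = 0)
    (hs : j₁⁻¹ ∈ C) (x : Ideal ↥C) [x.IsPrime] (hsx : (⟨j₁⁻¹, hs⟩ : ↥C) ∉ x) :
    InLoc C x j₂ := by
  have h1 : InLoc C x j₁ :=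
    ⟨1, ⟨j₁⁻¹, hs⟩, hsx, by
      show j₁ * j₁⁻¹ = ((1 : ↥C) : F₀)
      rw [mul_inv_cancel₀ hj₁, Subalgebra.coe_one]⟩
  exact chart_le_inLoc C hfrac x j₁ h1 j₂ (mem_chart_of_evalY hΦ j₁ j₂ h12)

/-- Away from the cusps, the finite chart of `j₂` lies in the local ring. -/
theorem chart_le_inLoc_of_noncusp (C : Subalgebra A₀ F₀) [IsIntegrallyClosed ↥C]
    (hfrac : ∀ y : F₀, ∃ a ∈ C, ∃ b ∈ C, b ≠ 0 ∧ y = a / b)
    {q : ℕ} {Φ : Polynomial (Polynomial ℤ)} (hΦ : IsModPoly q Φ)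
    (j₁ j₂ : F₀) (hj₁ : j₁ ≠ 0) (h12 : (evalY j₁ Φ).eval j₂ = 0)
    (hs : j₁⁻¹ ∈ C) (x : Ideal ↥C) [x.IsPrime] (hsx : (⟨j₁⁻¹, hs⟩ : ↥C) ∉ x)
    (y : F₀) (hy : y ∈ H19.chart A₀ j₂) : InLoc C x y :=
  chart_le_inLoc C hfrac x j₂ (inLoc_of_noncusp C hfrac hΦ j₁ j₂ hj₁ h12 hs x hsx) y hy

/-- A ring homomorphism of fields commuting with the structure maps from `A₀` maps the chart of
`x₀` into the chart of its image. -/
theorem map_mem_chart_of_hom {K : Type*} [Field K] [Algebra A₀ K] (f : K →+* F₀)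
    (hf : ∀ a : A₀, f (algebraMap A₀ K a) = algebraMap A₀ F₀ a) (x₀ : K) {c : K}
    (hc : c ∈ H19.chart A₀ x₀) : f c ∈ H19.chart A₀ (f x₀) := by
  rw [H19.mem_chart_iff] at hc ⊢
  have hadj : ∀ b ∈ Algebra.adjoin A₀ ({x₀} : Set K), f b ∈ Algebra.adjoin A₀ ({f x₀} : Set F₀) := by
    intro b hb
    induction hb using Algebra.adjoin_induction with
    | mem z hz =>
        rw [Set.mem_singleton_iff] at hz
        rw [hz]
        exact Algebra.subset_adjoin rfl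
    | algebraMap r =>
        rw [hf]
        exact Subalgebra.algebraMap_mem _ r
    | add z w _ _ hz hw =>
        rw [map_add]
        exact add_mem hz hw
    | mul z w _ _ hz hw =>
        rw [map_mul]
        exact mul_mem hz hw
  let φ : ↥(Algebra.adjoin A₀ ({x₀} : Set K)) →+* ↥(Algebra.adjoin A₀ ({f x₀} : Set F₀)) :=
    (f.comp (algebraMap ↥(Algebra.adjoin A₀ ({x₀} : Set K)) K)).codRestrict
      (Algebra.adjoin A₀ ({f x₀} : Set F₀)) (fun y => hadj y y.2)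
  have hφ : (algebraMap ↥(Algebra.adjoin A₀ ({f x₀} : Set F₀)) F₀).comp φ =
      f.comp (algebraMap ↥(Algebra.adjoin A₀ ({x₀} : Set K)) K) :=
    RingHom.ext fun y => rfl
  exact IsIntegral.map_of_comp_eq φ f hφ hc

/-- **`hloc` at a cusp**: a homomorphism `f` (the degeneracy map `β`) with `f x₀ = j₂` maps the
chart at infinity of `x₀` into the local ring of `C` at a cuspidal prime `x`. -/
theorem inLoc_map_chart_inv_of_cusp (C : Subalgebra A₀ F₀) [IsIntegrallyClosed ↥C]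
    (hfrac : ∀ y : F₀, ∃ a ∈ C, ∃ b ∈ C, b ≠ 0 ∧ y = a / b)
    {q : ℕ} (hq : q ≠ 0) {Φ : Polynomial (Polynomial ℤ)} (hΦ : IsModPoly q Φ)
    (j₁ j₂ : F₀) (hj₁ : j₁ ≠ 0) (hj₂ : j₂ ≠ 0) (h12 : (evalY j₁ Φ).eval j₂ = 0)
    (hs : j₁⁻¹ ∈ C) (x : Ideal ↥C) [x.IsPrime] (hsx : (⟨j₁⁻¹, hs⟩ : ↥C) ∈ x)
    {K : Type*} [Field K] [Algebra A₀ K] (f : K →+* F₀)
    (hf : ∀ a : A₀, f (algebraMap A₀ K a) = algebraMap A₀ F₀ a) (x₀ : K) (hx₀ : f x₀ = j₂)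
    (s : K) (hsc : s ∈ H19.chart A₀ x₀⁻¹) : InLoc C x (f s) := by
  refine chart_inv_le_inLoc_of_cusp C hfrac hq hΦ j₁ j₂ hj₁ hj₂ h12 hs x hsx (f s) ?_
  have h1 := map_mem_chart_of_hom f hf x₀⁻¹ hsc
  rwa [map_inv₀, hx₀] at h1

/-- **`hloc` away from the cusps**: a homomorphism `f` (the degeneracy map `β`) with `f x₀ = j₂`
maps the finite chart of `x₀` into the local ring of `C` at a prime `x` not containing
`1 / j₁`. -/
theorem inLoc_map_chart_of_noncusp (C : Subalgebra A₀ F₀) [IsIntegrallyClosed ↥C]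
    (hfrac : ∀ y : F₀, ∃ a ∈ C, ∃ b ∈ C, b ≠ 0 ∧ y = a / b)
    {q : ℕ} {Φ : Polynomial (Polynomial ℤ)} (hΦ : IsModPoly q Φ)
    (j₁ j₂ : F₀) (hj₁ : j₁ ≠ 0) (h12 : (evalY j₁ Φ).eval j₂ = 0)
    (hs : j₁⁻¹ ∈ C) (x : Ideal ↥C) [x.IsPrime] (hsx : (⟨j₁⁻¹, hs⟩ : ↥C) ∉ x)
    {K : Type*} [Field K] [Algebra A₀ K] (f : K →+* F₀)
    (hf : ∀ a : A₀, f (algebraMap A₀ K a) = algebraMap A₀ F₀ a) (x₀ : K) (hx₀ : f x₀ = j₂)
    (s : K) (hsc : s ∈ H19.chart A₀ x₀) : InLoc C x (f s) := by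
  refine chart_le_inLoc_of_noncusp C hfrac hΦ j₁ j₂ hj₁ h12 hs x hsx (f s) ?_
  have h1 := map_mem_chart_of_hom f hf x₀ hsc
  rwa [hx₀] at h1

end Loc

end Fermat.Agent.S34.H42

end
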