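/-
Program B' (S34), leaf (M6a), CHART form — helper42 (tasks 554).

The one-component points of the charts of level `qM'`, in the vocabulary of helper10's (M3)
(`H10.vGood_of_dsetup`): `K` the level-`M'` field with its Gauss ring `O₀` and a coordinate `t`
(`DSetup A₀ O₀ t`), `L` the level-`qM'` field, `V` a valuation subring of `L`, `φ : K →+* L` a
degeneracy map (`α` for `V = V₁`, `β = w ∘ α` for `V = V₂`) with `φ⁻¹ V = O₀` and residue degree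
one (`hres`).

* `pointUFD_of_chart_hom` : for ANY chart `C` (noetherian, integrally closed, `C ⊆ V ∩ V'`, reduced
  special fibre) and any maximal ideal `x ∋ ϖ` of `C` not containing `C ∩ m(V')`: if `φ t` lies in
  the local ring `C_x` then `C_x` is a unique factorisation domain.  No subalgebra `S ≤ C`, no
  Dedekind hypothesis, no surjectivity hypothesis: all of them are derived from `DSetup`
  (`H9.chart_dedekind`, `H97.chart_center`, `H97.chart_loc_not_dvd`).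
* `beta_supply` : `β := w ∘ α` has `β⁻¹ V₂ = O₀` and residue degree one for `V₂`.
* `pointUFD_of_not_both` : either component.
* `pointUFD_chart_of_not_both`, `pointUFD_chartInv_of_not_both` : the two charts
  `chart A₀ (α x₀)` and `chart A₀ (α x₀)⁻¹`.
-/
import Fermat.Agent.S34.H42.CuspLoc
import Fermat.Agent.S34.H97.ChartLoc
import Fermat.Agent.S34.H9.OneComp
import Fermat.Agent.S34.H64.TwoGaussCor

set_option autoImplicit false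
set_option linter.style.haveILetI false
set_option linter.unusedSectionVars false
set_option linter.unusedVariables false

noncomputable section

namespace Fermat.Agent.S34.H42

open Fermat.Agent.S28 Fermat.Agent.S18 Fermat.Agent.S18.H19

section Core

variable {A₀ : Type*} [CommRing A₀] [IsDomain A₀] [IsDiscreteValuationRing A₀] [CharZero A₀]
  {K L : Type*} [Field K] [Field L] [Algebra A₀ K] [Algebra A₀ L] [FaithfulSMul A₀ K]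

/-- **One-component points, chart form.**  `t` a coordinate of the level-`M'` field `K` with
`DSetup A₀ O₀ t`, `φ : K →+* L` a homomorphism over `A₀` with `φ⁻¹ V = O₀` and residue degree one;
`C` a chart of `L` and `x ∋ ϖ` a maximal ideal of `C` through which the component `V'` does not
pass.  If `φ t` lies in the local ring `C_x`, then `C_x` is a unique factorisation domain. -/
theorem pointUFD_of_chart_hom (ϖ : A₀) (hϖ : Irreducible ϖ)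
    (O₀ : ValuationSubring K) (t : K) (hS : DSetup A₀ O₀ t)
    (φ : K →+* L) (hφA : ∀ a : A₀, φ (algebraMap A₀ K a) = algebraMap A₀ L a)
    (C : Subalgebra A₀ L) [IsNoetherianRing ↥C] [IsIntegrallyClosed ↥C]
    (hfrac : ∀ y : L, ∃ a ∈ C, ∃ b ∈ C, b ≠ 0 ∧ y = a / b)
    (V V' : ValuationSubring L) (hCV : ∀ c ∈ C, c ∈ V) (hCV' : ∀ c ∈ C, c ∈ V')
    (hred : ∀ c ∈ C, c ∈ V.nonunits → c ∈ V'.nonunits → ∃ d ∈ C, c = ϖ • d)
    (hφV : ∀ v : K, φ v ∈ V ↔ v ∈ O₀)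
    (hres : ∀ g ∈ V, ∃ v ∈ O₀, g - φ v ∈ V.nonunits)
    (x : Ideal ↥C) (hx : x.IsMaximal) (hϖx : algebraMap A₀ ↥C ϖ ∈ x)
    (hone : ∃ e : ↥C, e ∉ x ∧ (e : L) ∈ V'.nonunits)
    (hloc : InLoc C x (φ t)) :
    haveI := hx.isPrime
    UniqueFactorizationMonoid (Localization.AtPrime x) := by
  haveI hxp : x.IsPrime := hx.isPrime
  have hn : ∀ f : K, φ f ∈ V.nonunits ↔ f ∈ O₀.nonunits :=
    Fermat.Agent.S34.H64.mem_nonunits_iff_of_mem_iff φ O₀ V hφV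
  have hπ0 : algebraMap A₀ K ϖ ≠ 0 := (map_ne_zero_iff _ (FaithfulSMul.algebraMap_injective A₀ K)).mpr hϖ.ne_zero
  have hϖ0 : algebraMap A₀ L ϖ ≠ 0 := by
    rw [← hφA]
    exact (map_ne_zero_iff φ φ.injective).mpr hπ0
  have hϖV : algebraMap A₀ L ϖ ∈ V.nonunits := by
    rw [← hφA, hn]
    exact Fermat.Agent.S34.H97.unif_mem_nonunits ϖ hϖ O₀ t hS
  refine pointUFD_of_oneComp_local ϖ hϖ0 C hfrac V V' hCV hCV' hϖV hred x hx hϖx hone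
    (S := ↥(chart A₀ t)) (φ.comp (algebraMap ↥(chart A₀ t) K)) (algebraMap A₀ ↥(chart A₀ t) ϖ)
    ?_ (Fermat.Agent.S34.H9.chart_dedekind ϖ hϖ O₀ t hS) ?_ ?_ ?_
  · show φ (algebraMap A₀ K ϖ) = algebraMap A₀ L ϖ
    exact hφA ϖ
  · intro s
    exact chart_le_inLoc C hfrac x (φ t) hloc (φ (s : K)) (map_mem_chart_of_hom φ hφA t s.2)
  · intro s hs
    exact Fermat.Agent.S34.H97.chart_center ϖ hϖ O₀ t hS s ((hn _).1 hs)
  · intro g hg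
    obtain ⟨v, hv, hgv⟩ := hres g hg
    obtain ⟨a, b, hb, hvb⟩ := Fermat.Agent.S34.H97.chart_loc_not_dvd ϖ hϖ O₀ t hS v hv
    refine ⟨a, b, hb, ?_⟩
    have hbV : φ (b : K) ∈ V := (hφV _).2 (H6.chart_le O₀ t hS _ b.2)
    have hvb' : v * (b : K) = (a : K) := hvb
    have e : g * φ (b : K) - φ (a : K) = (g - φ v) * φ (b : K) := by
      rw [← hvb', map_mul]
      ring
    show g * φ (b : K) - φ (a : K) ∈ V.nonunits
    rw [e]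
    exact Fermat.Agent.S34.H9.nonunits_mul_mem V hgv hbV

end Core

section Charts

variable {A₀ : Type*} [CommRing A₀] [IsDomain A₀] [IsDiscreteValuationRing A₀] [CharZero A₀]
  {K L : Type*} [Field K] [Field L] [Algebra A₀ K] [Algebra A₀ L] [Algebra K L]
  [IsScalarTower A₀ K L] [FaithfulSMul A₀ K]

/-- **The second degeneracy map.**  If `w` is an involution of `L` exchanging `V₁` and `V₂`, then
`β := w ∘ α` has the properties of `α` with `V₂` in place of `V₁`: `β⁻¹ V₂ = O₀` and residue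
degree one. -/
theorem beta_supply (O₀ : ValuationSubring K) (V₁ V₂ : ValuationSubring L)
    (hc₁ : ∀ v : K, algebraMap K L v ∈ V₁ ↔ v ∈ O₀)
    (hres₁ : ∀ g ∈ V₁, ∃ v ∈ O₀, g - algebraMap K L v ∈ V₁.nonunits)
    (w : L ≃+* L) (hwV : ∀ g : L, g ∈ V₂ ↔ w g ∈ V₁) (hww : ∀ g : L, w (w g) = g) :
    (∀ v : K, w (algebraMap K L v) ∈ V₂ ↔ v ∈ O₀) ∧
      ∀ g ∈ V₂, ∃ v ∈ O₀, g - w (algebraMap K L v) ∈ V₂.nonunits := by
  have hn : ∀ g : L, w g ∈ V₁.nonunits ↔ g ∈ V₂.nonunits :=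
    Fermat.Agent.S34.H64.mem_nonunits_iff_of_mem_iff (w : L →+* L) V₂ V₁ (fun f => (hwV f).symm)
  refine ⟨fun v => by rw [hwV, hww, hc₁], fun g hg => ?_⟩
  obtain ⟨v, hv, h⟩ := hres₁ (w g) ((hwV g).1 hg)
  refine ⟨v, hv, ?_⟩
  rw [← hn, map_sub, hww]
  exact h

/-- `β := w ∘ α` commutes with the structure maps. -/
theorem beta_algebraMap (w : L ≃+* L) (hwA : ∀ a : A₀, w (algebraMap A₀ L a) = algebraMap A₀ L a)
    (a : A₀) : ((w : L →+* L).comp (algebraMap K L)) (algebraMap A₀ K a) = algebraMap A₀ L a := by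
  show w (algebraMap K L (algebraMap A₀ K a)) = algebraMap A₀ L a
  rw [← IsScalarTower.algebraMap_apply, hwA]

/-- **One-component points, either component.**  `C` any chart of `L` inside `V₁ ∩ V₂` with
reduced special fibre (`hu₁`, `hu₂`, `hsat` are the clauses `unif₁`, `unif₂`, `sat` of
`H30.VData.Good` / `H10.VGood`), `x ∋ ϖ` a maximal ideal of `C` which does not contain both
`C ∩ m(V₁)` and `C ∩ m(V₂)`.  If the local ring `C_x` contains `α t₁` and `β t₂` for coordinates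
`t₁`, `t₂` of the level-`M'` field (`DSetup`), then `C_x` is a unique factorisation domain. -/
theorem pointUFD_of_not_both (ϖ : A₀) (hϖ : Irreducible ϖ)
    (O₀ : ValuationSubring K) (t₁ t₂ : K) (hS₁ : DSetup A₀ O₀ t₁) (hS₂ : DSetup A₀ O₀ t₂)
    (V₁ V₂ : ValuationSubring L)
    (hc₁ : ∀ v : K, algebraMap K L v ∈ V₁ ↔ v ∈ O₀)
    (hres₁ : ∀ g ∈ V₁, ∃ v ∈ O₀, g - algebraMap K L v ∈ V₁.nonunits)
    (β : K →+* L) (hβA : ∀ a : A₀, β (algebraMap A₀ K a) = algebraMap A₀ L a)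
    (hβV : ∀ v : K, β v ∈ V₂ ↔ v ∈ O₀)
    (hresβ : ∀ g ∈ V₂, ∃ v ∈ O₀, g - β v ∈ V₂.nonunits)
    (C : Subalgebra A₀ L) [IsNoetherianRing ↥C] [IsIntegrallyClosed ↥C]
    (hfrac : ∀ y : L, ∃ a ∈ C, ∃ b ∈ C, b ≠ 0 ∧ y = a / b)
    (hCV₁ : ∀ c ∈ C, c ∈ V₁) (hCV₂ : ∀ c ∈ C, c ∈ V₂)
    (hu₁ : ∀ y : L, y ∈ V₁.nonunits ↔ ∃ d ∈ V₁, y = ϖ • d)
    (hu₂ : ∀ y : L, y ∈ V₂.nonunits ↔ ∃ d ∈ V₂, y = ϖ • d)
    (hsat : ∀ y : L, y ∈ V₁ → y ∈ V₂ → ϖ • y ∈ C → y ∈ C)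
    (x : Ideal ↥C) (hx : x.IsMaximal) (hϖx : algebraMap A₀ ↥C ϖ ∈ x)
    (hloc₁ : InLoc C x (algebraMap K L t₁)) (hloc₂ : InLoc C x (β t₂))
    (hnb : ¬ ((∀ c : ↥C, (c : L) ∈ V₁.nonunits → c ∈ x) ∧
      (∀ c : ↥C, (c : L) ∈ V₂.nonunits → c ∈ x))) :
    haveI := hx.isPrime
    UniqueFactorizationMonoid (Localization.AtPrime x) := by
  have hπ0 : algebraMap A₀ K ϖ ≠ 0 := (map_ne_zero_iff _ (FaithfulSMul.algebraMap_injective A₀ K)).mpr hϖ.ne_zero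
  have hϖ0 : algebraMap A₀ L ϖ ≠ 0 := by
    rw [IsScalarTower.algebraMap_apply A₀ K L]
    exact (map_ne_zero_iff _ (algebraMap K L).injective).mpr hπ0
  by_cases h2 : ∀ c : ↥C, (c : L) ∈ V₂.nonunits → c ∈ x
  · -- the component `V₁` does not pass through `x`: `x` lies on `V₂` only
    have h1 : ¬ ∀ c : ↥C, (c : L) ∈ V₁.nonunits → c ∈ x := fun h1 => hnb ⟨h1, h2⟩
    have hone : ∃ e : ↥C, e ∉ x ∧ (e : L) ∈ V₁.nonunits := by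
      by_contra hne
      exact h1 fun c hc => by
        by_contra hcx
        exact hne ⟨c, hcx, hc⟩
    exact pointUFD_of_chart_hom ϖ hϖ O₀ t₂ hS₂ β hβA C hfrac V₂ V₁ hCV₂ hCV₁
      (Fermat.Agent.S34.H9.red_of_unif_sat ϖ hϖ0 C V₂ V₁ hu₂ hu₁ (fun y h2 h1 => hsat y h1 h2))
      hβV hresβ x hx hϖx hone hloc₂
  · have hone : ∃ e : ↥C, e ∉ x ∧ (e : L) ∈ V₂.nonunits := by
      by_contra hne
      exact h2 fun c hc => by
        by_contra hcx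
        exact hne ⟨c, hcx, hc⟩
    exact pointUFD_of_chart_hom ϖ hϖ O₀ t₁ hS₁ (algebraMap K L)
      (fun a => (IsScalarTower.algebraMap_apply A₀ K L a).symm) C hfrac V₁ V₂ hCV₁ hCV₂
      (Fermat.Agent.S34.H9.red_of_unif_sat ϖ hϖ0 C V₁ V₂ hu₁ hu₂ hsat)
      hc₁ hres₁ x hx hϖx hone hloc₁

/-- A coordinate of a `DSetup` is not zero. -/
theorem dsetup_ne_zero {F₀ : Type*} [Field F₀] [Algebra A₀ F₀] (O₀ : ValuationSubring F₀)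
    (t : F₀) (hS : DSetup A₀ O₀ t) : t ≠ 0 := by
  intro h0
  have h1 := (transcendental_iff.mp hS.transc) Polynomial.X (by rw [Polynomial.aeval_X, h0])
  exact Polynomial.X_ne_zero h1

/-- **One-component points of the finite chart `C₁ = chart A₀ (α x₀)`.**  `hjq` is the
integrality of `β x₀` over `A₀[α x₀]` (for `x₀ = j`: the modular equation,
`mem_chart_of_evalY`). -/
theorem pointUFD_chart_of_not_both (ϖ : A₀) (hϖ : Irreducible ϖ)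
    (O₀ : ValuationSubring K) (x₀ : K) (hS : DSetup A₀ O₀ x₀)
    (V₁ V₂ : ValuationSubring L)
    (hc₁ : ∀ v : K, algebraMap K L v ∈ V₁ ↔ v ∈ O₀)
    (hres₁ : ∀ g ∈ V₁, ∃ v ∈ O₀, g - algebraMap K L v ∈ V₁.nonunits)
    (β : K →+* L) (hβA : ∀ a : A₀, β (algebraMap A₀ K a) = algebraMap A₀ L a)
    (hβV : ∀ v : K, β v ∈ V₂ ↔ v ∈ O₀)
    (hresβ : ∀ g ∈ V₂, ∃ v ∈ O₀, g - β v ∈ V₂.nonunits)
    [IsNoetherianRing ↥(chart A₀ (algebraMap K L x₀))]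
    [IsIntegrallyClosed ↥(chart A₀ (algebraMap K L x₀))]
    (hfrac : ∀ y : L, ∃ a ∈ chart A₀ (algebraMap K L x₀), ∃ b ∈ chart A₀ (algebraMap K L x₀),
      b ≠ 0 ∧ y = a / b)
    (hCV₁ : ∀ c ∈ chart A₀ (algebraMap K L x₀), c ∈ V₁)
    (hCV₂ : ∀ c ∈ chart A₀ (algebraMap K L x₀), c ∈ V₂)
    (hu₁ : ∀ y : L, y ∈ V₁.nonunits ↔ ∃ d ∈ V₁, y = ϖ • d)
    (hu₂ : ∀ y : L, y ∈ V₂.nonunits ↔ ∃ d ∈ V₂, y = ϖ • d)
    (hsat : ∀ y : L, y ∈ V₁ → y ∈ V₂ → ϖ • y ∈ chart A₀ (algebraMap K L x₀) →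
      y ∈ chart A₀ (algebraMap K L x₀))
    (hjq : β x₀ ∈ chart A₀ (algebraMap K L x₀))
    (x : Ideal ↥(chart A₀ (algebraMap K L x₀))) (hx : x.IsMaximal)
    (hϖx : algebraMap A₀ ↥(chart A₀ (algebraMap K L x₀)) ϖ ∈ x)
    (hnb : ¬ ((∀ c : ↥(chart A₀ (algebraMap K L x₀)), (c : L) ∈ V₁.nonunits → c ∈ x) ∧
      (∀ c : ↥(chart A₀ (algebraMap K L x₀)), (c : L) ∈ V₂.nonunits → c ∈ x))) :
    haveI := hx.isPrime
    UniqueFactorizationMonoid (Localization.AtPrime x) := by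
  haveI := hx.isPrime
  exact pointUFD_of_not_both ϖ hϖ O₀ x₀ x₀ hS hS V₁ V₂ hc₁ hres₁ β hβA hβV hresβ
    (chart A₀ (algebraMap K L x₀)) hfrac hCV₁ hCV₂ hu₁ hu₂ hsat x hx hϖx
    (inLoc_of_mem _ x (self_mem_chart A₀ (algebraMap K L x₀))) (inLoc_of_mem _ x hjq) hnb

/-- **One-component points of the chart at infinity `C₂ = chart A₀ (α x₀)⁻¹`, `x₀ = j`.**
`α x₀` and `β x₀` are related by the modular equation `Φ_q(α x₀, β x₀) = 0`.  At a cusp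
(`(α x₀)⁻¹ ∈ x`) the level-`M'` chart at infinity is used (`hS'`, A4), elsewhere the finite one
(`hS`). -/
theorem pointUFD_chartInv_of_not_both (ϖ : A₀) (hϖ : Irreducible ϖ)
    (O₀ : ValuationSubring K) (x₀ : K) (hS : DSetup A₀ O₀ x₀) (hS' : DSetup A₀ O₀ x₀⁻¹)
    (V₁ V₂ : ValuationSubring L)
    (hc₁ : ∀ v : K, algebraMap K L v ∈ V₁ ↔ v ∈ O₀)
    (hres₁ : ∀ g ∈ V₁, ∃ v ∈ O₀, g - algebraMap K L v ∈ V₁.nonunits)
    (β : K →+* L) (hβA : ∀ a : A₀, β (algebraMap A₀ K a) = algebraMap A₀ L a)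
    (hβV : ∀ v : K, β v ∈ V₂ ↔ v ∈ O₀)
    (hresβ : ∀ g ∈ V₂, ∃ v ∈ O₀, g - β v ∈ V₂.nonunits)
    [IsNoetherianRing ↥(chart A₀ (algebraMap K L x₀)⁻¹)]
    [IsIntegrallyClosed ↥(chart A₀ (algebraMap K L x₀)⁻¹)]
    (hfrac : ∀ y : L, ∃ a ∈ chart A₀ (algebraMap K L x₀)⁻¹,
      ∃ b ∈ chart A₀ (algebraMap K L x₀)⁻¹, b ≠ 0 ∧ y = a / b)
    (hCV₁ : ∀ c ∈ chart A₀ (algebraMap K L x₀)⁻¹, c ∈ V₁)
    (hCV₂ : ∀ c ∈ chart A₀ (algebraMap K L x₀)⁻¹, c ∈ V₂)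
    (hu₁ : ∀ y : L, y ∈ V₁.nonunits ↔ ∃ d ∈ V₁, y = ϖ • d)
    (hu₂ : ∀ y : L, y ∈ V₂.nonunits ↔ ∃ d ∈ V₂, y = ϖ • d)
    (hsat : ∀ y : L, y ∈ V₁ → y ∈ V₂ → ϖ • y ∈ chart A₀ (algebraMap K L x₀)⁻¹ →
      y ∈ chart A₀ (algebraMap K L x₀)⁻¹)
    {q : ℕ} (hq : q ≠ 0) {Φ : Polynomial (Polynomial ℤ)} (hΦ : IsModPoly q Φ)
    (h12 : (evalY (algebraMap K L x₀) Φ).eval (β x₀) = 0)
    (x : Ideal ↥(chart A₀ (algebraMap K L x₀)⁻¹)) (hx : x.IsMaximal)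
    (hϖx : algebraMap A₀ ↥(chart A₀ (algebraMap K L x₀)⁻¹) ϖ ∈ x)
    (hnb : ¬ ((∀ c : ↥(chart A₀ (algebraMap K L x₀)⁻¹), (c : L) ∈ V₁.nonunits → c ∈ x) ∧
      (∀ c : ↥(chart A₀ (algebraMap K L x₀)⁻¹), (c : L) ∈ V₂.nonunits → c ∈ x))) :
    haveI := hx.isPrime
    UniqueFactorizationMonoid (Localization.AtPrime x) := by
  haveI := hx.isPrime
  have hx₀ : x₀ ≠ 0 := dsetup_ne_zero O₀ x₀ hS
  have hj₁ : algebraMap K L x₀ ≠ 0 := (map_ne_zero_iff _ (algebraMap K L).injective).mpr hx₀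
  have hj₂ : β x₀ ≠ 0 := (map_ne_zero_iff β β.injective).mpr hx₀
  have hs : (algebraMap K L x₀)⁻¹ ∈ chart A₀ (algebraMap K L x₀)⁻¹ := self_mem_chart A₀ _
  by_cases hsx : (⟨(algebraMap K L x₀)⁻¹, hs⟩ : ↥(chart A₀ (algebraMap K L x₀)⁻¹)) ∈ x
  · -- a cusp
    refine pointUFD_of_not_both ϖ hϖ O₀ x₀⁻¹ x₀⁻¹ hS' hS' V₁ V₂ hc₁ hres₁ β hβA hβV hresβ
      (chart A₀ (algebraMap K L x₀)⁻¹) hfrac hCV₁ hCV₂ hu₁ hu₂ hsat x hx hϖx ?_ ?_ hnb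
    · rw [map_inv₀]
      exact inLoc_of_mem _ x hs
    · rw [map_inv₀]
      exact inLoc_inv_of_cusp _ hfrac hq hΦ (algebraMap K L x₀) (β x₀) hj₁ hj₂ h12 hs x hsx
  · -- not a cusp
    refine pointUFD_of_not_both ϖ hϖ O₀ x₀ x₀ hS hS V₁ V₂ hc₁ hres₁ β hβA hβV hresβ
      (chart A₀ (algebraMap K L x₀)⁻¹) hfrac hCV₁ hCV₂ hu₁ hu₂ hsat x hx hϖx ?_ ?_ hnb
    · refine ⟨1, ⟨(algebraMap K L x₀)⁻¹, hs⟩, hsx, ?_⟩
      show algebraMap K L x₀ * (algebraMap K L x₀)⁻¹ = ((1 : ↥(chart A₀ (algebraMap K L x₀)⁻¹)) : L)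
      rw [mul_inv_cancel₀ hj₁, Subalgebra.coe_one]
    · exact inLoc_of_noncusp _ hfrac hΦ (algebraMap K L x₀) (β x₀) hj₁ h12 hs x hsx

/-- **The cusps of the chart at infinity, `x₀ = j`** ((M6c) + (M6a)): the local ring at a maximal
ideal `x ∋ ϖ, (α x₀)⁻¹` of `C₂ = chart A₀ (α x₀)⁻¹` is a unique factorisation domain.  `hk₁`, `hk₂`
are the Kronecker congruences `β j ≡ (α j)^q` on `V₁` and `α j ≡ (β j)^q` on `V₂`. -/
theorem pointUFD_chartInv_of_cusp (ϖ : A₀) (hϖ : Irreducible ϖ)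
    (O₀ : ValuationSubring K) (x₀ : K) (hS : DSetup A₀ O₀ x₀) (hS' : DSetup A₀ O₀ x₀⁻¹)
    (V₁ V₂ : ValuationSubring L)
    (hc₁ : ∀ v : K, algebraMap K L v ∈ V₁ ↔ v ∈ O₀)
    (hres₁ : ∀ g ∈ V₁, ∃ v ∈ O₀, g - algebraMap K L v ∈ V₁.nonunits)
    (β : K →+* L) (hβA : ∀ a : A₀, β (algebraMap A₀ K a) = algebraMap A₀ L a)
    (hβV : ∀ v : K, β v ∈ V₂ ↔ v ∈ O₀)
    (hresβ : ∀ g ∈ V₂, ∃ v ∈ O₀, g - β v ∈ V₂.nonunits)
    [IsNoetherianRing ↥(chart A₀ (algebraMap K L x₀)⁻¹)]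
    [IsIntegrallyClosed ↥(chart A₀ (algebraMap K L x₀)⁻¹)]
    (hfrac : ∀ y : L, ∃ a ∈ chart A₀ (algebraMap K L x₀)⁻¹,
      ∃ b ∈ chart A₀ (algebraMap K L x₀)⁻¹, b ≠ 0 ∧ y = a / b)
    (hCV₁ : ∀ c ∈ chart A₀ (algebraMap K L x₀)⁻¹, c ∈ V₁)
    (hCV₂ : ∀ c ∈ chart A₀ (algebraMap K L x₀)⁻¹, c ∈ V₂)
    (hu₁ : ∀ y : L, y ∈ V₁.nonunits ↔ ∃ d ∈ V₁, y = ϖ • d)
    (hu₂ : ∀ y : L, y ∈ V₂.nonunits ↔ ∃ d ∈ V₂, y = ϖ • d)
    (hsat : ∀ y : L, y ∈ V₁ → y ∈ V₂ → ϖ • y ∈ chart A₀ (algebraMap K L x₀)⁻¹ →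
      y ∈ chart A₀ (algebraMap K L x₀)⁻¹)
    {q : ℕ} (hq : q.Prime) {Φ : Polynomial (Polynomial ℤ)} (hΦ : IsModPoly q Φ)
    (h12 : (evalY (algebraMap K L x₀) Φ).eval (β x₀) = 0)
    (h21 : (evalY (β x₀) Φ).eval (algebraMap K L x₀) = 0)
    (hk₁ : β x₀ - algebraMap K L x₀ ^ q ∈ V₁.nonunits)
    (hk₂ : algebraMap K L x₀ - β x₀ ^ q ∈ V₂.nonunits)
    (x : Ideal ↥(chart A₀ (algebraMap K L x₀)⁻¹)) (hx : x.IsMaximal)
    (hϖx : algebraMap A₀ ↥(chart A₀ (algebraMap K L x₀)⁻¹) ϖ ∈ x)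
    (hsx : (⟨(algebraMap K L x₀)⁻¹, self_mem_chart A₀ _⟩ :
      ↥(chart A₀ (algebraMap K L x₀)⁻¹)) ∈ x) :
    haveI := hx.isPrime
    UniqueFactorizationMonoid (Localization.AtPrime x) := by
  haveI := hx.isPrime
  have hx₀ : x₀ ≠ 0 := dsetup_ne_zero O₀ x₀ hS
  have hj₁ : algebraMap K L x₀ ≠ 0 := (map_ne_zero_iff _ (algebraMap K L).injective).mpr hx₀
  have hj₂ : β x₀ ≠ 0 := (map_ne_zero_iff β β.injective).mpr hx₀
  have hu₂' : (β x₀)⁻¹ ∈ V₂ := by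
    rw [← map_inv₀, hβV]
    exact H6.chart_le O₀ x₀⁻¹ hS' _ (self_mem_chart A₀ x₀⁻¹)
  exact pointUFD_chartInv_of_not_both ϖ hϖ O₀ x₀ hS hS' V₁ V₂ hc₁ hres₁ β hβA hβV hresβ hfrac
    hCV₁ hCV₂ hu₁ hu₂ hsat hq.ne_zero hΦ h12 x hx hϖx
    (cusp_not_both _ hfrac hq hΦ (algebraMap K L x₀) (β x₀) hj₁ hj₂ h12 h21
      (self_mem_chart A₀ _) V₁ V₂ hCV₁ hCV₂ hk₁ hk₂ hu₂' x hsx)

end Charts

end Fermat.Agent.S34.H42
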