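/-
Program B' (S34), leaves (M6a)/(M6c), LOCAL forms for general coordinates — helper42 (tasks 554).

For `q ∈ {2, 3}` the coordinate `x₀` of the level-`M'` curve is a Hauptmodul `h` with
`j · D(h) = N(h)` (`N = (X + 16)³`, `D = X`, resp. `N = (X + 27)(X + 3)³`, `D = X`), not `j`
itself (`N = X`, `D = 1`).  Then the finite chart `chart A₀ (α h)` contains cusps (`h = 0`), and
`1 / j` is not an element of either chart: everything about cusps has to be said in the local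
rings `C_x`.

* `exists_algebraMap_eq_or_inv_of_unit_coeff` : (Mathlib only) in the fraction field of an
  integrally closed local domain `R`, a root `y` of a polynomial with one unit coefficient
  satisfies `y ∈ R` or `y⁻¹ ∈ R`;
* section `Rel` : the abstract local lemmas over such an `R` (`rel_cusp`, `rel_noncusp`,
  `rel_dichotomy`, `rel_inv`, `rel_evalY`, `rel_evalY_inv`);
* `InMax C x y` : `y` lies in the maximal ideal of `C_x`; `exists_locRing` : the local ring `C_x`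
  inside `F₀` with the dictionary to `InLoc` / `InMax`;
* `cusp_not_both_loc` : (M6c) with `1 / j₁ ∈ m(C_x)` instead of `1 / j₁ ∈ C`;
* `inLoc_or_inMax_inv_of_rel`, `inMax_inv_of_aeval_mem`, `inLoc_of_aeval_not_mem`,
  `inLoc_of_inLoc_j`, `inLoc_or_inv_of_inMax_j`, `not_inMax_inv_of_inLoc`,
  `inMax_inv_of_inMax_inv` : the local statements about `j₁ = α j₀`, `j₂ = β j₀`, `h₂ = β x₀`;
* `unif_mem_of_aeval_mem` : a maximal ideal of a chart through a zero of a monic `D(h)` contains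
  the uniformiser;
* `beta_mem_chart_of_rel` : `β x₀ ∈ chart A₀ (α x₀)` for a general coordinate (the hypothesis
  `hjq` of `pointUFD_chart_of_not_both`, and `β(chart) ⊆ chart` for (M6b));
* `not_both_of_aeval_mem`, `not_both_of_chartInv_mem` : the cusps lie on one component;
* `pointUFD_chartInv_of_cusp_rel`, `pointUFD_chart_of_not_both_rel` : the chart theorems for all
  `q`; `isCoprime_X_of_isUnit_coeff_zero` : the Bezout hypothesis for `D = X`.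
-/
import Fermat.Agent.S34.H42.OneCompChart

set_option autoImplicit false
set_option linter.style.haveILetI false
set_option linter.unusedSectionVars false
set_option linter.unusedVariables false

noncomputable section

namespace Fermat.Agent.S34.H42

open Fermat.Agent.S28 Fermat.Agent.S18 Fermat.Agent.S18.H19

section UnitCoeff

variable {R F : Type*} [CommRing R] [IsDomain R] [IsLocalRing R] [IsIntegrallyClosed R]
  [Field F] [Algebra R F] [IsFractionRing R F]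

theorem exists_algebraMap_eq_or_inv_aux (y : F) :
    ∀ (n : ℕ) (P : Polynomial R), P.natDegree ≤ n → (∃ i, IsUnit (P.coeff i)) →
      Polynomial.aeval y P = 0 →
      (∃ r : R, algebraMap R F r = y) ∨ (∃ r : R, algebraMap R F r = y⁻¹) := by
  intro n
  induction n with
  | zero =>
    rintro P hdeg ⟨i, hi⟩ hy
    exfalso
    have hP : P = Polynomial.C (P.coeff 0) := Polynomial.eq_C_of_natDegree_le_zero hdeg
    have hi0 : i = 0 := by
      by_contra hne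
      rw [hP, Polynomial.coeff_C, if_neg hne] at hi
      exact not_isUnit_zero hi
    subst hi0
    rw [hP, Polynomial.aeval_C] at hy
    exact (hi.map (algebraMap R F)).ne_zero hy
  | succ n ih =>
    rintro P hdeg ⟨i, hi⟩ hy
    by_cases hlt : P.natDegree ≤ n
    · exact ih P hlt ⟨i, hi⟩ hy
    have hdeg' : P.natDegree = n + 1 := by omega
    by_cases hlead : IsUnit P.leadingCoeff
    · left
      obtain ⟨u, hu⟩ := hlead
      have hmon : (P * Polynomial.C (↑u⁻¹ : R)).Monic :=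
        Polynomial.monic_mul_C_of_leadingCoeff_mul_eq_one (by rw [← hu]; exact u.mul_inv)
      have hint : IsIntegral R y := by
        refine ⟨P * Polynomial.C (↑u⁻¹ : R), hmon, ?_⟩
        rw [← Polynomial.aeval_def, map_mul, hy, zero_mul]
      exact IsIntegrallyClosed.isIntegral_iff.mp hint
    · have hint : IsIntegral R (P.leadingCoeff • y) := isIntegral_leadingCoeff_smul P y hy
      obtain ⟨c, hc⟩ := IsIntegrallyClosed.isIntegral_iff.mp hint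
      have hcy : algebraMap R F c = algebraMap R F P.leadingCoeff * y := by
        rw [hc, Algebra.smul_def]
      by_cases hcu : IsUnit c
      · right
        obtain ⟨u, hu⟩ := hcu
        refine ⟨P.leadingCoeff * ↑u⁻¹, ?_⟩
        refine eq_inv_of_mul_eq_one_left ?_
        rw [map_mul, mul_right_comm, ← hcy, ← map_mul, ← hu, u.mul_inv, map_one]
      · let Q : Polynomial R := P.eraseLead + Polynomial.C c * Polynomial.X ^ n
        have hQdeg : Q.natDegree ≤ n := by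
          refine (Polynomial.natDegree_add_le _ _).trans
            (max_le ?_ (Polynomial.natDegree_C_mul_X_pow_le c n))
          have := Polynomial.eraseLead_natDegree_le P
          omega
        have hQy : Polynomial.aeval y Q = 0 := by
          have h1 : Polynomial.aeval y P = Polynomial.aeval y P.eraseLead +
              algebraMap R F P.leadingCoeff * y ^ (n + 1) := by
            conv_lhs => rw [← Polynomial.eraseLead_add_C_mul_X_pow P, hdeg']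
            rw [map_add, map_mul, Polynomial.aeval_C, map_pow, Polynomial.aeval_X]
          show Polynomial.aeval y (P.eraseLead + Polynomial.C c * Polynomial.X ^ n) = 0
          rw [map_add, map_mul, Polynomial.aeval_C, map_pow, Polynomial.aeval_X, hcy, mul_assoc,
            ← pow_succ', ← h1, hy]
        have hQu : ∃ i, IsUnit (Q.coeff i) := by
          have hin : i ≠ n + 1 := by
            rintro rfl
            apply hlead
            rw [Polynomial.leadingCoeff, hdeg']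
            exact hi
          by_cases hi' : i = n
          · subst hi'
            refine ⟨i, ?_⟩
            have hQi : Q.coeff i = P.coeff i + c := by
              show (P.eraseLead + Polynomial.C c * Polynomial.X ^ i).coeff i = _
              rw [Polynomial.coeff_add, Polynomial.eraseLead_coeff, if_neg (by omega),
                Polynomial.coeff_C_mul_X_pow, if_pos rfl]
            rw [hQi]
            by_contra hnu
            have h2 : P.coeff i + c ∈ nonunits R := hnu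
            have h3 : -c ∈ nonunits R := by
              intro h
              exact hcu (by simpa using h.neg)
            have h4 := IsLocalRing.nonunits_add h2 h3
            rw [add_neg_cancel_right] at h4
            exact h4 hi
          · refine ⟨i, ?_⟩
            have hQi : Q.coeff i = P.coeff i := by
              show (P.eraseLead + Polynomial.C c * Polynomial.X ^ n).coeff i = _
              rw [Polynomial.coeff_add, Polynomial.eraseLead_coeff, if_neg (by omega),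
                Polynomial.coeff_C_mul_X_pow, if_neg hi', add_zero]
            rw [hQi]
            exact hi
        exact ih Q hQdeg hQu hQy

/-- **Unit-coefficient lemma.**  `R` an integrally closed local domain with fraction field `F`,
`y ∈ F` a root of a polynomial over `R` one of whose coefficients is a unit: then `y ∈ R` or
`y⁻¹ ∈ R`. -/
theorem exists_algebraMap_eq_or_inv_of_unit_coeff (P : Polynomial R)
    (hP : ∃ i, IsUnit (P.coeff i)) (y : F) (hy : Polynomial.aeval y P = 0) :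
    (∃ r : R, algebraMap R F r = y) ∨ (∃ r : R, algebraMap R F r = y⁻¹) :=
  exists_algebraMap_eq_or_inv_aux y P.natDegree P le_rfl hP hy

end UnitCoeff

section Rel

variable {A₀ R F : Type*} [CommRing A₀] [CommRing R] [IsDomain R] [IsLocalRing R]
  [IsIntegrallyClosed R] [Field F] [Algebra A₀ R] [Algebra R F] [Algebra A₀ F]
  [IsScalarTower A₀ R F] [IsFractionRing R F]

/-- **(cusp)** `t ∈ m_R` and `t · N(y) = D(y)` with `D` having a unit coefficient: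
`y ∈ R` or `y⁻¹ ∈ R`. -/
theorem rel_cusp (N D : Polynomial A₀) (hD : ∃ i, IsUnit (D.coeff i)) (t : R)
    (ht : t ∈ IsLocalRing.maximalIdeal R) (y : F)
    (hrel : algebraMap R F t * Polynomial.aeval y N = Polynomial.aeval y D) :
    (∃ r : R, algebraMap R F r = y) ∨ (∃ r : R, algebraMap R F r = y⁻¹) := by
  refine exists_algebraMap_eq_or_inv_of_unit_coeff
    (Polynomial.C t * N.map (algebraMap A₀ R) - D.map (algebraMap A₀ R)) ?_ y ?_
  · obtain ⟨i, hi⟩ := hD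
    refine ⟨i, ?_⟩
    rw [Polynomial.coeff_sub, Polynomial.coeff_C_mul, Polynomial.coeff_map, Polynomial.coeff_map]
    by_contra hnu
    have h2 : t * algebraMap A₀ R (N.coeff i) - algebraMap A₀ R (D.coeff i) ∈
        IsLocalRing.maximalIdeal R := hnu
    have h3 : algebraMap A₀ R (D.coeff i) ∈ IsLocalRing.maximalIdeal R := by
      have h4 := Ideal.sub_mem _ (Ideal.mul_mem_right (algebraMap A₀ R (N.coeff i)) _ ht) h2
      rwa [sub_sub_cancel] at h4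
    exact h3 (hi.map (algebraMap A₀ R))
  · rw [map_sub, map_mul, Polynomial.aeval_C, Polynomial.aeval_map_algebraMap,
      Polynomial.aeval_map_algebraMap, hrel, sub_self]

/-- **(no cusp)** `j ∈ R` and `j · D(y) = N(y)` with `N` monic of degree `> deg D`: `y ∈ R`. -/
theorem rel_noncusp (N D : Polynomial A₀) (hN : N.Monic) (hdeg : D.natDegree < N.natDegree)
    (jr : R) (y : F)
    (hrel : algebraMap R F jr * Polynomial.aeval y D = Polynomial.aeval y N) :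
    ∃ r : R, algebraMap R F r = y := by
  have hlt : (Polynomial.C jr * D.map (algebraMap A₀ R)).degree <
      (N.map (algebraMap A₀ R)).degree := by
    refine Polynomial.degree_lt_degree ?_
    rw [hN.natDegree_map]
    exact lt_of_le_of_lt ((Polynomial.natDegree_C_mul_le _ _).trans Polynomial.natDegree_map_le)
      hdeg
  have hmon : (N.map (algebraMap A₀ R) - Polynomial.C jr * D.map (algebraMap A₀ R)).Monic :=
    (hN.map _).sub_of_left hlt
  have hint : IsIntegral R y := by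
    refine ⟨_, hmon, ?_⟩
    rw [← Polynomial.aeval_def, map_sub, map_mul, Polynomial.aeval_C,
      Polynomial.aeval_map_algebraMap, Polynomial.aeval_map_algebraMap, hrel, sub_self]
  exact IsIntegrallyClosed.isIntegral_iff.mp hint

/-- **(dichotomy)** for `h ∈ R`, `N`, `D` coprime and `j · D(h) = N(h)`: `j ∈ R` or
`j⁻¹ ∈ m_R`; the second case happens exactly when `D(h) ∈ m_R`. -/
theorem rel_dichotomy (N D : Polynomial A₀) (hcop : IsCoprime N D) (h : R) (j : F)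
    (hrel : j * Polynomial.aeval (algebraMap R F h) D = Polynomial.aeval (algebraMap R F h) N) :
    (¬ Polynomial.aeval h D ∈ IsLocalRing.maximalIdeal R ∧ ∃ r : R, algebraMap R F r = j) ∨
      (Polynomial.aeval h D ∈ IsLocalRing.maximalIdeal R ∧
        ∃ r ∈ IsLocalRing.maximalIdeal R, algebraMap R F r = j⁻¹) := by
  obtain ⟨a, b, hab⟩ := hcop
  have hab' : Polynomial.aeval h a * Polynomial.aeval h N +
      Polynomial.aeval h b * Polynomial.aeval h D = 1 := by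
    rw [← map_mul, ← map_mul, ← map_add, hab, map_one]
  rw [Polynomial.aeval_algebraMap_apply, Polynomial.aeval_algebraMap_apply] at hrel
  by_cases hd : Polynomial.aeval h D ∈ IsLocalRing.maximalIdeal R
  · right
    refine ⟨hd, ?_⟩
    have hn : IsUnit (Polynomial.aeval h N) := by
      by_contra hnu
      have h1 : (1 : R) ∈ IsLocalRing.maximalIdeal R := by
        rw [← hab']
        exact Ideal.add_mem _ (Ideal.mul_mem_left _ _ hnu) (Ideal.mul_mem_left _ _ hd)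
      exact (Ideal.ne_top_iff_one _).1 (IsLocalRing.maximalIdeal.isMaximal R).ne_top h1
    obtain ⟨u, hu⟩ := hn
    refine ⟨Polynomial.aeval h D * ↑u⁻¹, Ideal.mul_mem_right _ _ hd, ?_⟩
    refine eq_inv_of_mul_eq_one_left ?_
    rw [map_mul, mul_right_comm, mul_comm (algebraMap R F _) j, hrel, ← map_mul, ← hu, u.mul_inv,
      map_one]
  · left
    refine ⟨hd, ?_⟩
    have hdu : IsUnit (Polynomial.aeval h D) := by
      by_contra hnu
      exact hd hnu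
    obtain ⟨u, hu⟩ := hdu
    refine ⟨Polynomial.aeval h N * ↑u⁻¹, ?_⟩
    rw [map_mul, ← hrel, mul_assoc, ← map_mul, ← hu, u.mul_inv, map_one, mul_one]

/-- **(cusp at infinity)** `g = h⁻¹ ∈ m_R`, `N` monic of degree `> deg D`, `j · D(h) = N(h)`:
`j⁻¹ ∈ m_R`. -/
theorem rel_inv (N D : Polynomial A₀) (hN : N.Monic) (hdeg : D.natDegree < N.natDegree) (g : R)
    (hg : g ∈ IsLocalRing.maximalIdeal R) (h j : F) (hgh : h * algebraMap R F g = 1)
    (hrel : j * Polynomial.aeval h D = Polynomial.aeval h N) :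
    ∃ r ∈ IsLocalRing.maximalIdeal R, algebraMap R F r = j⁻¹ := by
  letI : Invertible h := ⟨algebraMap R F g, by rw [mul_comm]; exact hgh, hgh⟩
  have hinv : ⅟h = algebraMap R F g := rfl
  have key : ∀ p : Polynomial A₀,
      algebraMap R F (Polynomial.aeval g p.reverse) * h ^ p.natDegree = Polynomial.aeval h p := by
    intro p
    have h1 := Polynomial.eval₂_reverse_mul_pow (algebraMap A₀ F) h p
    rw [hinv, ← Polynomial.aeval_def, ← Polynomial.aeval_def,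
      Polynomial.aeval_algebraMap_apply] at h1
    exact h1
  -- the reversed `N` is a unit at `g`
  have hnu : IsUnit (Polynomial.aeval g N.reverse) := by
    by_contra hnu
    have h1 : Polynomial.aeval g N.reverse =
        Polynomial.aeval g N.reverse.divX * g + 1 := by
      conv_lhs => rw [← Polynomial.divX_mul_X_add N.reverse]
      rw [map_add, map_mul, Polynomial.aeval_X, Polynomial.aeval_C, Polynomial.coeff_zero_reverse,
        hN.leadingCoeff, map_one]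
    have h2 : (1 : R) ∈ IsLocalRing.maximalIdeal R := by
      have h3 : (1 : R) = Polynomial.aeval g N.reverse - Polynomial.aeval g N.reverse.divX * g := by
        rw [h1]; ring
      rw [h3]
      exact Ideal.sub_mem _ hnu (Ideal.mul_mem_left _ _ hg)
    exact (Ideal.ne_top_iff_one _).1 (IsLocalRing.maximalIdeal.isMaximal R).ne_top h2
  obtain ⟨u, hu⟩ := hnu
  obtain ⟨k, hk⟩ : ∃ k, N.natDegree = D.natDegree + (k + 1) :=
    ⟨N.natDegree - D.natDegree - 1, by omega⟩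
  refine ⟨Polynomial.aeval g D.reverse * g ^ (k + 1) * ↑u⁻¹,
    Ideal.mul_mem_right _ _ (Ideal.mul_mem_left _ _ (Ideal.pow_mem_of_mem _ hg _ (Nat.succ_pos k))),
    ?_⟩
  refine eq_inv_of_mul_eq_one_left ?_
  have hN' := key N
  have hD' := key D
  rw [← hD', ← hN', hk, ← hu] at hrel
  have hgk : ∀ m : ℕ, h ^ m * algebraMap R F g ^ m = 1 := fun m => by
    rw [← mul_pow, hgh, one_pow]
  have hu1 : algebraMap R F (↑u : R) * algebraMap R F (↑u⁻¹ : R) = 1 := by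
    rw [← map_mul, u.mul_inv, map_one]
  have e1 := congrArg (fun z => z * algebraMap R F g ^ (D.natDegree + (k + 1)) *
    algebraMap R F (↑u⁻¹ : R)) hrel
  beta_reduce at e1
  rw [map_mul, map_mul, map_pow]
  have e2 : algebraMap R F (↑u : R) * h ^ (D.natDegree + (k + 1)) *
      algebraMap R F g ^ (D.natDegree + (k + 1)) * algebraMap R F (↑u⁻¹ : R) = 1 := by
    rw [mul_assoc (algebraMap R F (↑u : R)), hgk, mul_one, hu1]
  rw [e2] at e1
  have e3 := hgk D.natDegree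
  linear_combination e1 - (algebraMap R F (Polynomial.aeval g D.reverse) *
    algebraMap R F g ^ (k + 1) * algebraMap R F (↑u⁻¹ : R) * j) * e3

/-- the modular equation, monic in the second variable: `j₁ ∈ R` implies `j₂ ∈ R`. -/
theorem rel_evalY {q : ℕ} {Φ : Polynomial (Polynomial ℤ)} (hΦ : IsModPoly q Φ) (j₁ : R) (j₂ : F)
    (h12 : (evalY (algebraMap R F j₁) Φ).eval j₂ = 0) : ∃ r : R, algebraMap R F r = j₂ := by
  have hint : IsIntegral R j₂ := by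
    refine ⟨evalY j₁ Φ, ?_, ?_⟩
    · rw [evalY, Polynomial.coe_mapRingHom]
      exact hΦ.monic.map _
    · rw [Polynomial.eval₂_eq_eval_map, map_evalY]
      exact h12
  exact IsIntegrallyClosed.isIntegral_iff.mp hint

/-- (A4) in a local ring: `j₁⁻¹ ∈ m_R` implies `j₂⁻¹ ∈ m_R`. -/
theorem rel_evalY_inv {q : ℕ} (hq : q ≠ 0) {Φ : Polynomial (Polynomial ℤ)} (hΦ : IsModPoly q Φ)
    (s : R) (hs : s ∈ IsLocalRing.maximalIdeal R) (j₁ j₂ : F) (hj₂ : j₂ ≠ 0)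
    (hs1 : j₁ * algebraMap R F s = 1) (h12 : (evalY j₁ Φ).eval j₂ = 0)
    (h21 : (evalY j₂ Φ).eval j₁ = 0) :
    ∃ r ∈ IsLocalRing.maximalIdeal R, algebraMap R F r = j₂⁻¹ := by
  have hJ : s ∈ (⊥ : Ideal R).jacobson := by
    rw [IsLocalRing.jacobson_eq_maximalIdeal ⊥ bot_ne_top]
    exact hs
  have ht : IsIntegral R j₂⁻¹ :=
    isIntegral_inv_right hΦ hq (j := j₁) (j' := j₂) s hs1 (mul_inv_cancel₀ hj₂) h12 hJ
  obtain ⟨t, ht'⟩ := IsIntegrallyClosed.isIntegral_iff.mp ht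
  refine ⟨t, ?_, ht'⟩
  by_contra htm
  have htu : IsUnit t := by
    by_contra hnu
    exact htm hnu
  obtain ⟨u, hu⟩ := htu
  have hj₂' : algebraMap R F (↑u⁻¹ : R) = j₂ := by
    have h1 : algebraMap R F (↑u⁻¹ : R) * j₂⁻¹ = 1 := by
      rw [← ht', ← hu, ← map_mul, u.inv_mul, map_one]
    have h2 := eq_inv_of_mul_eq_one_left h1
    rwa [inv_inv] at h2
  rw [← hj₂'] at h21
  obtain ⟨r₁, hr₁⟩ := rel_evalY hΦ (↑u⁻¹ : R) j₁ h21
  rw [← hr₁, ← map_mul] at hs1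
  have h3 : r₁ * s = 1 := (FaithfulSMul.algebraMap_injective R F) (by rw [hs1, map_one])
  have h4 : (1 : R) ∈ IsLocalRing.maximalIdeal R := by
    rw [← h3]
    exact Ideal.mul_mem_left _ _ hs
  exact (Ideal.ne_top_iff_one _).1 (IsLocalRing.maximalIdeal.isMaximal R).ne_top h4

end Rel

section Concrete

variable {A₀ F₀ : Type*} [CommRing A₀] [Field F₀] [Algebra A₀ F₀]

/-- `y` lies in the maximal ideal of the local ring of `C` at `x`. -/
def InMax (C : Subalgebra A₀ F₀) (x : Ideal ↥C) (y : F₀) : Prop :=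
  ∃ a b : ↥C, a ∈ x ∧ b ∉ x ∧ y * (b : F₀) = (a : F₀)

theorem InMax.inLoc {C : Subalgebra A₀ F₀} {x : Ideal ↥C} {y : F₀} (h : InMax C x y) :
    InLoc C x y := by
  obtain ⟨a, b, -, hb, e⟩ := h
  exact ⟨a, b, hb, e⟩

theorem inMax_of_mem (C : Subalgebra A₀ F₀) (x : Ideal ↥C) [x.IsPrime] {c : F₀} (hc : c ∈ C)
    (hcx : (⟨c, hc⟩ : ↥C) ∈ x) : InMax C x c :=
  ⟨⟨c, hc⟩, 1, hcx, (Ideal.ne_top_iff_one x).mp (Ideal.IsPrime.ne_top inferInstance), by
    rw [Subalgebra.coe_one, mul_one]⟩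

/-- **The local ring `C_x` inside `F₀`**, with the dictionary to `InLoc` and `InMax`. -/
theorem exists_locRing (C : Subalgebra A₀ F₀) [IsIntegrallyClosed ↥C]
    (hfrac : ∀ y : F₀, ∃ a ∈ C, ∃ b ∈ C, b ≠ 0 ∧ y = a / b) (x : Ideal ↥C) [x.IsPrime] :
    ∃ (R : Subalgebra ↥C F₀) (_ : IsLocalRing ↥R) (_ : IsIntegrallyClosed ↥R)
      (_ : IsFractionRing ↥R F₀),
      (∀ y : F₀, InLoc C x y ↔ ∃ r : ↥R, algebraMap ↥R F₀ r = y) ∧
      (∀ y : F₀, InMax C x y ↔ ∃ r ∈ IsLocalRing.maximalIdeal ↥R, algebraMap ↥R F₀ r = y) := by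
  haveI hF : IsFractionRing ↥C F₀ := by
    refine IsFractionRing.of_field ↥C F₀ fun z => ?_
    obtain ⟨a, ha, b, hb, -, rfl⟩ := hfrac z
    exact ⟨⟨a, ha⟩, ⟨b, hb⟩, rfl⟩
  have hS : x.primeCompl ≤ nonZeroDivisors ↥C := Ideal.primeCompl_le_nonZeroDivisors x
  let R : Subalgebra ↥C F₀ := Localization.subalgebra.ofField F₀ x.primeCompl hS
  haveI hlocR : IsLocalization.AtPrime ↥R x :=
    Localization.subalgebra.isLocalization_ofField F₀ x.primeCompl hS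
  haveI hlr : IsLocalRing ↥R := IsLocalization.AtPrime.isLocalRing ↥R x
  haveI hic : IsIntegrallyClosed ↥R := isIntegrallyClosed_of_isLocalization ↥R x.primeCompl hS
  have hfr : IsFractionRing ↥R F₀ :=
    Localization.subalgebra.isFractionRing_ofField F₀ x.primeCompl hS
  have h1 : ∀ y : F₀, InLoc C x y ↔ ∃ r : ↥R, algebraMap ↥R F₀ r = y := by
    intro y
    rw [← mem_ofField_iff_inLoc C x hS y]
    constructor
    · intro h
      exact ⟨⟨y, h⟩, rfl⟩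
    · rintro ⟨r, rfl⟩
      exact r.2
  refine ⟨R, hlr, hic, hfr, h1, ?_⟩
  intro y
  constructor
  · rintro ⟨a, b, ha, hb, e⟩
    obtain ⟨r, hr⟩ := (h1 y).1 ⟨a, b, hb, e⟩
    refine ⟨r, ?_, hr⟩
    have hbu : IsUnit (algebraMap ↥C ↥R b) :=
      (IsLocalization.AtPrime.isUnit_to_map_iff ↥R x b).2 hb
    have hab : r * algebraMap ↥C ↥R b = algebraMap ↥C ↥R a := by
      apply Subtype.ext
      show (r : F₀) * (b : F₀) = (a : F₀)
      have hr' : (r : F₀) = y := hr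
      rw [hr']
      exact e
    have ham : algebraMap ↥C ↥R a ∈ IsLocalRing.maximalIdeal ↥R :=
      (IsLocalization.AtPrime.to_map_mem_maximal_iff ↥R x a).2 ha
    rw [← hab] at ham
    exact (Ideal.mul_unit_mem_iff_mem _ hbu).1 ham
  · rintro ⟨r, hrm, hr⟩
    obtain ⟨⟨a, b⟩, hab⟩ := IsLocalization.surj x.primeCompl r
    have hab' : r * algebraMap ↥C ↥R (b : ↥C) = algebraMap ↥C ↥R a := hab
    refine ⟨a, b, ?_, b.2, ?_⟩
    · rw [← IsLocalization.AtPrime.to_map_mem_maximal_iff ↥R x a, ← hab']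
      exact Ideal.mul_mem_right _ _ hrm
    · have h3 := congrArg (fun z : ↥R => (z : F₀)) hab'
      have hr' : (r : F₀) = y := hr
      rw [← hr']
      exact h3

/-- The local ring `C_x` lies in every valuation ring containing `C` whose centre on `C` is
contained in `x`. -/
theorem mem_of_inLoc_of_center (C : Subalgebra A₀ F₀) (x : Ideal ↥C) (V : ValuationSubring F₀)
    (hCV : ∀ c ∈ C, c ∈ V) (hP : ∀ c : ↥C, (c : F₀) ∈ V.nonunits → c ∈ x) {y : F₀}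
    (hy : InLoc C x y) : y ∈ V := by
  obtain ⟨a, b, hb, e⟩ := hy
  have hbn : (b : F₀) ∉ V.nonunits := fun h => hb (hP b h)
  have hb0 : (b : F₀) ≠ 0 := by
    intro h0
    apply hbn
    rw [h0]
    exact V.nonunits.zero_mem
  have hbinv : (b : F₀)⁻¹ ∈ V := inv_mem_of_not_mem_nonunits' V hbn
  have e' : y = (a : F₀) * (b : F₀)⁻¹ := by
    rw [← e, mul_assoc, mul_inv_cancel₀ hb0, mul_one]
  rw [e']
  exact V.mul_mem _ _ (hCV _ a.2) hbinv

/-- An element of `C_x` lying in `m(V)` lies in `m(C_x)`, when the centre of `V` on `C` is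
contained in `x`. -/
theorem inMax_of_inLoc_of_center (C : Subalgebra A₀ F₀) (x : Ideal ↥C) (V : ValuationSubring F₀)
    (hCV : ∀ c ∈ C, c ∈ V) (hP : ∀ c : ↥C, (c : F₀) ∈ V.nonunits → c ∈ x) {y : F₀}
    (hy : InLoc C x y) (hyV : y ∈ V.nonunits) : InMax C x y := by
  obtain ⟨a, b, hb, e⟩ := hy
  refine ⟨a, b, hP a ?_, hb, e⟩
  rw [← e]
  exact cusp_mul_mem_nonunits V hyV (hCV _ b.2)

/-- **(M6c), local form.**  A prime `x` of a chart `C` with `1 / j₁ ∈ m(C_x)` (a cuspidal point)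
does not contain both `C ∩ m_{V₁}` and `C ∩ m_{V₂}`.  Unlike `cusp_not_both`, `1 / j₁` need not be
an element of `C`: this is the form needed for the Hauptmodul charts (`q ∈ {2, 3}`). -/
theorem cusp_not_both_loc (C : Subalgebra A₀ F₀) [IsIntegrallyClosed ↥C]
    (hfrac : ∀ y : F₀, ∃ a ∈ C, ∃ b ∈ C, b ≠ 0 ∧ y = a / b)
    {q : ℕ} (hq : q.Prime) {Φ : Polynomial (Polynomial ℤ)} (hΦ : IsModPoly q Φ)
    (j₁ j₂ : F₀) (hj₁ : j₁ ≠ 0) (hj₂ : j₂ ≠ 0)
    (h12 : (evalY j₁ Φ).eval j₂ = 0) (h21 : (evalY j₂ Φ).eval j₁ = 0)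
    (V₁ V₂ : ValuationSubring F₀) (hCV₁ : ∀ c ∈ C, c ∈ V₁) (hCV₂ : ∀ c ∈ C, c ∈ V₂)
    (hk₁ : j₂ - j₁ ^ q ∈ V₁.nonunits) (hk₂ : j₁ - j₂ ^ q ∈ V₂.nonunits)
    (hu₁ : j₁⁻¹ ∈ V₁) (hu₂ : j₂⁻¹ ∈ V₂)
    (x : Ideal ↥C) [x.IsPrime] (hsm : InMax C x j₁⁻¹) :
    ¬ ((∀ c : ↥C, (c : F₀) ∈ V₁.nonunits → c ∈ x) ∧
      (∀ c : ↥C, (c : F₀) ∈ V₂.nonunits → c ∈ x)) := by
  rintro ⟨hP₁, hP₂⟩
  obtain ⟨R, hlr, hic, hfr, hR1, hR2⟩ := exists_locRing C hfrac x
  haveI := hlr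
  haveI := hic
  haveI := hfr
  obtain ⟨s, hsm', hs⟩ := (hR2 _).1 hsm
  have hs1 : j₁ * algebraMap ↥R F₀ s = 1 := by rw [hs]; exact mul_inv_cancel₀ hj₁
  obtain ⟨t, htm, ht⟩ := rel_evalY_inv hq.ne_zero hΦ s hsm' j₁ j₂ hj₂ hs1 h12 h21
  have ht1 : j₂ * algebraMap ↥R F₀ t = 1 := by rw [ht]; exact mul_inv_cancel₀ hj₂
  -- `ρ₁ = j₂ / j₁^q` and `ρ₂ = j₁ / j₂^q` lie in `R`
  have hρ₁ : IsIntegral ↥R (j₂ * algebraMap ↥R F₀ s ^ q) :=
    Fermat.Agent.S34.H59.isIntegral_mul_pow hq hΦ (x := j₂) (y := j₁) s hs1 h12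
  have hρ₂ : IsIntegral ↥R (j₁ * algebraMap ↥R F₀ t ^ q) :=
    Fermat.Agent.S34.H59.isIntegral_mul_pow hq hΦ (x := j₁) (y := j₂) t ht1 h21
  obtain ⟨r₁, hr₁⟩ := IsIntegrallyClosed.isIntegral_iff.mp hρ₁
  obtain ⟨r₂, hr₂⟩ := IsIntegrallyClosed.isIntegral_iff.mp hρ₂
  rw [hs] at hr₁
  rw [ht] at hr₂
  -- `ρ₁ ρ₂ = (s t)^(q-1)`
  have hprod : r₁ * r₂ = (s * t) ^ (q - 1) := by
    apply FaithfulSMul.algebraMap_injective ↥R F₀
    rw [map_mul, map_pow, map_mul, hr₁, hr₂, hs, ht]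
    exact Fermat.Agent.S34.H59.rho_mul_rho q hq.ne_zero j₂ j₁ j₁⁻¹ j₂⁻¹ (mul_inv_cancel₀ hj₂)
      (mul_inv_cancel₀ hj₁)
  have hprodm : r₁ * r₂ ∈ IsLocalRing.maximalIdeal ↥R := by
    rw [hprod]
    have hq1 : q - 1 ≠ 0 := by have := hq.two_le; omega
    exact Ideal.pow_mem_of_mem _ (Ideal.mul_mem_right _ _ hsm') _ (Nat.pos_of_ne_zero hq1)
  -- `ρ₁ - 1 ∈ m(R)`
  have h1 : r₁ - 1 ∈ IsLocalRing.maximalIdeal ↥R := by
    have e1 : algebraMap ↥R F₀ (r₁ - 1) = (j₂ - j₁ ^ q) * j₁⁻¹ ^ q := by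
      rw [map_sub, map_one, hr₁, sub_mul, ← mul_pow, mul_inv_cancel₀ hj₁, one_pow]
    have h3 : InMax C x ((j₂ - j₁ ^ q) * j₁⁻¹ ^ q) :=
      inMax_of_inLoc_of_center C x V₁ hCV₁ hP₁ ((hR1 _).2 ⟨r₁ - 1, e1⟩)
        (cusp_mul_mem_nonunits V₁ hk₁ (V₁.pow_mem hu₁ q))
    obtain ⟨r, hrm, hr⟩ := (hR2 _).1 h3
    have : r = r₁ - 1 := FaithfulSMul.algebraMap_injective ↥R F₀ (by rw [hr, e1])
    rw [← this]
    exact hrm
  -- `ρ₂ - 1 ∈ m(R)`
  have h2 : r₂ - 1 ∈ IsLocalRing.maximalIdeal ↥R := by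
    have e1 : algebraMap ↥R F₀ (r₂ - 1) = (j₁ - j₂ ^ q) * j₂⁻¹ ^ q := by
      rw [map_sub, map_one, hr₂, sub_mul, ← mul_pow, mul_inv_cancel₀ hj₂, one_pow]
    have h3 : InMax C x ((j₁ - j₂ ^ q) * j₂⁻¹ ^ q) :=
      inMax_of_inLoc_of_center C x V₂ hCV₂ hP₂ ((hR1 _).2 ⟨r₂ - 1, e1⟩)
        (cusp_mul_mem_nonunits V₂ hk₂ (V₂.pow_mem hu₂ q))
    obtain ⟨r, hrm, hr⟩ := (hR2 _).1 h3
    have : r = r₂ - 1 := FaithfulSMul.algebraMap_injective ↥R F₀ (by rw [hr, e1])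
    rw [← this]
    exact hrm
  have hone : (1 : ↥R) ∈ IsLocalRing.maximalIdeal ↥R := by
    have e : (1 : ↥R) = r₁ * r₂ - (r₁ - 1) * r₂ - (r₂ - 1) := by ring
    rw [e]
    exact Ideal.sub_mem _ (Ideal.sub_mem _ hprodm (Ideal.mul_mem_right _ _ h1)) h2
  exact (Ideal.ne_top_iff_one _).1 (IsLocalRing.maximalIdeal.isMaximal ↥R).ne_top hone

end Concrete

section RelLoc

variable {A₀ F₀ : Type*} [CommRing A₀] [Field F₀] [Algebra A₀ F₀]

/-- An element of `C_x` is a unit of `C_x` or lies in `m(C_x)`. -/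
theorem inLoc_inv_or_inMax (C : Subalgebra A₀ F₀) [IsIntegrallyClosed ↥C]
    (hfrac : ∀ y : F₀, ∃ a ∈ C, ∃ b ∈ C, b ≠ 0 ∧ y = a / b) (x : Ideal ↥C) [x.IsPrime] {y : F₀}
    (hy : InLoc C x y) : InLoc C x y⁻¹ ∨ InMax C x y := by
  obtain ⟨R, hlr, hic, hfr, hR1, hR2⟩ := exists_locRing C hfrac x
  haveI := hlr
  haveI := hic
  haveI := hfr
  obtain ⟨r, hr⟩ := (hR1 _).1 hy
  by_cases hrm : r ∈ IsLocalRing.maximalIdeal ↥R
  · exact Or.inr ((hR2 _).2 ⟨r, hrm, hr⟩)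
  · left
    have hru : IsUnit r := by
      by_contra hnu
      exact hrm hnu
    obtain ⟨u, hu⟩ := hru
    refine (hR1 _).2 ⟨↑u⁻¹, ?_⟩
    refine eq_inv_of_mul_eq_one_left ?_
    rw [← hr, ← hu, ← map_mul, u.inv_mul, map_one]

/-- **Cusp or not.**  `j · D(h) = N(h)` with `N`, `D` coprime, `N` monic of degree `> deg D`: at a
prime `x` with `h ∈ C_x` or `h⁻¹ ∈ C_x`, either `j ∈ C_x` or `j⁻¹ ∈ m(C_x)`. -/
theorem inLoc_or_inMax_inv_of_rel (C : Subalgebra A₀ F₀) [IsIntegrallyClosed ↥C]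
    (hfrac : ∀ y : F₀, ∃ a ∈ C, ∃ b ∈ C, b ≠ 0 ∧ y = a / b) (x : Ideal ↥C) [x.IsPrime]
    (N D : Polynomial A₀) (hcop : IsCoprime N D) (hN : N.Monic) (hdeg : D.natDegree < N.natDegree)
    (h j : F₀) (hrel : j * Polynomial.aeval h D = Polynomial.aeval h N)
    (hh : InLoc C x h ∨ InLoc C x h⁻¹) : InLoc C x j ∨ InMax C x j⁻¹ := by
  obtain ⟨R, hlr, hic, hfr, hR1, hR2⟩ := exists_locRing C hfrac x
  haveI := hlr
  haveI := hic
  haveI := hfr
  have key : InLoc C x h → InLoc C x j ∨ InMax C x j⁻¹ := by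
    intro hh
    obtain ⟨r, hr⟩ := (hR1 _).1 hh
    rw [← hr] at hrel
    rcases rel_dichotomy N D hcop r j hrel with ⟨-, h1⟩ | ⟨-, h2⟩
    · exact Or.inl ((hR1 _).2 h1)
    · exact Or.inr ((hR2 _).2 h2)
  rcases hh with hh | hh
  · exact key hh
  · obtain ⟨g, hg⟩ := (hR1 _).1 hh
    by_cases h0 : h = 0
    · exact key (by rw [h0]; exact inLoc_of_mem C x C.zero_mem)
    by_cases hgm : g ∈ IsLocalRing.maximalIdeal ↥R
    · right
      refine (hR2 _).2 (rel_inv N D hN hdeg g hgm h j ?_ hrel)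
      rw [hg]
      exact mul_inv_cancel₀ h0
    · have hgu : IsUnit g := by
        by_contra hnu
        exact hgm hnu
      obtain ⟨u, hu⟩ := hgu
      refine key ((hR1 _).2 ⟨↑u⁻¹, ?_⟩)
      have h1 : algebraMap ↥R F₀ (↑u⁻¹ : ↥R) * h⁻¹ = 1 := by
        rw [← hg, ← hu, ← map_mul, u.inv_mul, map_one]
      have h2 := eq_inv_of_mul_eq_one_left h1
      rwa [inv_inv] at h2

/-- At a prime `x` of `C ∋ h` with `D(h) ∈ x`: `j⁻¹ ∈ m(C_x)` (a cusp). -/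
theorem inMax_inv_of_aeval_mem (C : Subalgebra A₀ F₀) [IsIntegrallyClosed ↥C]
    (hfrac : ∀ y : F₀, ∃ a ∈ C, ∃ b ∈ C, b ≠ 0 ∧ y = a / b) (x : Ideal ↥C) [x.IsPrime]
    (N D : Polynomial A₀) (hcop : IsCoprime N D) (h : ↥C) (j : F₀)
    (hrel : j * Polynomial.aeval (h : F₀) D = Polynomial.aeval (h : F₀) N)
    (hDx : Polynomial.aeval h D ∈ x) : InMax C x j⁻¹ := by
  obtain ⟨R, hlr, hic, hfr, hR1, hR2⟩ := exists_locRing C hfrac x
  haveI := hlr
  haveI := hic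
  haveI := hfr
  obtain ⟨r, hr⟩ := (hR1 _).1 (inLoc_of_mem C x h.2)
  have hrel' := hrel
  rw [← hr] at hrel'
  rcases rel_dichotomy N D hcop r j hrel' with ⟨hd, -⟩ | ⟨-, h2⟩
  · exfalso
    apply hd
    have h3 : InMax C x (Polynomial.aeval (h : F₀) D) := by
      have h4 := inMax_of_mem C x (Polynomial.aeval h D).2 hDx
      rwa [Polynomial.aeval_subalgebra_coe] at h4
    obtain ⟨r', hrm, hr'⟩ := (hR2 _).1 h3
    have : r' = Polynomial.aeval r D := by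
      apply FaithfulSMul.algebraMap_injective ↥R F₀
      rw [hr', ← Polynomial.aeval_algebraMap_apply, hr]
    rw [← this]
    exact hrm
  · exact (hR2 _).2 h2

/-- At a prime `x` of `C ∋ h` with `D(h) ∉ x`: `j ∈ C_x` (no cusp). -/
theorem inLoc_of_aeval_not_mem (C : Subalgebra A₀ F₀) [IsIntegrallyClosed ↥C]
    (hfrac : ∀ y : F₀, ∃ a ∈ C, ∃ b ∈ C, b ≠ 0 ∧ y = a / b) (x : Ideal ↥C) [x.IsPrime]
    (N D : Polynomial A₀) (hcop : IsCoprime N D) (h : ↥C) (j : F₀)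
    (hrel : j * Polynomial.aeval (h : F₀) D = Polynomial.aeval (h : F₀) N)
    (hDx : Polynomial.aeval h D ∉ x) : InLoc C x j := by
  obtain ⟨R, hlr, hic, hfr, hR1, hR2⟩ := exists_locRing C hfrac x
  haveI := hlr
  haveI := hic
  haveI := hfr
  obtain ⟨r, hr⟩ := (hR1 _).1 (inLoc_of_mem C x h.2)
  have hrel' := hrel
  rw [← hr] at hrel'
  rcases rel_dichotomy N D hcop r j hrel' with ⟨-, h1⟩ | ⟨hd, -⟩
  · exact (hR1 _).2 h1
  · exfalso
    have h3 : InMax C x (Polynomial.aeval (h : F₀) D) := by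
      refine (hR2 _).2 ⟨Polynomial.aeval r D, hd, ?_⟩
      rw [← Polynomial.aeval_algebraMap_apply, hr]
    obtain ⟨a, b, ha, hb, e⟩ := h3
    have e' : Polynomial.aeval h D * b = a := by
      apply Subtype.ext
      rw [Subalgebra.coe_mul, Polynomial.aeval_subalgebra_coe]
      exact e
    rw [← e'] at ha
    rcases Ideal.IsPrime.mem_or_mem inferInstance ha with h5 | h5
    · exact hDx h5
    · exact hb h5

/-- No cusp: `j₁ ∈ C_x` implies `h₂ ∈ C_x` (`j₂` integral by the modular equation, then `h₂` a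
root of the monic `N - j₂ D`). -/
theorem inLoc_of_inLoc_j (C : Subalgebra A₀ F₀) [IsIntegrallyClosed ↥C]
    (hfrac : ∀ y : F₀, ∃ a ∈ C, ∃ b ∈ C, b ≠ 0 ∧ y = a / b) (x : Ideal ↥C) [x.IsPrime]
    {q : ℕ} {Φ : Polynomial (Polynomial ℤ)} (hΦ : IsModPoly q Φ)
    (N D : Polynomial A₀) (hN : N.Monic) (hdeg : D.natDegree < N.natDegree)
    (j₁ j₂ h₂ : F₀) (h12 : (evalY j₁ Φ).eval j₂ = 0)
    (hrel₂ : j₂ * Polynomial.aeval h₂ D = Polynomial.aeval h₂ N) (hj : InLoc C x j₁) :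
    InLoc C x h₂ := by
  obtain ⟨R, hlr, hic, hfr, hR1, hR2⟩ := exists_locRing C hfrac x
  haveI := hlr
  haveI := hic
  haveI := hfr
  obtain ⟨r₁, hr₁⟩ := (hR1 _).1 hj
  rw [← hr₁] at h12
  obtain ⟨r₂, hr₂⟩ := rel_evalY hΦ r₁ j₂ h12
  rw [← hr₂] at hrel₂
  exact (hR1 _).2 (rel_noncusp N D hN hdeg r₂ h₂ hrel₂)

/-- Cusp: `j₁⁻¹ ∈ m(C_x)` implies `h₂ ∈ C_x` or `h₂⁻¹ ∈ C_x` ((A4), then the unit-coefficient
lemma for `j₂⁻¹ N - D`). -/
theorem inLoc_or_inv_of_inMax_j (C : Subalgebra A₀ F₀) [IsIntegrallyClosed ↥C]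
    (hfrac : ∀ y : F₀, ∃ a ∈ C, ∃ b ∈ C, b ≠ 0 ∧ y = a / b) (x : Ideal ↥C) [x.IsPrime]
    {q : ℕ} (hq : q ≠ 0) {Φ : Polynomial (Polynomial ℤ)} (hΦ : IsModPoly q Φ)
    (N D : Polynomial A₀) (hDu : ∃ i, IsUnit (D.coeff i))
    (j₁ j₂ h₂ : F₀) (hj₁ : j₁ ≠ 0) (hj₂ : j₂ ≠ 0) (h12 : (evalY j₁ Φ).eval j₂ = 0)
    (h21 : (evalY j₂ Φ).eval j₁ = 0)
    (hrel₂ : j₂ * Polynomial.aeval h₂ D = Polynomial.aeval h₂ N) (hj : InMax C x j₁⁻¹) :
    InLoc C x h₂ ∨ InLoc C x h₂⁻¹ := by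
  obtain ⟨R, hlr, hic, hfr, hR1, hR2⟩ := exists_locRing C hfrac x
  haveI := hlr
  haveI := hic
  haveI := hfr
  obtain ⟨s, hsm, hs⟩ := (hR2 _).1 hj
  have hs1 : j₁ * algebraMap ↥R F₀ s = 1 := by rw [hs]; exact mul_inv_cancel₀ hj₁
  obtain ⟨t, htm, ht⟩ := rel_evalY_inv hq hΦ s hsm j₁ j₂ hj₂ hs1 h12 h21
  have hrel : algebraMap ↥R F₀ t * Polynomial.aeval h₂ N = Polynomial.aeval h₂ D := by
    rw [ht, ← hrel₂, ← mul_assoc, inv_mul_cancel₀ hj₂, one_mul]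
  rcases rel_cusp N D hDu t htm h₂ hrel with h1 | h1
  · exact Or.inl ((hR1 _).2 h1)
  · exact Or.inr ((hR1 _).2 h1)

/-- **Kronecker pins the branch.**  If `h₂ ≡ h₁^q` on `V₁` and `h₁ ≡ h₂^q` on `V₂`, and one of the
two components passes through `x`, then `h₁ ∈ C_x` excludes `h₂⁻¹ ∈ m(C_x)`. -/
theorem not_inMax_inv_of_inLoc (C : Subalgebra A₀ F₀) [IsIntegrallyClosed ↥C]
    (hfrac : ∀ y : F₀, ∃ a ∈ C, ∃ b ∈ C, b ≠ 0 ∧ y = a / b)
    (V₁ V₂ : ValuationSubring F₀) (hCV₁ : ∀ c ∈ C, c ∈ V₁) (hCV₂ : ∀ c ∈ C, c ∈ V₂)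
    {q : ℕ} (hq : q ≠ 0) (h₁ h₂ : F₀) (hh₂ : h₂ ≠ 0)
    (hk₁ : h₂ - h₁ ^ q ∈ V₁.nonunits) (hk₂ : h₁ - h₂ ^ q ∈ V₂.nonunits)
    (x : Ideal ↥C) [x.IsPrime]
    (hP : (∀ c : ↥C, (c : F₀) ∈ V₁.nonunits → c ∈ x) ∨ (∀ c : ↥C, (c : F₀) ∈ V₂.nonunits → c ∈ x))
    (hh₁ : InLoc C x h₁) : ¬ InMax C x h₂⁻¹ := by
  intro hu
  obtain ⟨R, hlr, hic, hfr, hR1, hR2⟩ := exists_locRing C hfrac x
  haveI := hlr
  haveI := hic
  haveI := hfr
  obtain ⟨r₁, hr₁⟩ := (hR1 _).1 hh₁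
  obtain ⟨u, hum, hu'⟩ := (hR2 _).1 hu
  have hone : ∀ z : ↥R, z ∈ IsLocalRing.maximalIdeal ↥R →
      (1 - z) ∈ IsLocalRing.maximalIdeal ↥R → False := by
    intro z hz h1
    have h2 : (1 : ↥R) ∈ IsLocalRing.maximalIdeal ↥R := by
      have e : (1 : ↥R) = (1 - z) + z := by ring
      rw [e]
      exact Ideal.add_mem _ h1 hz
    exact (Ideal.ne_top_iff_one _).1 (IsLocalRing.maximalIdeal.isMaximal ↥R).ne_top h2
  rcases hP with hP | hP
  · have e1 : algebraMap ↥R F₀ (1 - r₁ ^ q * u) = (h₂ - h₁ ^ q) * h₂⁻¹ := by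
      rw [map_sub, map_one, map_mul, map_pow, hr₁, hu', sub_mul, mul_inv_cancel₀ hh₂]
    have hV : h₂⁻¹ ∈ V₁ := mem_of_inLoc_of_center C x V₁ hCV₁ hP hu.inLoc
    have h3 : InMax C x ((h₂ - h₁ ^ q) * h₂⁻¹) :=
      inMax_of_inLoc_of_center C x V₁ hCV₁ hP ((hR1 _).2 ⟨_, e1⟩)
        (cusp_mul_mem_nonunits V₁ hk₁ hV)
    obtain ⟨r, hrm, hr⟩ := (hR2 _).1 h3
    have hre : r = 1 - r₁ ^ q * u := FaithfulSMul.algebraMap_injective ↥R F₀ (by rw [hr, e1])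
    rw [hre] at hrm
    exact hone (r₁ ^ q * u) (Ideal.mul_mem_left _ _ hum) hrm
  · have e1 : algebraMap ↥R F₀ (r₁ * u ^ q - 1) = (h₁ - h₂ ^ q) * h₂⁻¹ ^ q := by
      rw [map_sub, map_one, map_mul, map_pow, hr₁, hu', sub_mul, ← mul_pow,
        mul_inv_cancel₀ hh₂, one_pow]
    have hV : h₂⁻¹ ∈ V₂ := mem_of_inLoc_of_center C x V₂ hCV₂ hP hu.inLoc
    have h3 : InMax C x ((h₁ - h₂ ^ q) * h₂⁻¹ ^ q) :=
      inMax_of_inLoc_of_center C x V₂ hCV₂ hP ((hR1 _).2 ⟨_, e1⟩)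
        (cusp_mul_mem_nonunits V₂ hk₂ (V₂.pow_mem hV q))
    obtain ⟨r, hrm, hr⟩ := (hR2 _).1 h3
    have hre : r = r₁ * u ^ q - 1 := FaithfulSMul.algebraMap_injective ↥R F₀ (by rw [hr, e1])
    rw [hre] at hrm
    have hrm' : 1 - r₁ * u ^ q ∈ IsLocalRing.maximalIdeal ↥R := by
      have e : 1 - r₁ * u ^ q = -(r₁ * u ^ q - 1) := by ring
      rw [e]
      exact neg_mem hrm
    exact hone (r₁ * u ^ q)
      (Ideal.mul_mem_left _ _ (Ideal.pow_mem_of_mem _ hum q (Nat.pos_of_ne_zero hq))) hrm'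

end RelLoc

section Global

/-- **A maximal ideal of a chart through a zero of a monic `D(h)` lies over the closed point of
`A₀`.**  (`C ⧸ x` is a field, integral over `A₀` because `h` is a root of the monic `D` modulo
`x`; so the kernel of `A₀ → C ⧸ x` is the maximal ideal.) -/
theorem unif_mem_of_aeval_mem {A₀ L : Type*} [CommRing A₀] [IsLocalRing A₀] [Field L]
    [Algebra A₀ L] (h : L) (D : Polynomial A₀) (hD : D.Monic) (x : Ideal ↥(chart A₀ h))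
    (hx : x.IsMaximal)
    (hDx : Polynomial.aeval (⟨h, self_mem_chart A₀ h⟩ : ↥(chart A₀ h)) D ∈ x) (ϖ : A₀)
    (hϖ : ¬ IsUnit ϖ) : algebraMap A₀ ↥(chart A₀ h) ϖ ∈ x := by
  haveI := hx
  letI : Field (↥(chart A₀ h) ⧸ x) := Ideal.Quotient.field x
  have hmk : ∀ c : ↥(chart A₀ h),
      Ideal.Quotient.mk x c ∈ integralClosure A₀ (↥(chart A₀ h) ⧸ x) := by
    intro c
    have hh : Ideal.Quotient.mk x (⟨h, self_mem_chart A₀ h⟩ : ↥(chart A₀ h)) ∈
        integralClosure A₀ (↥(chart A₀ h) ⧸ x) := by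
      refine ⟨D, hD, ?_⟩
      rw [← Polynomial.aeval_def]
      have h1 := Polynomial.aeval_algHom_apply (Ideal.Quotient.mkₐ A₀ x)
        (⟨h, self_mem_chart A₀ h⟩ : ↥(chart A₀ h)) D
      have h2 : Ideal.Quotient.mkₐ A₀ x (Polynomial.aeval
          (⟨h, self_mem_chart A₀ h⟩ : ↥(chart A₀ h)) D) = 0 :=
        Ideal.Quotient.eq_zero_iff_mem.mpr hDx
      rw [h2] at h1
      exact h1
    have hB : ∀ b ∈ Algebra.adjoin A₀ ({(⟨h, self_mem_chart A₀ h⟩ : ↥(chart A₀ h))} :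
        Set ↥(chart A₀ h)), Ideal.Quotient.mk x b ∈ integralClosure A₀ (↥(chart A₀ h) ⧸ x) := by
      intro b hb
      induction hb using Algebra.adjoin_induction with
      | mem z hz =>
          rw [Set.mem_singleton_iff] at hz
          rw [hz]
          exact hh
      | algebraMap r =>
          exact (integralClosure A₀ (↥(chart A₀ h) ⧸ x)).algebraMap_mem r
      | add z w _ _ hz hw =>
          rw [map_add]
          exact add_mem hz hw
      | mul z w _ _ hz hw =>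
          rw [map_mul]
          exact mul_mem hz hw
    have hc : IsIntegral ↥(Algebra.adjoin A₀ ({(⟨h, self_mem_chart A₀ h⟩ : ↥(chart A₀ h))} :
        Set ↥(chart A₀ h))) c := by
      have h1 : IsIntegral ↥(Algebra.adjoin A₀ ({h} : Set L)) (c : L) := c.2
      have h2 : IsIntegral ↥(Algebra.adjoin A₀ ({(⟨h, self_mem_chart A₀ h⟩ : ↥(chart A₀ h))} :
          Set ↥(chart A₀ h))) (algebraMap ↥(chart A₀ h) L c) := by
        refine H6.isIntegral_of_range_le ?_ h1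
        rintro _ ⟨b, rfl⟩
        obtain ⟨P, hP⟩ : ∃ P : Polynomial A₀, Polynomial.aeval h P = (b : L) := by
          have hb : (b : L) ∈ (Polynomial.aeval (R := A₀) h).range := by
            rw [← Algebra.adjoin_singleton_eq_range_aeval]
            exact b.2
          exact hb
        refine ⟨⟨Polynomial.aeval (⟨h, self_mem_chart A₀ h⟩ : ↥(chart A₀ h)) P, ?_⟩, ?_⟩
        · rw [Algebra.adjoin_singleton_eq_range_aeval]
          exact ⟨P, rfl⟩
        · show ((Polynomial.aeval (⟨h, self_mem_chart A₀ h⟩ : ↥(chart A₀ h)) P :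
            ↥(chart A₀ h)) : L) = _
          rw [Polynomial.aeval_subalgebra_coe]
          exact hP
      exact (isIntegral_algebraMap_iff Subtype.val_injective).1 h2
    let φ : ↥(Algebra.adjoin A₀ ({(⟨h, self_mem_chart A₀ h⟩ : ↥(chart A₀ h))} :
        Set ↥(chart A₀ h))) →+* ↥(integralClosure A₀ (↥(chart A₀ h) ⧸ x)) :=
      ((Ideal.Quotient.mk x).comp (algebraMap ↥(Algebra.adjoin A₀
        ({(⟨h, self_mem_chart A₀ h⟩ : ↥(chart A₀ h))} : Set ↥(chart A₀ h))) ↥(chart A₀ h))).codRestrict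
        (integralClosure A₀ (↥(chart A₀ h) ⧸ x)) (fun b => hB b b.2)
    have hφ : (algebraMap ↥(integralClosure A₀ (↥(chart A₀ h) ⧸ x)) (↥(chart A₀ h) ⧸ x)).comp φ =
        (Ideal.Quotient.mk x).comp (algebraMap ↥(Algebra.adjoin A₀
          ({(⟨h, self_mem_chart A₀ h⟩ : ↥(chart A₀ h))} : Set ↥(chart A₀ h))) ↥(chart A₀ h)) :=
      RingHom.ext fun b => rfl
    have h3 : IsIntegral ↥(integralClosure A₀ (↥(chart A₀ h) ⧸ x)) (Ideal.Quotient.mk x c) :=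
      IsIntegral.map_of_comp_eq φ (Ideal.Quotient.mk x) hφ hc
    haveI : Algebra.IsIntegral A₀ ↥(integralClosure A₀ (↥(chart A₀ h) ⧸ x)) :=
      integralClosure.AlgebraIsIntegral
    exact isIntegral_trans (A := ↥(integralClosure A₀ (↥(chart A₀ h) ⧸ x))) _ h3
  haveI : Algebra.IsIntegral A₀ (↥(chart A₀ h) ⧸ x) := ⟨fun z => by
    obtain ⟨c, rfl⟩ := Ideal.Quotient.mk_surjective z
    exact hmk c⟩
  haveI hbot : (⊥ : Ideal (↥(chart A₀ h) ⧸ x)).IsMaximal := Ideal.bot_isMaximal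
  have hmax : ((⊥ : Ideal (↥(chart A₀ h) ⧸ x)).comap
      (algebraMap A₀ (↥(chart A₀ h) ⧸ x))).IsMaximal :=
    Ideal.isMaximal_comap_of_isIntegral_of_isMaximal ⊥
  have heq := IsLocalRing.eq_maximalIdeal hmax
  have hϖm : ϖ ∈ IsLocalRing.maximalIdeal A₀ := hϖ
  rw [← heq, Ideal.mem_comap, Ideal.mem_bot] at hϖm
  exact Ideal.Quotient.eq_zero_iff_mem.mp hϖm

/-- `β(chart A₀ x₀) ⊆ chart A₀ j` as soon as `β x₀ ∈ chart A₀ j` (for `j = α x₀`: the
hypothesis `hjq`, supplied by `mem_chart_of_evalY` or `beta_mem_chart_of_rel`). -/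
theorem map_chart_le_chart {A₀ K L : Type*} [CommRing A₀] [Field K] [Field L] [Algebra A₀ K]
    [Algebra A₀ L] (β : K →+* L) (hβA : ∀ a : A₀, β (algebraMap A₀ K a) = algebraMap A₀ L a)
    (x₀ : K) (j : L) (hjq : β x₀ ∈ chart A₀ j) {f : K} (hf : f ∈ chart A₀ x₀) :
    β f ∈ chart A₀ j := by
  have h1 : β f ∈ chart A₀ (β x₀) := map_mem_chart_of_hom β hβA x₀ hf
  rw [mem_chart_iff] at h1 ⊢
  have hle : Algebra.adjoin A₀ ({β x₀} : Set L) ≤ chart A₀ j :=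
    Algebra.adjoin_le (Set.singleton_subset_iff.mpr hjq)
  have h2 : IsIntegral ↥(chart A₀ j) (β f) := by
    refine H6.isIntegral_of_range_le ?_ h1
    rintro _ ⟨b, rfl⟩
    exact ⟨⟨b, hle b.2⟩, rfl⟩
  haveI : Algebra.IsIntegral ↥(Algebra.adjoin A₀ ({j} : Set L))
      ↥(integralClosure ↥(Algebra.adjoin A₀ ({j} : Set L)) L) :=
    integralClosure.AlgebraIsIntegral
  exact isIntegral_trans (A := ↥(integralClosure ↥(Algebra.adjoin A₀ ({j} : Set L)) L)) (β f) h2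

end Global

section RelLoc2

variable {A₀ F₀ : Type*} [CommRing A₀] [Field F₀] [Algebra A₀ F₀]

/-- Cusp at infinity: `h⁻¹ ∈ m(C_x)` implies `j⁻¹ ∈ m(C_x)`. -/
theorem inMax_inv_of_inMax_inv (C : Subalgebra A₀ F₀) [IsIntegrallyClosed ↥C]
    (hfrac : ∀ y : F₀, ∃ a ∈ C, ∃ b ∈ C, b ≠ 0 ∧ y = a / b) (x : Ideal ↥C) [x.IsPrime]
    (N D : Polynomial A₀) (hN : N.Monic) (hdeg : D.natDegree < N.natDegree)
    (h j : F₀) (h0 : h ≠ 0) (hrel : j * Polynomial.aeval h D = Polynomial.aeval h N)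
    (hh : InMax C x h⁻¹) : InMax C x j⁻¹ := by
  obtain ⟨R, hlr, hic, hfr, hR1, hR2⟩ := exists_locRing C hfrac x
  haveI := hlr
  haveI := hic
  haveI := hfr
  obtain ⟨g, hgm, hg⟩ := (hR2 _).1 hh
  refine (hR2 _).2 (rel_inv N D hN hdeg g hgm h j ?_ hrel)
  rw [hg]
  exact mul_inv_cancel₀ h0

end RelLoc2

section HauptCharts

variable {A₀ : Type*} [CommRing A₀] [IsDomain A₀] [IsDiscreteValuationRing A₀] [CharZero A₀]
  {K L : Type*} [Field K] [Field L] [Algebra A₀ K] [Algebra A₀ L] [Algebra K L]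
  [IsScalarTower A₀ K L] [FaithfulSMul A₀ K]

/-- the `j`-relation transported by `α`. -/
theorem rel_alpha (x₀ j₀ : K) (N D : Polynomial A₀)
    (hrel : j₀ * Polynomial.aeval x₀ D = Polynomial.aeval x₀ N) :
    algebraMap K L j₀ * Polynomial.aeval (algebraMap K L x₀) D =
      Polynomial.aeval (algebraMap K L x₀) N := by
  rw [Polynomial.aeval_algebraMap_apply, Polynomial.aeval_algebraMap_apply, ← map_mul, hrel]

/-- the `j`-relation transported by `β`. -/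
theorem rel_beta (β : K →+* L) (hβA : ∀ a : A₀, β (algebraMap A₀ K a) = algebraMap A₀ L a)
    (x₀ j₀ : K) (N D : Polynomial A₀)
    (hrel : j₀ * Polynomial.aeval x₀ D = Polynomial.aeval x₀ N) :
    β j₀ * Polynomial.aeval (β x₀) D = Polynomial.aeval (β x₀) N := by
  let βₐ : K →ₐ[A₀] L := { β with commutes' := hβA }
  have h1 := Polynomial.aeval_algHom_apply βₐ x₀ D
  have h2 := Polynomial.aeval_algHom_apply βₐ x₀ N
  show βₐ j₀ * Polynomial.aeval (βₐ x₀) D = Polynomial.aeval (βₐ x₀) N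
  rw [h1, h2, ← map_mul, hrel]

/-- **`β x₀` is integral over `A₀[α x₀]`, for a general coordinate `x₀`** (`j₀ · D(x₀) = N(x₀)`,
e.g. a Hauptmodul).  For `x₀ = j₀` (`N = X`, `D = 1`) this is the modular equation
(`mem_chart_of_evalY`); in general it uses the Kronecker congruences for `x₀` at the cusps inside
the chart. -/
theorem beta_mem_chart_of_rel (ϖ : A₀) (hϖ : Irreducible ϖ) (x₀ j₀ : K) (hx₀ : x₀ ≠ 0)
    (hj₀ : j₀ ≠ 0) (V₁ V₂ : ValuationSubring L)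
    (β : K →+* L) (hβA : ∀ a : A₀, β (algebraMap A₀ K a) = algebraMap A₀ L a)
    [IsIntegrallyClosed ↥(chart A₀ (algebraMap K L x₀))]
    (hfrac : ∀ y : L, ∃ a ∈ chart A₀ (algebraMap K L x₀), ∃ b ∈ chart A₀ (algebraMap K L x₀),
      b ≠ 0 ∧ y = a / b)
    (hCV₁ : ∀ c ∈ chart A₀ (algebraMap K L x₀), c ∈ V₁)
    (hCV₂ : ∀ c ∈ chart A₀ (algebraMap K L x₀), c ∈ V₂)
    (hu₁ : ∀ y : L, y ∈ V₁.nonunits ↔ ∃ d ∈ V₁, y = ϖ • d)
    (hu₂ : ∀ y : L, y ∈ V₂.nonunits ↔ ∃ d ∈ V₂, y = ϖ • d)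
    (hsat : ∀ y : L, y ∈ V₁ → y ∈ V₂ → ϖ • y ∈ chart A₀ (algebraMap K L x₀) →
      y ∈ chart A₀ (algebraMap K L x₀))
    (N D : Polynomial A₀) (hrel : j₀ * Polynomial.aeval x₀ D = Polynomial.aeval x₀ N)
    (hN : N.Monic) (hD : D.Monic) (hdeg : D.natDegree < N.natDegree) (hcop : IsCoprime N D)
    {q : ℕ} (hq : q ≠ 0) {Φ : Polynomial (Polynomial ℤ)} (hΦ : IsModPoly q Φ)
    (h12 : (evalY (algebraMap K L j₀) Φ).eval (β j₀) = 0)
    (h21 : (evalY (β j₀) Φ).eval (algebraMap K L j₀) = 0)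
    (hkx₁ : β x₀ - algebraMap K L x₀ ^ q ∈ V₁.nonunits)
    (hkx₂ : algebraMap K L x₀ - β x₀ ^ q ∈ V₂.nonunits) :
    β x₀ ∈ chart A₀ (algebraMap K L x₀) := by
  have hπ0 : algebraMap A₀ K ϖ ≠ 0 :=
    (map_ne_zero_iff _ (FaithfulSMul.algebraMap_injective A₀ K)).mpr hϖ.ne_zero
  have hϖ0 : algebraMap A₀ L ϖ ≠ 0 := by
    rw [IsScalarTower.algebraMap_apply A₀ K L]
    exact (map_ne_zero_iff _ (algebraMap K L).injective).mpr hπ0
  have hj₁ : algebraMap K L j₀ ≠ 0 := (map_ne_zero_iff _ (algebraMap K L).injective).mpr hj₀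
  have hj₂ : β j₀ ≠ 0 := (map_ne_zero_iff β β.injective).mpr hj₀
  have hh₂ : β x₀ ≠ 0 := (map_ne_zero_iff β β.injective).mpr hx₀
  have hrel₁ := rel_alpha (L := L) x₀ j₀ N D hrel
  have hrel₂ := rel_beta β hβA x₀ j₀ N D hrel
  have hred := Fermat.Agent.S34.H9.red_of_unif_sat ϖ hϖ0 (chart A₀ (algebraMap K L x₀)) V₁ V₂
    hu₁ hu₂ hsat
  have hDu : ∃ i, IsUnit (D.coeff i) :=
    ⟨D.natDegree, by rw [Polynomial.coeff_natDegree, hD.leadingCoeff]; exact isUnit_one⟩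
  have main : ∀ x : Ideal ↥(chart A₀ (algebraMap K L x₀)), x.IsMaximal →
      ∀ _ : x.IsPrime, InLoc (chart A₀ (algebraMap K L x₀)) x (β x₀) := by
    intro x hx hxp
    by_cases hDx : Polynomial.aeval (⟨algebraMap K L x₀, self_mem_chart A₀ _⟩ :
        ↥(chart A₀ (algebraMap K L x₀))) D ∈ x
    · -- a cusp inside the chart
      have hcusp : InMax (chart A₀ (algebraMap K L x₀)) x (algebraMap K L j₀)⁻¹ :=
        inMax_inv_of_aeval_mem _ hfrac x N D hcop ⟨algebraMap K L x₀, self_mem_chart A₀ _⟩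
          (algebraMap K L j₀) hrel₁ hDx
      have hϖx : algebraMap A₀ ↥(chart A₀ (algebraMap K L x₀)) ϖ ∈ x :=
        unif_mem_of_aeval_mem (algebraMap K L x₀) D hD x hx hDx ϖ hϖ.not_isUnit
      have hP := one_of_inf_le (chart A₀ (algebraMap K L x₀)) V₁ V₂ hCV₁ hCV₂ x (fun c h1 h2 => by
        obtain ⟨d, hd, e⟩ := hred c c.2 h1 h2
        have e' : c = algebraMap A₀ ↥(chart A₀ (algebraMap K L x₀)) ϖ * ⟨d, hd⟩ := by
          apply Subtype.ext
          rw [e, Algebra.smul_def]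
          rfl
        rw [e']
        exact Ideal.mul_mem_right _ _ hϖx)
      rcases inLoc_or_inv_of_inMax_j _ hfrac x hq hΦ N D hDu (algebraMap K L j₀) (β j₀) (β x₀)
        hj₁ hj₂ h12 h21 hrel₂ hcusp with h | h
      · exact h
      · rcases inLoc_inv_or_inMax _ hfrac x h with h' | h'
        · rwa [inv_inv] at h'
        · exact absurd h' (not_inMax_inv_of_inLoc _ hfrac V₁ V₂ hCV₁ hCV₂ hq (algebraMap K L x₀)
            (β x₀) hh₂ hkx₁ hkx₂ x hP (inLoc_of_mem _ x (self_mem_chart A₀ _)))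
    · -- not a cusp
      have hj := inLoc_of_aeval_not_mem _ hfrac x N D hcop ⟨algebraMap K L x₀, self_mem_chart A₀ _⟩
        (algebraMap K L j₀) hrel₁ hDx
      exact inLoc_of_inLoc_j _ hfrac x hΦ N D hN hdeg (algebraMap K L j₀) (β j₀) (β x₀) h12 hrel₂ hj
  haveI hF : IsFractionRing ↥(chart A₀ (algebraMap K L x₀)) L := by
    refine IsFractionRing.of_field _ L fun z => ?_
    obtain ⟨a, ha, b, hb, -, rfl⟩ := hfrac z
    exact ⟨⟨a, ha⟩, ⟨b, hb⟩, rfl⟩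
  have hmem : β x₀ ∈ (⨅ v : MaximalSpectrum ↥(chart A₀ (algebraMap K L x₀)),
      Localization.subalgebra.ofField L v.asIdeal.primeCompl
        v.asIdeal.primeCompl_le_nonZeroDivisors :
      Subalgebra ↥(chart A₀ (algebraMap K L x₀)) L) := by
    rw [Algebra.mem_iInf]
    intro v
    haveI hvp : v.asIdeal.IsPrime := v.isMaximal.isPrime
    exact (mem_ofField_iff_inLoc _ v.asIdeal _ _).2 (main v.asIdeal v.isMaximal hvp)
  rw [MaximalSpectrum.iInf_localization_eq_bot] at hmem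
  obtain ⟨c, hc⟩ := Algebra.mem_bot.1 hmem
  rw [← hc]
  exact c.2

/-- **A point of the finite chart over a zero of `D(α x₀)` lies on one component only**
((M6c) for the cusps INSIDE the finite chart of a Hauptmodul; vacuous for `x₀ = j₀`, `D = 1`). -/
theorem not_both_of_aeval_mem (x₀ j₀ : K) (hj₀ : j₀ ≠ 0) (O₀ : ValuationSubring K)
    (hj₀u : j₀⁻¹ ∈ O₀) (V₁ V₂ : ValuationSubring L)
    (hc₁ : ∀ v : K, algebraMap K L v ∈ V₁ ↔ v ∈ O₀)
    (β : K →+* L) (hβV : ∀ v : K, β v ∈ V₂ ↔ v ∈ O₀)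
    [IsIntegrallyClosed ↥(chart A₀ (algebraMap K L x₀))]
    (hfrac : ∀ y : L, ∃ a ∈ chart A₀ (algebraMap K L x₀), ∃ b ∈ chart A₀ (algebraMap K L x₀),
      b ≠ 0 ∧ y = a / b)
    (hCV₁ : ∀ c ∈ chart A₀ (algebraMap K L x₀), c ∈ V₁)
    (hCV₂ : ∀ c ∈ chart A₀ (algebraMap K L x₀), c ∈ V₂)
    (N D : Polynomial A₀) (hrel : j₀ * Polynomial.aeval x₀ D = Polynomial.aeval x₀ N)
    (hcop : IsCoprime N D)
    {q : ℕ} (hq : q.Prime) {Φ : Polynomial (Polynomial ℤ)} (hΦ : IsModPoly q Φ)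
    (h12 : (evalY (algebraMap K L j₀) Φ).eval (β j₀) = 0)
    (h21 : (evalY (β j₀) Φ).eval (algebraMap K L j₀) = 0)
    (hkj₁ : β j₀ - algebraMap K L j₀ ^ q ∈ V₁.nonunits)
    (hkj₂ : algebraMap K L j₀ - β j₀ ^ q ∈ V₂.nonunits)
    (x : Ideal ↥(chart A₀ (algebraMap K L x₀))) [x.IsPrime]
    (hDx : Polynomial.aeval (⟨algebraMap K L x₀, self_mem_chart A₀ _⟩ :
      ↥(chart A₀ (algebraMap K L x₀))) D ∈ x) :
    ¬ ((∀ c : ↥(chart A₀ (algebraMap K L x₀)), (c : L) ∈ V₁.nonunits → c ∈ x) ∧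
      (∀ c : ↥(chart A₀ (algebraMap K L x₀)), (c : L) ∈ V₂.nonunits → c ∈ x)) := by
  have hj₁ : algebraMap K L j₀ ≠ 0 := (map_ne_zero_iff _ (algebraMap K L).injective).mpr hj₀
  have hj₂ : β j₀ ≠ 0 := (map_ne_zero_iff β β.injective).mpr hj₀
  have hu₁' : (algebraMap K L j₀)⁻¹ ∈ V₁ := by
    rw [← map_inv₀, hc₁]
    exact hj₀u
  have hu₂' : (β j₀)⁻¹ ∈ V₂ := by
    rw [← map_inv₀, hβV]
    exact hj₀u
  exact cusp_not_both_loc _ hfrac hq hΦ (algebraMap K L j₀) (β j₀) hj₁ hj₂ h12 h21 V₁ V₂ hCV₁ hCV₂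
    hkj₁ hkj₂ hu₁' hu₂' x
    (inMax_inv_of_aeval_mem _ hfrac x N D hcop ⟨algebraMap K L x₀, self_mem_chart A₀ _⟩
      (algebraMap K L j₀) (rel_alpha (L := L) x₀ j₀ N D hrel) hDx)

/-- **A cusp of the chart at infinity lies on one component only** ((M6c) for a general
coordinate `x₀`, `j₀ · D(x₀) = N(x₀)`). -/
theorem not_both_of_chartInv_mem (x₀ j₀ : K) (hx₀ : x₀ ≠ 0) (hj₀ : j₀ ≠ 0)
    (O₀ : ValuationSubring K) (hj₀u : j₀⁻¹ ∈ O₀) (V₁ V₂ : ValuationSubring L)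
    (hc₁ : ∀ v : K, algebraMap K L v ∈ V₁ ↔ v ∈ O₀)
    (β : K →+* L) (hβV : ∀ v : K, β v ∈ V₂ ↔ v ∈ O₀)
    [IsIntegrallyClosed ↥(chart A₀ (algebraMap K L x₀)⁻¹)]
    (hfrac : ∀ y : L, ∃ a ∈ chart A₀ (algebraMap K L x₀)⁻¹,
      ∃ b ∈ chart A₀ (algebraMap K L x₀)⁻¹, b ≠ 0 ∧ y = a / b)
    (hCV₁ : ∀ c ∈ chart A₀ (algebraMap K L x₀)⁻¹, c ∈ V₁)
    (hCV₂ : ∀ c ∈ chart A₀ (algebraMap K L x₀)⁻¹, c ∈ V₂)
    (N D : Polynomial A₀) (hrel : j₀ * Polynomial.aeval x₀ D = Polynomial.aeval x₀ N)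
    (hN : N.Monic) (hdeg : D.natDegree < N.natDegree)
    {q : ℕ} (hq : q.Prime) {Φ : Polynomial (Polynomial ℤ)} (hΦ : IsModPoly q Φ)
    (h12 : (evalY (algebraMap K L j₀) Φ).eval (β j₀) = 0)
    (h21 : (evalY (β j₀) Φ).eval (algebraMap K L j₀) = 0)
    (hkj₁ : β j₀ - algebraMap K L j₀ ^ q ∈ V₁.nonunits)
    (hkj₂ : algebraMap K L j₀ - β j₀ ^ q ∈ V₂.nonunits)
    (x : Ideal ↥(chart A₀ (algebraMap K L x₀)⁻¹)) [x.IsPrime]
    (hsx : (⟨(algebraMap K L x₀)⁻¹, self_mem_chart A₀ _⟩ :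
      ↥(chart A₀ (algebraMap K L x₀)⁻¹)) ∈ x) :
    ¬ ((∀ c : ↥(chart A₀ (algebraMap K L x₀)⁻¹), (c : L) ∈ V₁.nonunits → c ∈ x) ∧
      (∀ c : ↥(chart A₀ (algebraMap K L x₀)⁻¹), (c : L) ∈ V₂.nonunits → c ∈ x)) := by
  have hh₁ : algebraMap K L x₀ ≠ 0 := (map_ne_zero_iff _ (algebraMap K L).injective).mpr hx₀
  have hj₁ : algebraMap K L j₀ ≠ 0 := (map_ne_zero_iff _ (algebraMap K L).injective).mpr hj₀
  have hj₂ : β j₀ ≠ 0 := (map_ne_zero_iff β β.injective).mpr hj₀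
  have hu₁' : (algebraMap K L j₀)⁻¹ ∈ V₁ := by
    rw [← map_inv₀, hc₁]
    exact hj₀u
  have hu₂' : (β j₀)⁻¹ ∈ V₂ := by
    rw [← map_inv₀, hβV]
    exact hj₀u
  exact cusp_not_both_loc _ hfrac hq hΦ (algebraMap K L j₀) (β j₀) hj₁ hj₂ h12 h21 V₁ V₂ hCV₁ hCV₂
    hkj₁ hkj₂ hu₁' hu₂' x
    (inMax_inv_of_inMax_inv _ hfrac x N D hN hdeg (algebraMap K L x₀) (algebraMap K L j₀) hh₁
      (rel_alpha (L := L) x₀ j₀ N D hrel) (inMax_of_mem _ x (self_mem_chart A₀ _) hsx))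

/-- **The cusps of the chart at infinity, general coordinate** ((M6c) + (M6a), all `q`): the
local ring at a maximal ideal `x ∋ ϖ, (α x₀)⁻¹` of `C₂ = chart A₀ (α x₀)⁻¹` is a unique
factorisation domain.  `j₀ · D(x₀) = N(x₀)` (`x₀ = j₀`: `N = X`, `D = 1`; Hauptmoduln:
`N = (X + 16)³` resp. `(X + 27)(X + 3)³`, `D = X`). -/
theorem pointUFD_chartInv_of_cusp_rel (ϖ : A₀) (hϖ : Irreducible ϖ)
    (O₀ : ValuationSubring K) (x₀ j₀ : K) (hS : DSetup A₀ O₀ x₀) (hS' : DSetup A₀ O₀ x₀⁻¹)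
    (hj₀ : j₀ ≠ 0) (hj₀u : j₀⁻¹ ∈ O₀)
    (V₁ V₂ : ValuationSubring L)
    (hc₁ : ∀ v : K, algebraMap K L v ∈ V₁ ↔ v ∈ O₀)
    (hres₁ : ∀ g ∈ V₁, ∃ v ∈ O₀, g - algebraMap K L v ∈ V₁.nonunits)
    (β : K →+* L) (hβA : ∀ a : A₀, β (algebraMap A₀ K a) = algebraMap A₀ L a)
    (hβV : ∀ v : K, β v ∈ V₂ ↔ v ∈ O₀)
    (hresβ : ∀ g ∈ V₂, ∃ v ∈ O₀, g - β v ∈ V₂.nonunits)
    [IsNoetherianRing ↥(chart A₀ (algebraMap K L x₀)⁻¹)]
    [IsIntegrallyClosed ↥(chart A₀ (algebraMap K L x₀)⁻¹)]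
    (hfrac : ∀ y : L, ∃ a ∈ chart A₀ (algebraMap K L x₀)⁻¹,
      ∃ b ∈ chart A₀ (algebraMap K L x₀)⁻¹, b ≠ 0 ∧ y = a / b)
    (hCV₁ : ∀ c ∈ chart A₀ (algebraMap K L x₀)⁻¹, c ∈ V₁)
    (hCV₂ : ∀ c ∈ chart A₀ (algebraMap K L x₀)⁻¹, c ∈ V₂)
    (hu₁ : ∀ y : L, y ∈ V₁.nonunits ↔ ∃ d ∈ V₁, y = ϖ • d)
    (hu₂ : ∀ y : L, y ∈ V₂.nonunits ↔ ∃ d ∈ V₂, y = ϖ • d)
    (hsat : ∀ y : L, y ∈ V₁ → y ∈ V₂ → ϖ • y ∈ chart A₀ (algebraMap K L x₀)⁻¹ →
      y ∈ chart A₀ (algebraMap K L x₀)⁻¹)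
    (N D : Polynomial A₀) (hrel : j₀ * Polynomial.aeval x₀ D = Polynomial.aeval x₀ N)
    (hN : N.Monic) (hD : D.Monic) (hdeg : D.natDegree < N.natDegree)
    {q : ℕ} (hq : q.Prime) {Φ : Polynomial (Polynomial ℤ)} (hΦ : IsModPoly q Φ)
    (h12 : (evalY (algebraMap K L j₀) Φ).eval (β j₀) = 0)
    (h21 : (evalY (β j₀) Φ).eval (algebraMap K L j₀) = 0)
    (hkj₁ : β j₀ - algebraMap K L j₀ ^ q ∈ V₁.nonunits)
    (hkj₂ : algebraMap K L j₀ - β j₀ ^ q ∈ V₂.nonunits)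
    (x : Ideal ↥(chart A₀ (algebraMap K L x₀)⁻¹)) (hx : x.IsMaximal)
    (hϖx : algebraMap A₀ ↥(chart A₀ (algebraMap K L x₀)⁻¹) ϖ ∈ x)
    (hsx : (⟨(algebraMap K L x₀)⁻¹, self_mem_chart A₀ _⟩ :
      ↥(chart A₀ (algebraMap K L x₀)⁻¹)) ∈ x) :
    haveI := hx.isPrime
    UniqueFactorizationMonoid (Localization.AtPrime x) := by
  haveI := hx.isPrime
  have hx₀ : x₀ ≠ 0 := dsetup_ne_zero O₀ x₀ hS
  have hh₁ : algebraMap K L x₀ ≠ 0 := (map_ne_zero_iff _ (algebraMap K L).injective).mpr hx₀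
  have hj₁ : algebraMap K L j₀ ≠ 0 := (map_ne_zero_iff _ (algebraMap K L).injective).mpr hj₀
  have hj₂ : β j₀ ≠ 0 := (map_ne_zero_iff β β.injective).mpr hj₀
  have hnb := not_both_of_chartInv_mem x₀ j₀ hx₀ hj₀ O₀ hj₀u V₁ V₂ hc₁ β hβV hfrac hCV₁ hCV₂ N D
    hrel hN hdeg hq hΦ h12 h21 hkj₁ hkj₂ x hsx
  have hcusp : InMax (chart A₀ (algebraMap K L x₀)⁻¹) x (algebraMap K L j₀)⁻¹ :=
    inMax_inv_of_inMax_inv _ hfrac x N D hN hdeg (algebraMap K L x₀) (algebraMap K L j₀) hh₁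
      (rel_alpha (L := L) x₀ j₀ N D hrel) (inMax_of_mem _ x (self_mem_chart A₀ _) hsx)
  have hDu : ∃ i, IsUnit (D.coeff i) :=
    ⟨D.natDegree, by rw [Polynomial.coeff_natDegree, hD.leadingCoeff]; exact isUnit_one⟩
  have hloc₁ : InLoc (chart A₀ (algebraMap K L x₀)⁻¹) x (algebraMap K L x₀⁻¹) := by
    rw [map_inv₀]
    exact inLoc_of_mem _ x (self_mem_chart A₀ _)
  rcases inLoc_or_inv_of_inMax_j _ hfrac x hq.ne_zero hΦ N D hDu (algebraMap K L j₀) (β j₀) (β x₀)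
    hj₁ hj₂ h12 h21 (rel_beta β hβA x₀ j₀ N D hrel) hcusp with h | h
  · exact pointUFD_of_not_both ϖ hϖ O₀ x₀⁻¹ x₀ hS' hS V₁ V₂ hc₁ hres₁ β hβA hβV hresβ
      (chart A₀ (algebraMap K L x₀)⁻¹) hfrac hCV₁ hCV₂ hu₁ hu₂ hsat x hx hϖx hloc₁ h hnb
  · refine pointUFD_of_not_both ϖ hϖ O₀ x₀⁻¹ x₀⁻¹ hS' hS' V₁ V₂ hc₁ hres₁ β hβA hβV hresβ
      (chart A₀ (algebraMap K L x₀)⁻¹) hfrac hCV₁ hCV₂ hu₁ hu₂ hsat x hx hϖx hloc₁ ?_ hnb
    rw [map_inv₀]
    exact h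

/-- **One-component points of the finite chart, general coordinate** (all `q`):
`pointUFD_chart_of_not_both` with `hjq` supplied by `beta_mem_chart_of_rel`. -/
theorem pointUFD_chart_of_not_both_rel (ϖ : A₀) (hϖ : Irreducible ϖ)
    (O₀ : ValuationSubring K) (x₀ j₀ : K) (hS : DSetup A₀ O₀ x₀) (hj₀ : j₀ ≠ 0)
    (V₁ V₂ : ValuationSubring L)
    (hc₁ : ∀ v : K, algebraMap K L v ∈ V₁ ↔ v ∈ O₀)
    (hres₁ : ∀ g ∈ V₁, ∃ v ∈ O₀, g - algebraMap K L v ∈ V₁.nonunits)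
    (β : K →+* L) (hβA : ∀ a : A₀, β (algebraMap A₀ K a) = algebraMap A₀ L a)
    (hβV : ∀ v : K, β v ∈ V₂ ↔ v ∈ O₀)
    (hresβ : ∀ g ∈ V₂, ∃ v ∈ O₀, g - β v ∈ V₂.nonunits)
    [IsNoetherianRing ↥(chart A₀ (algebraMap K L x₀))]
    [IsIntegrallyClosed ↥(chart A₀ (algebraMap K L x₀))]
    (hfrac : ∀ y : L, ∃ a ∈ chart A₀ (algebraMap K L x₀), ∃ b ∈ chart A₀ (algebraMap K L x₀),
      b ≠ 0 ∧ y = a / b)
    (hCV₁ : ∀ c ∈ chart A₀ (algebraMap K L x₀), c ∈ V₁)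
    (hCV₂ : ∀ c ∈ chart A₀ (algebraMap K L x₀), c ∈ V₂)
    (hu₁ : ∀ y : L, y ∈ V₁.nonunits ↔ ∃ d ∈ V₁, y = ϖ • d)
    (hu₂ : ∀ y : L, y ∈ V₂.nonunits ↔ ∃ d ∈ V₂, y = ϖ • d)
    (hsat : ∀ y : L, y ∈ V₁ → y ∈ V₂ → ϖ • y ∈ chart A₀ (algebraMap K L x₀) →
      y ∈ chart A₀ (algebraMap K L x₀))
    (N D : Polynomial A₀) (hrel : j₀ * Polynomial.aeval x₀ D = Polynomial.aeval x₀ N)
    (hN : N.Monic) (hD : D.Monic) (hdeg : D.natDegree < N.natDegree) (hcop : IsCoprime N D)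
    {q : ℕ} (hq : q ≠ 0) {Φ : Polynomial (Polynomial ℤ)} (hΦ : IsModPoly q Φ)
    (h12 : (evalY (algebraMap K L j₀) Φ).eval (β j₀) = 0)
    (h21 : (evalY (β j₀) Φ).eval (algebraMap K L j₀) = 0)
    (hkx₁ : β x₀ - algebraMap K L x₀ ^ q ∈ V₁.nonunits)
    (hkx₂ : algebraMap K L x₀ - β x₀ ^ q ∈ V₂.nonunits)
    (x : Ideal ↥(chart A₀ (algebraMap K L x₀))) (hx : x.IsMaximal)
    (hϖx : algebraMap A₀ ↥(chart A₀ (algebraMap K L x₀)) ϖ ∈ x)
    (hnb : ¬ ((∀ c : ↥(chart A₀ (algebraMap K L x₀)), (c : L) ∈ V₁.nonunits → c ∈ x) ∧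
      (∀ c : ↥(chart A₀ (algebraMap K L x₀)), (c : L) ∈ V₂.nonunits → c ∈ x))) :
    haveI := hx.isPrime
    UniqueFactorizationMonoid (Localization.AtPrime x) :=
  pointUFD_chart_of_not_both ϖ hϖ O₀ x₀ hS V₁ V₂ hc₁ hres₁ β hβA hβV hresβ hfrac hCV₁ hCV₂ hu₁
    hu₂ hsat
    (beta_mem_chart_of_rel ϖ hϖ x₀ j₀ (dsetup_ne_zero O₀ x₀ hS) hj₀ V₁ V₂ β hβA hfrac hCV₁ hCV₂
      hu₁ hu₂ hsat N D hrel hN hD hdeg hcop hq hΦ h12 h21 hkx₁ hkx₂)
    x hx hϖx hnb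

/-- `N` and `X` are coprime when the constant coefficient of `N` is a unit (the Bezout
hypothesis `hcop` for the Hauptmoduln: `N(0) = 16³`, resp. `27 · 3³`). -/
theorem isCoprime_X_of_isUnit_coeff_zero (N : Polynomial A₀) (h : IsUnit (N.coeff 0)) :
    IsCoprime N (Polynomial.X : Polynomial A₀) := by
  obtain ⟨u, hu⟩ := h
  refine ⟨Polynomial.C (↑u⁻¹ : A₀), -(Polynomial.C (↑u⁻¹ : A₀) * N.divX), ?_⟩
  have h1 : N = N.divX * Polynomial.X + Polynomial.C (N.coeff 0) :=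
    (Polynomial.divX_mul_X_add N).symm
  have h2 : Polynomial.C (↑u⁻¹ : A₀) * Polynomial.C (N.coeff 0) = 1 := by
    rw [← Polynomial.C_mul, ← hu, Units.inv_mul, Polynomial.C_1]
  calc Polynomial.C (↑u⁻¹ : A₀) * N + -(Polynomial.C (↑u⁻¹ : A₀) * N.divX) * Polynomial.X
      = Polynomial.C (↑u⁻¹ : A₀) * (N - N.divX * Polynomial.X) := by ring
    _ = Polynomial.C (↑u⁻¹ : A₀) * Polynomial.C (N.coeff 0) := by
        rw [sub_eq_iff_eq_add'.mpr h1]
    _ = 1 := h2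

end HauptCharts

end Fermat.Agent.S34.H42
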