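/-
Program B' (S34), leaf (M6a) for a general coordinate — helper42 (tasks 649).

`pointUFD_chartInv_of_not_both_rel` : the one-component points of the chart at infinity
`C₂ = chart A₀ (α x₀)⁻¹` for a coordinate `x₀` with `j₀ · D(x₀) = N(x₀)` (all `q`).  At a cusp
(`(α x₀)⁻¹ ∈ x`) this is `pointUFD_chartInv_of_cusp_rel`; elsewhere `α x₀` lies in the local ring,
and so does `β x₀`, which is integral over `A₀[α x₀]` (`hjq`, supplied on the finite chart by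
`beta_mem_chart_of_rel`).
-/
import Fermat.Agent.S34.H42.CuspHaupt

set_option autoImplicit false
set_option linter.style.haveILetI false
set_option linter.unusedSectionVars false
set_option linter.unusedVariables false

noncomputable section

namespace Fermat.Agent.S34.H42

open Fermat.Agent.S28 Fermat.Agent.S18 Fermat.Agent.S18.H19

section ChartInvRel

variable {A₀ : Type*} [CommRing A₀] [IsDomain A₀] [IsDiscreteValuationRing A₀] [CharZero A₀]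
  {K L : Type*} [Field K] [Field L] [Algebra A₀ K] [Algebra A₀ L] [Algebra K L]
  [IsScalarTower A₀ K L] [FaithfulSMul A₀ K]

/-- **Non-cusp one-component points of the chart at infinity, general coordinate.**  `hjq` is the
integrality of `β x₀` over `A₀[α x₀]`. -/
theorem pointUFD_chartInv_of_noncusp (ϖ : A₀) (hϖ : Irreducible ϖ)
    (O₀ : ValuationSubring K) (x₀ : K) (hS : DSetup A₀ O₀ x₀)
    (V₁ V₂ : ValuationSubring L)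
    (hc₁ : ∀ v : K, algebraMap K L v ∈ V₁ ↔ v ∈ O₀)
    (hres₁ : ∀ g ∈ V₁, ∃ v ∈ O₀, g - algebraMap K L v ∈ V₁.nonunits)
    (β : K →+* L) (hβA : ∀ a : A₀, β (algebraMap A₀ K a) = algebraMap A₀ L a)
    (hβV : ∀ v : K, β v ∈ V₂ ↔ v ∈ O₀)
    (hresβ : ∀ g ∈ V₂, ∃ v ∈ O₀, g - β v ∈ V₂.nonunits)
    [IsNoetherianRing ↥(chart A₀ (algebraMap K L x₀)⁻¹)]
    [IsIntegrallyClosed ↥(chart A₀ (algebraMap K L x₀)⁻¹)]
    (hfrac : ∀ y : L, ∃ a ∈ chart A₀ (algebraMap K L x₀)⁻¹,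
      ∃ b ∈ chart A₀ (algebraMap K L x₀)⁻¹, b ≠ 0 ∧ y = a / b)
    (hCV₁ : ∀ c ∈ chart A₀ (algebraMap K L x₀)⁻¹, c ∈ V₁)
    (hCV₂ : ∀ c ∈ chart A₀ (algebraMap K L x₀)⁻¹, c ∈ V₂)
    (hu₁ : ∀ y : L, y ∈ V₁.nonunits ↔ ∃ d ∈ V₁, y = ϖ • d)
    (hu₂ : ∀ y : L, y ∈ V₂.nonunits ↔ ∃ d ∈ V₂, y = ϖ • d)
    (hsat : ∀ y : L, y ∈ V₁ → y ∈ V₂ → ϖ • y ∈ chart A₀ (algebraMap K L x₀)⁻¹ →
      y ∈ chart A₀ (algebraMap K L x₀)⁻¹)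
    (hjq : β x₀ ∈ chart A₀ (algebraMap K L x₀))
    (x : Ideal ↥(chart A₀ (algebraMap K L x₀)⁻¹)) (hx : x.IsMaximal)
    (hϖx : algebraMap A₀ ↥(chart A₀ (algebraMap K L x₀)⁻¹) ϖ ∈ x)
    (hsx : (⟨(algebraMap K L x₀)⁻¹, self_mem_chart A₀ _⟩ :
      ↥(chart A₀ (algebraMap K L x₀)⁻¹)) ∉ x)
    (hnb : ¬ ((∀ c : ↥(chart A₀ (algebraMap K L x₀)⁻¹), (c : L) ∈ V₁.nonunits → c ∈ x) ∧
      (∀ c : ↥(chart A₀ (algebraMap K L x₀)⁻¹), (c : L) ∈ V₂.nonunits → c ∈ x))) :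
    haveI := hx.isPrime
    UniqueFactorizationMonoid (Localization.AtPrime x) := by
  haveI := hx.isPrime
  have hx₀ : x₀ ≠ 0 := dsetup_ne_zero O₀ x₀ hS
  have hj₁ : algebraMap K L x₀ ≠ 0 := (map_ne_zero_iff _ (algebraMap K L).injective).mpr hx₀
  have hloc₁ : InLoc (chart A₀ (algebraMap K L x₀)⁻¹) x (algebraMap K L x₀) := by
    refine ⟨1, ⟨(algebraMap K L x₀)⁻¹, self_mem_chart A₀ _⟩, hsx, ?_⟩
    show algebraMap K L x₀ * (algebraMap K L x₀)⁻¹ = ((1 : ↥(chart A₀ (algebraMap K L x₀)⁻¹)) : L)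
    rw [mul_inv_cancel₀ hj₁, Subalgebra.coe_one]
  exact pointUFD_of_not_both ϖ hϖ O₀ x₀ x₀ hS hS V₁ V₂ hc₁ hres₁ β hβA hβV hresβ
    (chart A₀ (algebraMap K L x₀)⁻¹) hfrac hCV₁ hCV₂ hu₁ hu₂ hsat x hx hϖx hloc₁
    (chart_le_inLoc _ hfrac x (algebraMap K L x₀) hloc₁ (β x₀) hjq) hnb

/-- **One-component points of the chart at infinity, general coordinate** (all `q`). -/
theorem pointUFD_chartInv_of_not_both_rel (ϖ : A₀) (hϖ : Irreducible ϖ)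
    (O₀ : ValuationSubring K) (x₀ j₀ : K) (hS : DSetup A₀ O₀ x₀) (hS' : DSetup A₀ O₀ x₀⁻¹)
    (hj₀ : j₀ ≠ 0) (hj₀u : j₀⁻¹ ∈ O₀)
    (V₁ V₂ : ValuationSubring L)
    (hc₁ : ∀ v : K, algebraMap K L v ∈ V₁ ↔ v ∈ O₀)
    (hres₁ : ∀ g ∈ V₁, ∃ v ∈ O₀, g - algebraMap K L v ∈ V₁.nonunits)
    (β : K →+* L) (hβA : ∀ a : A₀, β (algebraMap A₀ K a) = algebraMap A₀ L a)
    (hβV : ∀ v : K, β v ∈ V₂ ↔ v ∈ O₀)
    (hresβ : ∀ g ∈ V₂, ∃ v ∈ O₀, g - β v ∈ V₂.nonunits)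
    [IsNoetherianRing ↥(chart A₀ (algebraMap K L x₀)⁻¹)]
    [IsIntegrallyClosed ↥(chart A₀ (algebraMap K L x₀)⁻¹)]
    (hfrac : ∀ y : L, ∃ a ∈ chart A₀ (algebraMap K L x₀)⁻¹,
      ∃ b ∈ chart A₀ (algebraMap K L x₀)⁻¹, b ≠ 0 ∧ y = a / b)
    (hCV₁ : ∀ c ∈ chart A₀ (algebraMap K L x₀)⁻¹, c ∈ V₁)
    (hCV₂ : ∀ c ∈ chart A₀ (algebraMap K L x₀)⁻¹, c ∈ V₂)
    (hu₁ : ∀ y : L, y ∈ V₁.nonunits ↔ ∃ d ∈ V₁, y = ϖ • d)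
    (hu₂ : ∀ y : L, y ∈ V₂.nonunits ↔ ∃ d ∈ V₂, y = ϖ • d)
    (hsat : ∀ y : L, y ∈ V₁ → y ∈ V₂ → ϖ • y ∈ chart A₀ (algebraMap K L x₀)⁻¹ →
      y ∈ chart A₀ (algebraMap K L x₀)⁻¹)
    (hjq : β x₀ ∈ chart A₀ (algebraMap K L x₀))
    (N D : Polynomial A₀) (hrel : j₀ * Polynomial.aeval x₀ D = Polynomial.aeval x₀ N)
    (hN : N.Monic) (hD : D.Monic) (hdeg : D.natDegree < N.natDegree)
    {q : ℕ} (hq : q.Prime) {Φ : Polynomial (Polynomial ℤ)} (hΦ : IsModPoly q Φ)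
    (h12 : (evalY (algebraMap K L j₀) Φ).eval (β j₀) = 0)
    (h21 : (evalY (β j₀) Φ).eval (algebraMap K L j₀) = 0)
    (hkj₁ : β j₀ - algebraMap K L j₀ ^ q ∈ V₁.nonunits)
    (hkj₂ : algebraMap K L j₀ - β j₀ ^ q ∈ V₂.nonunits)
    (x : Ideal ↥(chart A₀ (algebraMap K L x₀)⁻¹)) (hx : x.IsMaximal)
    (hϖx : algebraMap A₀ ↥(chart A₀ (algebraMap K L x₀)⁻¹) ϖ ∈ x)
    (hnb : ¬ ((∀ c : ↥(chart A₀ (algebraMap K L x₀)⁻¹), (c : L) ∈ V₁.nonunits → c ∈ x) ∧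
      (∀ c : ↥(chart A₀ (algebraMap K L x₀)⁻¹), (c : L) ∈ V₂.nonunits → c ∈ x))) :
    haveI := hx.isPrime
    UniqueFactorizationMonoid (Localization.AtPrime x) := by
  haveI := hx.isPrime
  by_cases hsx : (⟨(algebraMap K L x₀)⁻¹, self_mem_chart A₀ _⟩ :
      ↥(chart A₀ (algebraMap K L x₀)⁻¹)) ∈ x
  · exact pointUFD_chartInv_of_cusp_rel ϖ hϖ O₀ x₀ j₀ hS hS' hj₀ hj₀u V₁ V₂ hc₁ hres₁ β hβA hβV
      hresβ hfrac hCV₁ hCV₂ hu₁ hu₂ hsat N D hrel hN hD hdeg hq hΦ h12 h21 hkj₁ hkj₂ x hx hϖx hsx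
  · exact pointUFD_chartInv_of_noncusp ϖ hϖ O₀ x₀ hS V₁ V₂ hc₁ hres₁ β hβA hβV hresβ hfrac hCV₁
      hCV₂ hu₁ hu₂ hsat hjq x hx hϖx hsx hnb

end ChartInvRel

end Fermat.Agent.S34.H42
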