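/-
Program B' (S34) / S35-GEO, one-component points for a general coordinate — helper42 (tasks 662).

The local input of the one-component theorems (`H42.pointUFD_of_not_both`,
`S35.H97.oneCompFrob_of_not_both`) at a closed point `x` of a chart `C` is a pair of coordinates
`t₁`, `t₂` of the level-`M'` field (`DSetup`) with `α t₁ ∈ C_x` and `β t₂ ∈ C_x`.  Here this pair
is supplied for both charts of a coordinate `x₀` with `j₀ · D(x₀) = N(x₀)` (`x₀ = j₀`: `N = X`,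
`D = 1`; Hauptmoduln: `D = X`), at EVERY prime `x` (no Kronecker congruence, no hypothesis on the
components):

* `exists_inLoc_chart`        : finite chart `chart A₀ (α x₀)`, `(t₁, t₂) = (x₀, x₀)`;
* `exists_inLoc_chartInv_rel` : chart at infinity `chart A₀ (α x₀)⁻¹`; `(x₀, x₀)` away from the
  cusps, `(x₀⁻¹, x₀)` or `(x₀⁻¹, x₀⁻¹)` at a cusp;
* `pointUFD_chartInv_of_not_both_rel'` : `pointUFD_chartInv_of_not_both_rel` without its
  Kronecker hypotheses (`hj₀u`, `hkj₁`, `hkj₂`), which are not needed when `¬ Both` is given.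
-/
import Fermat.Agent.S34.H42.OneCompRel

set_option autoImplicit false
set_option linter.style.haveILetI false
set_option linter.unusedSectionVars false
set_option linter.unusedVariables false

noncomputable section

namespace Fermat.Agent.S34.H42

open Fermat.Agent.S28 Fermat.Agent.S18 Fermat.Agent.S18.H19

section Supply

variable {A₀ : Type*} [CommRing A₀] [IsDomain A₀] [IsDiscreteValuationRing A₀] [CharZero A₀]
  {K L : Type*} [Field K] [Field L] [Algebra A₀ K] [Algebra A₀ L] [Algebra K L]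
  [IsScalarTower A₀ K L] [FaithfulSMul A₀ K]

/-- **The local coordinates at a point of the finite chart.** -/
theorem exists_inLoc_chart (O₀ : ValuationSubring K) (x₀ : K) (hS : DSetup A₀ O₀ x₀)
    (β : K →+* L) (hjq : β x₀ ∈ chart A₀ (algebraMap K L x₀))
    (x : Ideal ↥(chart A₀ (algebraMap K L x₀))) [x.IsPrime] :
    ∃ t₁ t₂ : K, DSetup A₀ O₀ t₁ ∧ DSetup A₀ O₀ t₂ ∧
      InLoc (chart A₀ (algebraMap K L x₀)) x (algebraMap K L t₁) ∧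
      InLoc (chart A₀ (algebraMap K L x₀)) x (β t₂) :=
  ⟨x₀, x₀, hS, hS, inLoc_of_mem _ x (self_mem_chart A₀ _), inLoc_of_mem _ x hjq⟩

/-- **The local coordinates at a point of the chart at infinity, general coordinate.** -/
theorem exists_inLoc_chartInv_rel (O₀ : ValuationSubring K) (x₀ j₀ : K)
    (hS : DSetup A₀ O₀ x₀) (hS' : DSetup A₀ O₀ x₀⁻¹) (hj₀ : j₀ ≠ 0)
    (β : K →+* L) (hβA : ∀ a : A₀, β (algebraMap A₀ K a) = algebraMap A₀ L a)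
    [IsIntegrallyClosed ↥(chart A₀ (algebraMap K L x₀)⁻¹)]
    (hfrac : ∀ y : L, ∃ a ∈ chart A₀ (algebraMap K L x₀)⁻¹,
      ∃ b ∈ chart A₀ (algebraMap K L x₀)⁻¹, b ≠ 0 ∧ y = a / b)
    (hjq : β x₀ ∈ chart A₀ (algebraMap K L x₀))
    (N D : Polynomial A₀) (hrel : j₀ * Polynomial.aeval x₀ D = Polynomial.aeval x₀ N)
    (hN : N.Monic) (hD : D.Monic) (hdeg : D.natDegree < N.natDegree)
    {q : ℕ} (hq : q ≠ 0) {Φ : Polynomial (Polynomial ℤ)} (hΦ : IsModPoly q Φ)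
    (h12 : (evalY (algebraMap K L j₀) Φ).eval (β j₀) = 0)
    (h21 : (evalY (β j₀) Φ).eval (algebraMap K L j₀) = 0)
    (x : Ideal ↥(chart A₀ (algebraMap K L x₀)⁻¹)) [x.IsPrime] :
    ∃ t₁ t₂ : K, DSetup A₀ O₀ t₁ ∧ DSetup A₀ O₀ t₂ ∧
      InLoc (chart A₀ (algebraMap K L x₀)⁻¹) x (algebraMap K L t₁) ∧
      InLoc (chart A₀ (algebraMap K L x₀)⁻¹) x (β t₂) := by
  have hx₀ : x₀ ≠ 0 := dsetup_ne_zero O₀ x₀ hS
  have hh₁ : algebraMap K L x₀ ≠ 0 := (map_ne_zero_iff _ (algebraMap K L).injective).mpr hx₀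
  have hj₁ : algebraMap K L j₀ ≠ 0 := (map_ne_zero_iff _ (algebraMap K L).injective).mpr hj₀
  have hj₂ : β j₀ ≠ 0 := (map_ne_zero_iff β β.injective).mpr hj₀
  by_cases hsx : (⟨(algebraMap K L x₀)⁻¹, self_mem_chart A₀ _⟩ :
      ↥(chart A₀ (algebraMap K L x₀)⁻¹)) ∈ x
  · -- a cusp
    have hcusp : InMax (chart A₀ (algebraMap K L x₀)⁻¹) x (algebraMap K L j₀)⁻¹ :=
      inMax_inv_of_inMax_inv _ hfrac x N D hN hdeg (algebraMap K L x₀) (algebraMap K L j₀) hh₁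
        (rel_alpha (L := L) x₀ j₀ N D hrel) (inMax_of_mem _ x (self_mem_chart A₀ _) hsx)
    have hDu : ∃ i, IsUnit (D.coeff i) :=
      ⟨D.natDegree, by rw [Polynomial.coeff_natDegree, hD.leadingCoeff]; exact isUnit_one⟩
    have hloc₁ : InLoc (chart A₀ (algebraMap K L x₀)⁻¹) x (algebraMap K L x₀⁻¹) := by
      rw [map_inv₀]
      exact inLoc_of_mem _ x (self_mem_chart A₀ _)
    rcases inLoc_or_inv_of_inMax_j _ hfrac x hq hΦ N D hDu (algebraMap K L j₀) (β j₀) (β x₀)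
      hj₁ hj₂ h12 h21 (rel_beta β hβA x₀ j₀ N D hrel) hcusp with h | h
    · exact ⟨x₀⁻¹, x₀, hS', hS, hloc₁, h⟩
    · refine ⟨x₀⁻¹, x₀⁻¹, hS', hS', hloc₁, ?_⟩
      rw [map_inv₀]
      exact h
  · -- not a cusp
    have hloc₁ : InLoc (chart A₀ (algebraMap K L x₀)⁻¹) x (algebraMap K L x₀) := by
      refine ⟨1, ⟨(algebraMap K L x₀)⁻¹, self_mem_chart A₀ _⟩, hsx, ?_⟩
      show algebraMap K L x₀ * (algebraMap K L x₀)⁻¹ =
        ((1 : ↥(chart A₀ (algebraMap K L x₀)⁻¹)) : L)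
      rw [mul_inv_cancel₀ hh₁, Subalgebra.coe_one]
    exact ⟨x₀, x₀, hS, hS, hloc₁, chart_le_inLoc _ hfrac x (algebraMap K L x₀) hloc₁ (β x₀) hjq⟩

/-- **One-component points of the chart at infinity, general coordinate** (all `q`), without
Kronecker hypotheses. -/
theorem pointUFD_chartInv_of_not_both_rel' (ϖ : A₀) (hϖ : Irreducible ϖ)
    (O₀ : ValuationSubring K) (x₀ j₀ : K) (hS : DSetup A₀ O₀ x₀) (hS' : DSetup A₀ O₀ x₀⁻¹)
    (hj₀ : j₀ ≠ 0)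
    (V₁ V₂ : ValuationSubring L)
    (hc₁ : ∀ v : K, algebraMap K L v ∈ V₁ ↔ v ∈ O₀)
    (hres₁ : ∀ g ∈ V₁, ∃ v ∈ O₀, g - algebraMap K L v ∈ V₁.nonunits)
    (β : K →+* L) (hβA : ∀ a : A₀, β (algebraMap A₀ K a) = algebraMap A₀ L a)
    (hβV : ∀ v : K, β v ∈ V₂ ↔ v ∈ O₀)
    (hresβ : ∀ g ∈ V₂, ∃ v ∈ O₀, g - β v ∈ V₂.nonunits)
    [IsNoetherianRing ↥(chart A₀ (algebraMap K L x₀)⁻¹)]
    [IsIntegrallyClosed ↥(chart A₀ (algebraMap K L x₀)⁻¹)]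
    (hfrac : ∀ y : L, ∃ a ∈ chart A₀ (algebraMap K L x₀)⁻¹,
      ∃ b ∈ chart A₀ (algebraMap K L x₀)⁻¹, b ≠ 0 ∧ y = a / b)
    (hCV₁ : ∀ c ∈ chart A₀ (algebraMap K L x₀)⁻¹, c ∈ V₁)
    (hCV₂ : ∀ c ∈ chart A₀ (algebraMap K L x₀)⁻¹, c ∈ V₂)
    (hu₁ : ∀ y : L, y ∈ V₁.nonunits ↔ ∃ d ∈ V₁, y = ϖ • d)
    (hu₂ : ∀ y : L, y ∈ V₂.nonunits ↔ ∃ d ∈ V₂, y = ϖ • d)
    (hsat : ∀ y : L, y ∈ V₁ → y ∈ V₂ → ϖ • y ∈ chart A₀ (algebraMap K L x₀)⁻¹ →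
      y ∈ chart A₀ (algebraMap K L x₀)⁻¹)
    (hjq : β x₀ ∈ chart A₀ (algebraMap K L x₀))
    (N D : Polynomial A₀) (hrel : j₀ * Polynomial.aeval x₀ D = Polynomial.aeval x₀ N)
    (hN : N.Monic) (hD : D.Monic) (hdeg : D.natDegree < N.natDegree)
    {q : ℕ} (hq : q ≠ 0) {Φ : Polynomial (Polynomial ℤ)} (hΦ : IsModPoly q Φ)
    (h12 : (evalY (algebraMap K L j₀) Φ).eval (β j₀) = 0)
    (h21 : (evalY (β j₀) Φ).eval (algebraMap K L j₀) = 0)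
    (x : Ideal ↥(chart A₀ (algebraMap K L x₀)⁻¹)) (hx : x.IsMaximal)
    (hϖx : algebraMap A₀ ↥(chart A₀ (algebraMap K L x₀)⁻¹) ϖ ∈ x)
    (hnb : ¬ ((∀ c : ↥(chart A₀ (algebraMap K L x₀)⁻¹), (c : L) ∈ V₁.nonunits → c ∈ x) ∧
      (∀ c : ↥(chart A₀ (algebraMap K L x₀)⁻¹), (c : L) ∈ V₂.nonunits → c ∈ x))) :
    haveI := hx.isPrime
    UniqueFactorizationMonoid (Localization.AtPrime x) := by
  haveI := hx.isPrime
  obtain ⟨t₁, t₂, hS₁, hS₂, h1, h2⟩ := exists_inLoc_chartInv_rel O₀ x₀ j₀ hS hS' hj₀ β hβA hfrac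
    hjq N D hrel hN hD hdeg hq hΦ h12 h21 x
  exact pointUFD_of_not_both ϖ hϖ O₀ t₁ t₂ hS₁ hS₂ V₁ V₂ hc₁ hres₁ β hβA hβV hresβ
    (chart A₀ (algebraMap K L x₀)⁻¹) hfrac hCV₁ hCV₂ hu₁ hu₂ hsat x hx hϖx h1 h2 hnb

end Supply

end Fermat.Agent.S34.H42
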