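/-
Program B' (S34), leaf (M6a), LOCAL form — helper42.

A closed point of the special fibre lying on ONE component has a factorial local ring.

The global form (`S ≤ C` a subalgebra with `S ⧸ ϖ` Dedekind and `C → C ⧸ P` surjective from `S`)
does not apply to the chart at infinity `C₂` on the second component: the `β`-image of the
level-`M'` chart at infinity is NOT contained in `C₂` (`1 / j(q^q)` has poles where `j(q^q) = 0`,
`j ≠ 0, ∞`).  It is contained in every local ring of `C₂` at a closed point of the special fibre,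
so the statement is made for a ring homomorphism `S → T` into the LOCAL ring only.

* `ufd_of_residue_surj` : `T` a noetherian local domain, `β : S →+* T`, `S ⧸ ϖ` Dedekind, `β ϖ`
  prime, `β⁻¹(ϖ T) = ϖ S`, and every element of `T` is `≡ β a / β d` modulo `ϖ` with `ϖ ∤ d`
  (residue degree one over the generic point of the special fibre of `S`).  Then `T` is a UFD.
* `ufd_of_valuation`    : the same with the special fibre given by a valuation subring `V`.
* `pointUFD_of_oneComp_local` : for a maximal ideal `x` of a chart `C ⊆ F₀` lying on the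
  component `V` only: `Localization.AtPrime x` is a UFD.
* `inv_mem_loc_of_cusp`, `isIntegral_loc` : the inclusions `β(S) ⊆ C_x`.
-/
import Mathlib
import Fermat.Agent.S18.H72.LocalUFD

set_option autoImplicit false
set_option linter.style.haveILetI false
set_option linter.unusedSectionVars false

noncomputable section

namespace Fermat.Agent.S34.H42

open IsLocalRing

section Abstract

variable {S T : Type*} [CommRing S] [CommRing T] [IsDomain T] [IsNoetherianRing T] [IsLocalRing T]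

/-- The prime of `S` below the maximal ideal of `T` is `ϖ S` or a maximal ideal. -/
theorem comap_maximalIdeal_eq_or_isMaximal (β : S →+* T) (ϖ : S)
    (hded : IsDedekindDomain (S ⧸ Ideal.span {ϖ})) (hϖ : ¬ IsUnit (β ϖ)) :
    (maximalIdeal T).comap β = Ideal.span {ϖ} ∨ ((maximalIdeal T).comap β).IsMaximal := by
  set y : Ideal S := (maximalIdeal T).comap β with hy
  have hϖy : ϖ ∈ y := hϖ
  have hle : Ideal.span {ϖ} ≤ y := (Ideal.span_singleton_le_iff_mem _).mpr hϖy
  have hsurj : Function.Surjective (Ideal.Quotient.mk (Ideal.span {ϖ})) :=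
    Ideal.Quotient.mk_surjective
  have hker : RingHom.ker (Ideal.Quotient.mk (Ideal.span {ϖ})) ≤ y := by
    rw [Ideal.mk_ker]
    exact hle
  haveI hyp : y.IsPrime := Ideal.comap_isPrime β (maximalIdeal T)
  have hmapprime : (y.map (Ideal.Quotient.mk (Ideal.span {ϖ}))).IsPrime :=
    Ideal.map_isPrime_of_surjective hsurj hker
  have hcomap : (y.map (Ideal.Quotient.mk (Ideal.span {ϖ}))).comap
      (Ideal.Quotient.mk (Ideal.span {ϖ})) = y := by
    rw [Ideal.comap_map_of_surjective _ hsurj, ← RingHom.ker_eq_comap_bot]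
    exact sup_eq_left.mpr hker
  by_cases hbot : y.map (Ideal.Quotient.mk (Ideal.span {ϖ})) = ⊥
  · left
    refine le_antisymm ?_ hle
    intro z hz
    have h1 : Ideal.Quotient.mk (Ideal.span {ϖ}) z ∈ y.map (Ideal.Quotient.mk (Ideal.span {ϖ})) :=
      Ideal.mem_map_of_mem _ hz
    rw [hbot, Ideal.mem_bot, Ideal.Quotient.eq_zero_iff_mem] at h1
    exact h1
  · right
    haveI := hded
    haveI hmax : (y.map (Ideal.Quotient.mk (Ideal.span {ϖ}))).IsMaximal :=
      hmapprime.isMaximal hbot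
    rw [← hcomap]
    exact Ideal.comap_isMaximal_of_surjective _ hsurj

/-- **Local factoriality from residue degree one.**  `T` a noetherian local domain with a ring
homomorphism `β : S → T` such that `S ⧸ ϖ` is a Dedekind domain, `β ϖ` is a prime element,
`β⁻¹(ϖ T) = ϖ S`, and every element of `T` is congruent modulo `ϖ` to a fraction `β a / β d`
with `ϖ ∤ d`.  Then `T` is a unique factorisation domain. -/
theorem ufd_of_residue_surj (β : S →+* T) (ϖ : S)
    (hded : IsDedekindDomain (S ⧸ Ideal.span {ϖ}))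
    (hprime : Prime (β ϖ))
    (hcomap : ∀ s : S, β ϖ ∣ β s → ϖ ∣ s)
    (hres : ∀ c : T, ∃ a d : S, ¬ ϖ ∣ d ∧ β ϖ ∣ c * β d - β a) :
    UniqueFactorizationMonoid T := by
  classical
  set y : Ideal S := (maximalIdeal T).comap β with hy
  haveI hyp : y.IsPrime := Ideal.comap_isPrime β (maximalIdeal T)
  have hϖy : ϖ ∈ y := hprime.not_isUnit
  have hmemy : ∀ s : S, s ∈ y ↔ ¬ IsUnit (β s) := fun s => Iff.rfl
  have hϖprime : (Ideal.span {ϖ} : Ideal S).IsPrime :=
    (Ideal.Quotient.isDomain_iff_prime _).mp hded.toIsDomain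
  have hdvd_or : ∀ a b : S, ϖ ∣ a * b → ϖ ∣ a ∨ ϖ ∣ b := by
    intro a b hab
    have h1 : a * b ∈ (Ideal.span {ϖ} : Ideal S) := Ideal.mem_span_singleton.mpr hab
    rcases hϖprime.mem_or_mem h1 with h | h
    · exact Or.inl (Ideal.mem_span_singleton.mp h)
    · exact Or.inr (Ideal.mem_span_singleton.mp h)
  have hjac : β ϖ ∈ Ideal.jacobson (⊥ : Ideal T) := by
    rw [IsLocalRing.jacobson_eq_maximalIdeal ⊥ bot_ne_top]
    exact hprime.not_isUnit
  refine Fermat.Agent.S18.H72.ufd_of_nakayama (β ϖ) hprime hjac ?_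
  intro Q hQ hϖQ
  have hQle : Q ≤ maximalIdeal T := IsLocalRing.le_maximalIdeal hQ.ne_top
  rcases comap_maximalIdeal_eq_or_isMaximal β ϖ hded hprime.not_isUnit with hyeq | hymax
  · -- the residue field of `T` is the generic point: `m_T = ϖ T`
    refine ⟨0, Q.zero_mem, fun Y hY => ?_⟩
    obtain ⟨a, d, hd, hdvd⟩ := hres Y
    have hdy : d ∉ y := by
      rw [← hy] at hyeq
      rw [hyeq, Ideal.mem_span_singleton]
      exact hd
    have hdu : IsUnit (β d) := by
      by_contra h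
      exact hdy h
    have hYm : Y ∈ maximalIdeal T := hQle hY
    have ham : β a ∈ maximalIdeal T := by
      obtain ⟨k, hk⟩ := hdvd
      have e : β a = Y * β d - β ϖ * k := by rw [← hk]; ring
      rw [e]
      exact Ideal.sub_mem _ (Ideal.mul_mem_right _ _ hYm)
        (Ideal.mul_mem_right _ _ hprime.not_isUnit)
    have hay : a ∈ y := ham
    rw [← hy] at hyeq
    rw [hyeq, Ideal.mem_span_singleton] at hay
    have h1 : β ϖ ∣ β a := map_dvd β hay
    have h2 : β ϖ ∣ Y * β d := by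
      have e : Y * β d = (Y * β d - β a) + β a := by ring
      rw [e]
      exact dvd_add hdvd h1
    obtain ⟨e, he⟩ := (hdu.dvd_mul_right).mp h2
    exact ⟨0, e, by rw [he]; ring⟩
  · -- `y` is a maximal ideal of `S`
    -- every element of `T` is `≡ β a / β d` with `d ∉ y`
    have hres' : ∀ c : T, ∃ a d : S, d ∉ y ∧ β ϖ ∣ c * β d - β a := by
      intro c
      obtain ⟨a₀, d₀, hd₀, hdvd⟩ := hres c
      obtain ⟨g, hg, s, hs, hgen⟩ := Fermat.Agent.S18.H72.exists_local_gen ϖ hded y hymax hϖy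
        (Ideal.span {a₀, d₀})
      obtain ⟨l, m, hlm⟩ := Ideal.mem_span_pair.mp hg
      obtain ⟨ca, ea, hca⟩ := hgen a₀ (Ideal.subset_span (by simp))
      obtain ⟨cd, ed, hcd⟩ := hgen d₀ (Ideal.subset_span (by simp))
      have hsϖ : ¬ ϖ ∣ s := fun h => hs (Ideal.mem_of_dvd y h hϖy)
      -- `g ∉ ϖ S`
      have hgϖ : ¬ ϖ ∣ g := by
        intro h
        have h1 : ϖ ∣ s * d₀ := by
          rw [hcd]
          exact dvd_add (Dvd.dvd.mul_right h _) (dvd_mul_right _ _)
        rcases hdvd_or _ _ h1 with h2 | h2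
        · exact hsϖ h2
        · exact hd₀ h2
      -- `s ≡ l ca + m cd` modulo `ϖ`
      have h3 : ϖ ∣ g * (s - (l * ca + m * cd)) := by
        refine ⟨l * ea + m * ed, ?_⟩
        have e : g * (s - (l * ca + m * cd)) = l * (s * a₀) + m * (s * d₀) - g * (l * ca + m * cd) := by
          rw [← hlm]; ring
        rw [e, hca, hcd]
        ring
      have h4 : ϖ ∣ s - (l * ca + m * cd) := (hdvd_or _ _ h3).resolve_left hgϖ
      have h5 : ¬ (ca ∈ y ∧ cd ∈ y) := by
        rintro ⟨h6, h7⟩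
        apply hs
        have e : s = (s - (l * ca + m * cd)) + (l * ca + m * cd) := by ring
        rw [e]
        exact y.add_mem (Ideal.mem_of_dvd y h4 hϖy)
          (y.add_mem (y.mul_mem_left _ h6) (y.mul_mem_left _ h7))
      -- `a₀ cd ≡ d₀ ca` modulo `ϖ`
      have h8 : ϖ ∣ a₀ * cd - d₀ * ca := by
        have h9 : ϖ ∣ s * (a₀ * cd - d₀ * ca) := by
          refine ⟨ea * cd - ed * ca, ?_⟩
          have e : s * (a₀ * cd - d₀ * ca) = (s * a₀) * cd - (s * d₀) * ca := by ring
          rw [e, hca, hcd]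
          ring
        exact (hdvd_or _ _ h9).resolve_left hsϖ
      -- hence `c β cd ≡ β ca`
      have h10 : β ϖ ∣ c * β cd - β ca := by
        have h11 : β ϖ ∣ β d₀ * (c * β cd - β ca) := by
          have e : β d₀ * (c * β cd - β ca) =
              (c * β d₀ - β a₀) * β cd + β (a₀ * cd - d₀ * ca) := by
            rw [map_sub, map_mul, map_mul]; ring
          rw [e]
          exact dvd_add (Dvd.dvd.mul_right hdvd _) (map_dvd β h8)
        rcases hprime.dvd_or_dvd h11 with h12 | h12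
        · exact absurd (hcomap d₀ h12) hd₀
        · exact h12
      by_cases hcdy : cd ∈ y
      · exfalso
        apply h5
        refine ⟨?_, hcdy⟩
        show β ca ∈ maximalIdeal T
        obtain ⟨k, hk⟩ := h10
        have e : β ca = c * β cd - β ϖ * k := by rw [← hk]; ring
        rw [e]
        exact Ideal.sub_mem _ (Ideal.mul_mem_left _ _ hcdy)
          (Ideal.mul_mem_right _ _ hprime.not_isUnit)
      · exact ⟨ca, cd, hcdy, h10⟩
    -- local generation of `Q` modulo `ϖ`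
    obtain ⟨g₀, hg₀, s₀, hs₀, hgen⟩ := Fermat.Agent.S18.H72.exists_local_gen ϖ hded y hymax hϖy
      ((Q ⊔ Ideal.span {β ϖ}).comap β)
    obtain ⟨g, hgQ, z, hz, hgz⟩ := Submodule.mem_sup.mp hg₀
    obtain ⟨e', he'⟩ := Ideal.mem_span_singleton'.mp hz
    have hs₀u : IsUnit (β s₀) := by
      by_contra h
      exact hs₀ h
    obtain ⟨u₁, hu₁⟩ := hs₀u.exists_left_inv
    refine ⟨g, hgQ, fun Y hY => ?_⟩
    obtain ⟨a, d, hd, k, hk⟩ := hres' Y
    have hdu : IsUnit (β d) := by
      by_contra h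
      exact hd h
    obtain ⟨u₂, hu₂⟩ := hdu.exists_left_inv
    have ha : a ∈ (Q ⊔ Ideal.span {β ϖ}).comap β := by
      rw [Ideal.mem_comap]
      have e : β a = Y * β d + β ϖ * (-k) := by
        have : β ϖ * (-k) = -(Y * β d - β a) := by rw [hk]; ring
        rw [this]; ring
      rw [e]
      exact Submodule.add_mem_sup (Q.mul_mem_right _ hY)
        (Ideal.mul_mem_right _ _ (Ideal.mem_span_singleton_self _))
    obtain ⟨c₀, e₀, hc₀⟩ := hgen a ha
    have hβ : β s₀ * β a = β g₀ * β c₀ + β ϖ * β e₀ := by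
      rw [← map_mul, hc₀, map_add, map_mul, map_mul]
    refine ⟨u₁ * u₂ * β c₀, u₂ * (u₁ * (e' * β c₀ + β e₀) + k), ?_⟩
    have hY : Y = u₂ * (Y * β d) := by
      rw [mul_comm Y, ← mul_assoc, hu₂, one_mul]
    have hYd : Y * β d = β a + β ϖ * k := by rw [← hk]; ring
    have hβa : β a = u₁ * (β s₀ * β a) := by rw [← mul_assoc, hu₁, one_mul]
    rw [hY, hYd, hβa, hβ, ← hgz, ← he']
    ring

end Abstract

section Valuation

variable {S T F : Type*} [CommRing S] [CommRing T] [IsDomain T] [IsNoetherianRing T]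
  [IsLocalRing T] [Field F] [Algebra T F]

/-- **Local factoriality, valuation form.**  `T ⊆ V` a noetherian local domain inside a valuation
subring, with `T ∩ m_V = ϖ T`; `β : S → T` with `S ⧸ ϖ` Dedekind, `β⁻¹(m_V) = ϖ S`, and every
element of `T` congruent modulo `m_V` to a fraction `β a / β d` with `ϖ ∤ d`. -/
theorem ufd_of_valuation (V : ValuationSubring F) (β : S →+* T) (ϖ : S)
    (hded : IsDedekindDomain (S ⧸ Ideal.span {ϖ}))
    (hTV : ∀ t : T, algebraMap T F t ∈ V)
    (hϖV : algebraMap T F (β ϖ) ∈ V.nonunits) (hϖ0 : β ϖ ≠ 0)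
    (hTm : ∀ t : T, algebraMap T F t ∈ V.nonunits → β ϖ ∣ t)
    (hSm : ∀ s : S, algebraMap T F (β s) ∈ V.nonunits → ϖ ∣ s)
    (hres : ∀ c : T, ∃ a d : S, ¬ ϖ ∣ d ∧ algebraMap T F (c * β d - β a) ∈ V.nonunits) :
    UniqueFactorizationMonoid T := by
  have hmul : ∀ a b : F, a ∈ V.nonunits → b ∈ V → a * b ∈ V.nonunits := by
    intro a b ha hb
    rw [ValuationSubring.mem_nonunits_iff] at ha ⊢
    rw [map_mul]
    exact mul_lt_one_of_lt_of_le ha ((ValuationSubring.valuation_le_one_iff _ _).2 hb)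
  have hdvd : ∀ t : T, β ϖ ∣ t → algebraMap T F t ∈ V.nonunits := by
    rintro t ⟨k, rfl⟩
    rw [map_mul]
    exact hmul _ _ hϖV (hTV k)
  have hprime : Prime (β ϖ) := by
    refine ⟨hϖ0, ?_, ?_⟩
    · intro hu
      obtain ⟨k, hk⟩ := hu.exists_right_inv
      have h1 := hdvd (β ϖ * k) (dvd_mul_right _ _)
      rw [hk, map_one, ValuationSubring.mem_nonunits_iff, map_one] at h1
      exact lt_irrefl _ h1
    · intro a b hab
      have h1 := hdvd _ hab
      rw [map_mul, ValuationSubring.mem_nonunits_iff, map_mul] at h1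
      by_contra hcon
      rw [not_or] at hcon
      have ha : ¬ algebraMap T F a ∈ V.nonunits := fun h => hcon.1 (hTm a h)
      have hb : ¬ algebraMap T F b ∈ V.nonunits := fun h => hcon.2 (hTm b h)
      rw [ValuationSubring.mem_nonunits_iff, not_lt] at ha hb
      have ha' := le_antisymm ((ValuationSubring.valuation_le_one_iff _ _).2 (hTV a)) ha
      have hb' := le_antisymm ((ValuationSubring.valuation_le_one_iff _ _).2 (hTV b)) hb
      rw [ha', hb', one_mul] at h1
      exact lt_irrefl _ h1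
  refine ufd_of_residue_surj β ϖ hded hprime (fun s hs => hSm s (hdvd _ hs)) ?_
  intro c
  obtain ⟨a, d, hd, h⟩ := hres c
  exact ⟨a, d, hd, hTm _ h⟩

end Valuation

section Chart

variable {A₀ F₀ : Type*} [CommRing A₀] [Field F₀] [Algebra A₀ F₀]

/-- `b ∈ V`, `b ∉ m_V` implies `b⁻¹ ∈ V`. -/
theorem inv_mem_of_not_mem_nonunits' (V : ValuationSubring F₀) {b : F₀} (hb : b ∉ V.nonunits) :
    b⁻¹ ∈ V := by
  by_contra h
  exact hb (V.mem_nonunits_iff_or.mpr (Or.inr h))

/-- A maximal ideal lying on the component `V` only contains `C ∩ m_V`. -/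
theorem mem_of_mem_nonunits_of_oneComp (ϖ : A₀) (C : Subalgebra A₀ F₀)
    (V V' : ValuationSubring F₀) (hCV : ∀ c ∈ C, c ∈ V) (hCV' : ∀ c ∈ C, c ∈ V')
    (hred : ∀ c ∈ C, c ∈ V.nonunits → c ∈ V'.nonunits → ∃ d ∈ C, c = ϖ • d)
    (x : Ideal ↥C) [x.IsPrime] (hϖx : algebraMap A₀ ↥C ϖ ∈ x)
    (hone : ∃ e : ↥C, e ∉ x ∧ (e : F₀) ∈ V'.nonunits) (c : ↥C) (hc : (c : F₀) ∈ V.nonunits) :
    c ∈ x := by
  obtain ⟨e, hex, heV'⟩ := hone
  have hmul : ∀ (W : ValuationSubring F₀) (a b : F₀), a ∈ W.nonunits → b ∈ W →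
      a * b ∈ W.nonunits := by
    intro W a b ha hb
    rw [ValuationSubring.mem_nonunits_iff] at ha ⊢
    rw [map_mul]
    exact mul_lt_one_of_lt_of_le ha ((ValuationSubring.valuation_le_one_iff _ _).2 hb)
  have h1 : ((c * e : ↥C) : F₀) ∈ V.nonunits := by
    rw [Subalgebra.coe_mul]
    exact hmul V _ _ hc (hCV _ e.2)
  have h2 : ((c * e : ↥C) : F₀) ∈ V'.nonunits := by
    rw [Subalgebra.coe_mul, mul_comm]
    exact hmul V' _ _ heV' (hCV' _ c.2)
  obtain ⟨d, hd, hcd⟩ := hred _ (c * e).2 h1 h2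
  have h3 : c * e = algebraMap A₀ ↥C ϖ * ⟨d, hd⟩ := by
    apply Subtype.ext
    rw [hcd, Algebra.smul_def]
    rfl
  have h4 : c * e ∈ x := by
    rw [h3]
    exact x.mul_mem_right _ hϖx
  exact (Ideal.IsPrime.mem_or_mem inferInstance h4).resolve_right hex

/-- **(M6a), local form.**  `x` a maximal ideal of the chart `C` containing `ϖ` and lying on the
component `V` only (`hone`), the special fibre being reduced (`hred`).  Let `β : S → F₀` be a ring
homomorphism with values in the local ring `C_x` (`hloc`), `S ⧸ ϖ` a Dedekind domain,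
`β⁻¹(m_V) = ϖ S` and every element of `V` congruent modulo `m_V` to a fraction `β a / β d` with
`ϖ ∤ d`.  Then the local ring of `C` at `x` is a unique factorisation domain. -/
theorem pointUFD_of_oneComp_local
    (ϖ : A₀) (hϖ0 : algebraMap A₀ F₀ ϖ ≠ 0) (C : Subalgebra A₀ F₀) [IsNoetherianRing ↥C]
    (hfrac : ∀ y : F₀, ∃ a ∈ C, ∃ b ∈ C, b ≠ 0 ∧ y = a / b)
    (V V' : ValuationSubring F₀)
    (hCV : ∀ c ∈ C, c ∈ V) (hCV' : ∀ c ∈ C, c ∈ V')
    (hϖV : algebraMap A₀ F₀ ϖ ∈ V.nonunits)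
    (hred : ∀ c ∈ C, c ∈ V.nonunits → c ∈ V'.nonunits → ∃ d ∈ C, c = ϖ • d)
    (x : Ideal ↥C) (hx : x.IsMaximal) (hϖx : algebraMap A₀ ↥C ϖ ∈ x)
    (hone : ∃ e : ↥C, e ∉ x ∧ (e : F₀) ∈ V'.nonunits)
    {S : Type*} [CommRing S] (β : S →+* F₀) (ϖS : S) (hβϖ : β ϖS = algebraMap A₀ F₀ ϖ)
    (hded : IsDedekindDomain (S ⧸ Ideal.span {ϖS}))
    (hloc : ∀ s : S, ∃ a b : ↥C, b ∉ x ∧ β s * (b : F₀) = (a : F₀))
    (hSm : ∀ s : S, β s ∈ V.nonunits → ϖS ∣ s)
    (hres : ∀ g ∈ V, ∃ a d : S, ¬ ϖS ∣ d ∧ g * β d - β a ∈ V.nonunits) :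
    haveI := hx.isPrime
    UniqueFactorizationMonoid (Localization.AtPrime x) := by
  haveI hxp : x.IsPrime := hx.isPrime
  haveI hF : IsFractionRing ↥C F₀ := by
    refine IsFractionRing.of_field ↥C F₀ fun z => ?_
    obtain ⟨a, ha, b, hb, -, rfl⟩ := hfrac z
    exact ⟨⟨a, ha⟩, ⟨b, hb⟩, rfl⟩
  have hS : x.primeCompl ≤ nonZeroDivisors ↥C := Ideal.primeCompl_le_nonZeroDivisors x
  let R : Subalgebra ↥C F₀ := Localization.subalgebra.ofField F₀ x.primeCompl hS
  haveI hlocR : IsLocalization.AtPrime ↥R x :=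
    Localization.subalgebra.isLocalization_ofField F₀ x.primeCompl hS
  haveI hlr : IsLocalRing ↥R := IsLocalization.AtPrime.isLocalRing ↥R x
  haveI hnoeth : IsNoetherianRing ↥R :=
    IsLocalization.isNoetherianRing x.primeCompl ↥R inferInstance
  have hmemR : ∀ y : F₀, y ∈ R ↔ ∃ (a s : ↥C) (_ : s ∈ x.primeCompl),
      y = algebraMap ↥C F₀ a * (algebraMap ↥C F₀ s)⁻¹ := fun y => Iff.rfl
  have hP : ∀ c : ↥C, (c : F₀) ∈ V.nonunits → c ∈ x :=
    mem_of_mem_nonunits_of_oneComp ϖ C V V' hCV hCV' hred x hϖx hone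
  have hinvV : ∀ b : ↥C, b ∉ x → (b : F₀)⁻¹ ∈ V := fun b hb =>
    inv_mem_of_not_mem_nonunits' V (fun h => hb (hP b h))
  have hmul : ∀ a b : F₀, a ∈ V.nonunits → b ∈ V → a * b ∈ V.nonunits := by
    intro a b ha hb
    rw [ValuationSubring.mem_nonunits_iff] at ha ⊢
    rw [map_mul]
    exact mul_lt_one_of_lt_of_le ha ((ValuationSubring.valuation_le_one_iff _ _).2 hb)
  -- `R ⊆ V`
  have hRV : ∀ t : ↥R, (t : F₀) ∈ V := by
    intro t
    obtain ⟨a, s, hs, hts⟩ := (hmemR _).1 t.2
    rw [hts]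
    exact V.mul_mem _ _ (hCV _ a.2) (hinvV s hs)
  -- `β` has values in `R`
  have hβR : ∀ s : S, β s ∈ R := by
    intro s
    obtain ⟨a, b, hb, hab⟩ := hloc s
    refine (hmemR _).2 ⟨a, b, hb, ?_⟩
    have hb0 : (b : F₀) ≠ 0 := by
      intro h0
      apply hb
      have : b = 0 := Subtype.ext h0
      rw [this]
      exact x.zero_mem
    show β s = (a : F₀) * (b : F₀)⁻¹
    rw [← hab, mul_assoc, mul_inv_cancel₀ hb0, mul_one]
  let β' : S →+* ↥R := β.codRestrict R hβR
  have hβ' : ∀ s : S, ((β' s : ↥R) : F₀) = β s := fun s => rfl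
  have hϖR : ((β' ϖS : ↥R) : F₀) = algebraMap A₀ F₀ ϖ := by rw [hβ', hβϖ]
  have key : UniqueFactorizationMonoid ↥R := by
    refine ufd_of_valuation (F := F₀) V β' ϖS hded hRV ?_ ?_ ?_ ?_ ?_
    · show ((β' ϖS : ↥R) : F₀) ∈ V.nonunits
      rw [hϖR]
      exact hϖV
    · intro h0
      apply hϖ0
      rw [← hϖR, h0]
      rfl
    · -- `R ∩ m_V = ϖ R`
      intro t ht
      have ht' : (t : F₀) ∈ V.nonunits := ht
      obtain ⟨a, s, hs, hts⟩ := (hmemR _).1 t.2
      have hs0 : (s : F₀) ≠ 0 := by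
        intro h0
        apply hs
        have : s = 0 := Subtype.ext h0
        rw [this]
        exact x.zero_mem
      obtain ⟨e, hex, heV'⟩ := hone
      have he0 : (e : F₀) ≠ 0 := by
        intro h0
        apply hex
        have : e = 0 := Subtype.ext h0
        rw [this]
        exact x.zero_mem
      have ha : (a : F₀) = (t : F₀) * (s : F₀) := by
        have h1 : (t : F₀) = (a : F₀) * (s : F₀)⁻¹ := hts
        rw [h1, mul_assoc, inv_mul_cancel₀ hs0, mul_one]
      have h1 : ((a * e : ↥C) : F₀) ∈ V.nonunits := by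
        rw [Subalgebra.coe_mul, ha]
        exact hmul _ _ (hmul _ _ ht' (hCV _ s.2)) (hCV _ e.2)
      have h2 : ((a * e : ↥C) : F₀) ∈ V'.nonunits := by
        rw [Subalgebra.coe_mul, mul_comm, ValuationSubring.mem_nonunits_iff, map_mul]
        exact mul_lt_one_of_lt_of_le ((ValuationSubring.mem_nonunits_iff _).1 heV')
          ((ValuationSubring.valuation_le_one_iff _ _).2 (hCV' _ a.2))
      obtain ⟨d, hd, hade⟩ := hred _ (a * e).2 h1 h2
      -- `t = ϖ * (d / (s e))`
      have hse : s * e ∈ x.primeCompl := x.primeCompl.mul_mem hs hex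
      have hk : (d : F₀) * (((s * e : ↥C) : F₀))⁻¹ ∈ R :=
        (hmemR _).2 ⟨⟨d, hd⟩, s * e, hse, rfl⟩
      refine ⟨⟨_, hk⟩, ?_⟩
      apply Subtype.ext
      rw [Subalgebra.coe_mul, hϖR]
      show (t : F₀) = algebraMap A₀ F₀ ϖ * ((d : F₀) * (((s * e : ↥C) : F₀))⁻¹)
      have h3 : (a : F₀) * (e : F₀) = algebraMap A₀ F₀ ϖ * d := by
        have := hade
        rw [Subalgebra.coe_mul, Algebra.smul_def] at this
        exact this
      rw [Subalgebra.coe_mul, ← mul_assoc, ← h3, ha]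
      field_simp
    · intro s hs
      exact hSm s hs
    · intro c
      obtain ⟨a, d, hd, h⟩ := hres (c : F₀) (hRV c)
      exact ⟨a, d, hd, h⟩
  exact (IsLocalization.algEquiv x.primeCompl ↥R
    (Localization.AtPrime x)).toMulEquiv.uniqueFactorizationMonoid key

end Chart

end Fermat.Agent.S34.H42

end
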